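import Fermat.Agent.Duality.Global.Two.Rel

/-!
# Approximation lemmas for quadratic norms
-/

set_option autoImplicit false

open IsDedekindDomain NumberField WithZero Module

namespace Fermat.Agent.Duality.Global.Two

variable {F : Type} [Field F] [NumberField F]

omit [NumberField F] in
lemma exists_exp_bound (v : Valuation F ℤᵐ⁰) (z : F) : ∃ m : ℕ, v z ≤ exp (m : ℤ) := by
  by_cases h : v z = 0
  · exact ⟨0, by rw [h]; exact zero_le⟩
  · exact ⟨(log (v z)).toNat, by rw [← exp_log h, exp_le_exp, log_exp]; omega⟩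

/-- An element which is small at `S` and on one side of a bound at every real place. -/
theorem exists_small_big (S : Finset (HeightOneSpectrum (𝓞 F))) (n : ℕ) (b : Fˣ)
    (s : InfinitePlace F → Prop) :
    ∃ Y : F, (∀ v ∈ S, v.valuation F Y ≤ exp (-(n : ℤ))) ∧
      ∀ w : InfinitePlace F, w.IsReal → 0 < (w.embedding (b : F)).re →
        (s w → (w.embedding (b : F)).re * (w.embedding Y).re ^ 2 < 1) ∧
        (¬ s w → 1 < (w.embedding (b : F)).re * (w.embedding Y).re ^ 2) := by
  classical
  choose f hf using fun w : InfinitePlace F => exists_nat_gt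
    (|(w.embedding (b : F)).re| + 4 / |(w.embedding (b : F)).re| + 4)
  set K : ℕ := Finset.univ.sup f + 1 with hK
  have hKw : ∀ w : InfinitePlace F,
      |(w.embedding (b : F)).re| + 4 / |(w.embedding (b : F)).re| + 4 < (K : ℝ) := by
    intro w
    refine (hf w).trans_le ?_
    exact_mod_cast (Finset.le_sup (Finset.mem_univ w)).trans (Nat.le_succ _)
  have hK0 : (0 : ℝ) < K := by
    rw [hK]; positivity
  let t : InfinitePlace F → F := fun w => if s w then 0 else (K : F)
  have hd := InfinitePlace.denseRange_algebraMap_pi F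
    (fun w => (WithAbs.equiv w.1).symm (t w))
  rw [Metric.mem_closure_iff] at hd
  obtain ⟨_, ⟨g, rfl⟩, hg⟩ := hd (1 / K) (by positivity)
  have hclose : ∀ w : InfinitePlace F, ‖w.embedding (t w - g)‖ < 1 / K := by
    intro w
    have h1 := (dist_pi_lt_iff (by positivity)).mp hg w
    rw [dist_eq_norm, WithAbs.norm_eq_apply_ofAbs] at h1
    rw [InfinitePlace.norm_embedding_eq]
    exact h1
  choose r hr hrv using fun v : HeightOneSpectrum (𝓞 F) => Places.exists_prime_natCast_mem v
  obtain ⟨m, hm⟩ : ∃ m : ℕ, ∀ v ∈ S, v.valuation F g ≤ exp (m : ℤ) := by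
    choose m hm using fun v : HeightOneSpectrum (𝓞 F) => exists_exp_bound (v.valuation F) g
    exact ⟨∑ v ∈ S, m v, fun v hv => (hm v).trans
      (exp_le_exp.mpr (by exact_mod_cast Finset.single_le_sum (fun _ _ => Nat.zero_le _) hv))⟩
  set M : ℕ := ∏ v ∈ S, r v ^ (n + m + 1) with hM
  have hM1 : 1 ≤ M := Nat.one_le_iff_ne_zero.mpr
    (Finset.prod_ne_zero_iff.mpr fun v _ => pow_ne_zero _ (hr v).ne_zero)
  refine ⟨g * ((M : F) / ((M + 1 : ℕ) : F)), fun v hv => ?_, fun w hw hb => ?_⟩
  · have h1 : v.valuation F (M : F) ≤ exp (-((n + m + 1 : ℕ) : ℤ)) := by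
      rw [← map_natCast (algebraMap (𝓞 F) F), ← mem_pow_iff_valuation, hM, Nat.cast_prod,
        ← Finset.mul_prod_erase _ _ hv]
      refine Ideal.mul_mem_right _ _ ?_
      push_cast
      exact Ideal.pow_mem_pow (hrv v) _
    have h2 : v.valuation F ((M + 1 : ℕ) : F) = 1 := valuation_eq_one_of_close v (n := n + m + 1)
      (by omega) (by rwa [Nat.cast_add, Nat.cast_one, add_sub_cancel_right])
    rw [map_mul, map_div₀, h2, div_one]
    refine (mul_le_mul' (hm v hv) h1).trans ?_
    rw [← exp_add, exp_le_exp]; omega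
  · have him : ∀ z : F, (w.embedding z).im = 0 := fun z => by
      rw [← InfinitePlace.embedding_of_isReal_apply hw]; exact Complex.ofReal_im _
    set β := (w.embedding (b : F)).re
    set ρ : ℝ := (M : ℝ) / (M + 1)
    have hρ : 1 / 2 ≤ ρ ∧ ρ ≤ 1 := by
      have : (1 : ℝ) ≤ M := by exact_mod_cast hM1
      constructor
      · rw [le_div_iff₀ (by positivity)]; linarith
      · rw [div_le_one (by positivity)]; linarith
    have hY : (w.embedding (g * ((M : F) / ((M + 1 : ℕ) : F)))).re =
        (w.embedding g).re * ρ := by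
      rw [map_mul, map_div₀, map_natCast, map_natCast, Complex.mul_re, him, zero_mul, sub_zero,
        show ((M : ℂ) / ((M + 1 : ℕ) : ℂ)) = ((ρ : ℝ) : ℂ) by simp [ρ], Complex.ofReal_re]
    rw [hY]
    have h1 := (Complex.abs_re_le_norm _).trans_lt (hclose w)
    rw [map_sub, Complex.sub_re] at h1
    have hk := hKw w
    rw [abs_of_pos hb] at hk
    have h4 : 4 / β < K := by
      have h40 : 0 < 4 / β := by positivity
      linarith
    rw [div_lt_iff₀ hb] at h4
    have hK4 : (4 : ℝ) ≤ K := by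
      have h40 : 0 < 4 / β := by positivity
      linarith
    constructor <;> intro hs <;> simp only [t, if_pos, if_neg, hs, not_false_eq_true] at h1
    · rw [map_zero, Complex.zero_re, zero_sub, abs_neg, lt_div_iff₀ hK0] at h1
      have h2 : |(w.embedding g).re * ρ| * K < 1 := by
        rw [abs_mul, abs_of_pos (lt_of_lt_of_le (by norm_num) hρ.1)]
        refine lt_of_le_of_lt ?_ h1
        exact mul_le_mul_of_nonneg_right (mul_le_of_le_one_right (abs_nonneg _) hρ.2) hK0.le
      have hβK : β < K := by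
        have h40 : 0 < 4 / β := by positivity
        linarith
      have h3 : ((w.embedding g).re * ρ * K) ^ 2 < 1 := by
        rw [sq_lt_one_iff_abs_lt_one, abs_mul, abs_of_pos hK0]; exact h2
      have h5 : β < (K : ℝ) ^ 2 := by nlinarith
      by_contra hcon
      push Not at hcon
      nlinarith [sq_nonneg ((w.embedding g).re * ρ)]
    · rw [map_natCast, Complex.natCast_re, abs_lt] at h1
      have hinv : (1 : ℝ) / K ≤ 1 := (div_le_one hK0).mpr (by linarith)
      have h2 : ((K : ℝ) - 1) / 2 ≤ (w.embedding g).re * ρ := by nlinarith [hρ.1]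
      have h3 : ((K : ℝ) - 1) / 2 ≥ 1 := by linarith
      have h6 : ((K : ℝ) - 1) / 2 ≤ ((w.embedding g).re * ρ) ^ 2 := by nlinarith
      nlinarith

/-- Local norms are global norms times local squares. -/
theorem normAll_le (b : Fˣ) (S : Finset (HeightOneSpectrum (𝓞 F))) :
    normAll b S ≤ normVals b ⊔ sqAll S := by
  classical
  by_cases hsq : ∃ z : Fˣ, z ^ 2 = b
  · obtain ⟨z, hz⟩ := hsq
    rw [normVals_eq_top_of_sq hz, top_sup_eq]; exact le_top
  push Not at hsq
  intro x hx
  set k : ℕ := ∑ v ∈ S, (2 * ordP v 2 + 1) + 1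
  have hk : ∀ v ∈ S, congrOne v k ≤ localPow v 2 := fun v hv =>
    (congrOne_antitone v ((Finset.single_le_sum (f := fun u => 2 * ordP u 2 + 1)
      (fun _ _ => Nat.zero_le _) hv).trans (Nat.le_succ _))).trans
      (congrOne_le_localPow v two_ne_zero)
  choose! c X Y hc hXY using fun v (hv : v ∈ S) =>
    exists_of_mem_normTwo ((mem_normAll.mp hx).1 v hv) k
  obtain ⟨m, hm⟩ : ∃ m : ℕ, ∀ v ∈ S, v.valuation F (2 * X v) ≤ exp (m : ℤ) ∧
      v.valuation F (2 * Y v) ≤ exp (m : ℤ) ∧ v.valuation F (b : F) ≤ exp (m : ℤ) ∧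
      (v.valuation F (x : F))⁻¹ ≤ exp (m : ℤ) := by
    choose f1 hf1 using fun v : HeightOneSpectrum (𝓞 F) =>
      exists_exp_bound (v.valuation F) (2 * X v)
    choose f2 hf2 using fun v : HeightOneSpectrum (𝓞 F) =>
      exists_exp_bound (v.valuation F) (2 * Y v)
    choose f3 hf3 using fun v : HeightOneSpectrum (𝓞 F) => exists_exp_bound (v.valuation F) (b : F)
    choose f4 hf4 using fun v : HeightOneSpectrum (𝓞 F) =>
      exists_exp_bound (v.valuation F) (x : F)⁻¹
    refine ⟨∑ v ∈ S, (f1 v + f2 v + f3 v + f4 v), fun v hv => ?_⟩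
    have hle : ∀ j, j ≤ f1 v + f2 v + f3 v + f4 v →
        exp (j : ℤ) ≤ exp ((∑ u ∈ S, (f1 u + f2 u + f3 u + f4 u) : ℕ) : ℤ) := fun j hj =>
      exp_le_exp.mpr (by exact_mod_cast hj.trans (Finset.single_le_sum
        (f := fun u => f1 u + f2 u + f3 u + f4 u) (fun _ _ => Nat.zero_le _) hv))
    refine ⟨(hf1 v).trans (hle _ (by omega)), (hf2 v).trans (hle _ (by omega)),
      (hf3 v).trans (hle _ (by omega)), ?_⟩
    rw [← map_inv₀]
    exact (hf4 v).trans (hle _ (by omega))
  set N : ℕ := k + 3 * m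
  obtain ⟨X₀, hX₀⟩ := exists_approx S N X
  obtain ⟨Y₀, hY₀⟩ := exists_approx S N Y
  have hstep : ∀ v ∈ S, ∀ {z z₀ : F}, v.valuation F (2 * z) ≤ exp (m : ℤ) →
      v.valuation F (z₀ - z) ≤ exp (-(N : ℤ)) →
      v.valuation F (z₀ ^ 2 - z ^ 2) ≤ exp (-(N : ℤ) + m) := by
    intro v _ z z₀ hz hd
    rw [show z₀ ^ 2 - z ^ 2 = (z₀ - z) * ((z₀ - z) + 2 * z) by ring, map_mul, exp_add]
    exact mul_le_mul' hd ((Valuation.map_add _ _ _).trans
      (max_le (hd.trans (exp_le_exp.mpr (by omega))) hz))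
  have hclose : ∀ v ∈ S,
      v.valuation F ((X₀ ^ 2 - (b : F) * Y₀ ^ 2) / x - 1) ≤ exp (-(k : ℤ)) := by
    intro v hv
    obtain ⟨h1, h2, h3, h4⟩ := hm v hv
    rw [show (X₀ ^ 2 - (b : F) * Y₀ ^ 2) / x - 1 =
        ((X₀ ^ 2 - X v ^ 2) - (b : F) * (Y₀ ^ 2 - Y v ^ 2)) / x + ((1 : F) / c v - 1) by
      have hx0 : (x : F) ≠ 0 := x.ne_zero
      have e : ((x : F) / c v) / x = 1 / c v := by field_simp
      rw [← e, hXY v hv]
      ring]
    refine (Valuation.map_add _ _ _).trans (max_le ?_ ?_)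
    · rw [map_div₀, div_eq_mul_inv]
      refine (mul_le_mul' ((Valuation.map_sub _ _ _).trans (max_le
        ((hstep v hv h1 (hX₀ v hv)).trans (exp_le_exp.mpr (show -(N : ℤ) + m ≤ -(N : ℤ) + 2 * m by
          omega))) ?_)) h4).trans ?_
      · rw [map_mul]
        refine (mul_le_mul' h3 (hstep v hv h2 (hY₀ v hv))).trans ?_
        rw [← exp_add, exp_le_exp]; omega
      · rw [← exp_add, exp_le_exp]; omega
    · have h5 := ((congrOne v k).inv_mem (hc v hv)).2
      rwa [Units.val_inv_eq_inv_val, inv_eq_one_div] at h5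
  obtain ⟨y₁, hy₁, hy₁S⟩ : ∃ y₁ ∈ normVals b, ∀ v ∈ S, y₁ / x ∈ congrOne v k := by
    by_cases h0 : X₀ ^ 2 - (b : F) * Y₀ ^ 2 = 0
    · refine ⟨1, one_mem _, fun v hv => ?_⟩
      have h6 := hclose v hv
      rw [h0, zero_div, zero_sub, Valuation.map_neg, map_one, ← exp_zero, exp_le_exp] at h6
      omega
    · exact ⟨Units.mk0 _ h0, ⟨X₀, Y₀, rfl⟩, fun v hv => mem_congrOne_of_close v (by omega)
        (by rw [Units.val_div_eq_div_val]; exact hclose v hv)⟩
  -- now fix the signs
  obtain ⟨mb, hmb⟩ : ∃ mb : ℕ, ∀ v ∈ S, v.valuation F (b : F) ≤ exp (mb : ℤ) :=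
    ⟨m, fun v hv => (hm v hv).2.2.1⟩
  obtain ⟨Y₁, hY₁S, hY₁⟩ := exists_small_big S (k + mb) b fun w => x / y₁ ∈ posAt w
  have h0 : 1 - (b : F) * Y₁ ^ 2 ≠ 0 := fun h => by
    rw [sub_eq_zero] at h
    refine hsq (Units.mk0 Y₁ fun e => by simp [e] at h)⁻¹ (Units.ext ?_)
    rw [Units.val_pow_eq_pow_val, Units.val_inv_eq_inv_val, Units.val_mk0, inv_pow]
    exact (eq_inv_of_mul_eq_one_left h.symm).symm
  have hzS : ∀ v ∈ S, Units.mk0 _ h0 ∈ congrOne v k := fun v hv => mem_congrOne_of_close v
    (by omega) (by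
      rw [Units.val_mk0, sub_sub_cancel_left, Valuation.map_neg, map_mul, map_pow]
      refine (mul_le_mul' (hmb v hv) ((pow_le_pow_left₀ zero_le (hY₁S v hv) 2))).trans ?_
      rw [← exp_nsmul, ← exp_add, exp_le_exp]; simp; omega)
  have hy : y₁ * Units.mk0 _ h0 ∈ normVals b :=
    mul_mem hy₁ ⟨1, Y₁, by rw [Units.val_mk0]; ring⟩
  rw [show x = y₁ * Units.mk0 _ h0 * (x / (y₁ * Units.mk0 _ h0)) from (mul_div_cancel _ _).symm]
  refine Subgroup.mul_mem_sup hy (mem_sqAll.mpr ⟨fun v hv => ?_, fun w hw => ?_⟩)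
  · rw [← div_div, div_eq_mul_inv]
    refine mul_mem ?_ (inv_mem (hk v hv (hzS v hv)))
    have := (localPow v 2).inv_mem (hk v hv (hy₁S v hv))
    rwa [inv_div] at this
  · have him : ∀ z : F, (w.embedding z).im = 0 := fun z => by
      rw [← InfinitePlace.embedding_of_isReal_apply hw]; exact Complex.ofReal_im _
    suffices x / (y₁ * Units.mk0 _ h0) ∈ posAt w from this hw
    by_cases hb : b ∈ posAt w
    · rw [← div_div, div_eq_mul_inv, Subgroup.mul_mem_iff_of_index_two (index_posAt hw),
        inv_mem_iff]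
      have hz : ∀ z : Fˣ, z ∈ posAt w ↔ 0 < (w.embedding (z : F)).re :=
        fun z => ⟨fun h => h hw, fun h _ => h⟩
      have hY := hY₁ w hw (hb hw)
      have e : (w.embedding (1 - (b : F) * Y₁ ^ 2)).re =
          1 - (w.embedding (b : F)).re * (w.embedding Y₁).re ^ 2 := by
        simp [pow_two, Complex.mul_re, Complex.mul_im, him]
      refine ⟨fun h => ?_, fun h => ?_⟩
      · rw [hz, Units.val_mk0, e]; linarith [hY.1 h]
      · by_contra h'
        rw [hz, Units.val_mk0, e] at h
        linarith [hY.2 h']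
    · have hn : normInf b w = posAt w := if_neg hb
      have h1 : x ∈ posAt w := hn ▸ (mem_normAll.mp hx).2 w
      have h2 : y₁ * Units.mk0 _ h0 ∈ posAt w := hn ▸ normVals_le_normInf b w hy
      exact div_mem h1 h2

section Extension

variable {b : Fˣ} {L : Type} [Field L] [NumberField L] [Algebra F L] [IsGalois F L] {β : L}

/-- Norms of local squares are local squares. -/
theorem normHom_mem_sqAll (hdeg : finrank F L = 2) (hβ : β ^ 2 = algebraMap F L b)
    (hβF : β ∉ Set.range (algebraMap F L)) {S : Finset (HeightOneSpectrum (𝓞 F))} {y : Lˣ}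
    (hy : y ∈ sqAll (placesOver L S)) : normHom (K := F) y ∈ sqAll S := by
  classical
  choose w hw using fun v : HeightOneSpectrum (𝓞 F) => exists_over (L := L) v
  choose e he0 he using fun v => exists_valuation_pow (hw v)
  set n : ℕ := ∑ v ∈ S, e v * (2 * ordP v 2 + 1) + ∑ u ∈ placesOver L S, (2 * ordP u 2 + 1) + 1
  have hloc : ∀ u ∈ placesOver L S, ∃ r : Lˣ, y / r ^ 2 ∈ congrOne u n := by
    intro u hu
    have h := (mem_sqAll.mp hy).1 u hu
    have hn : 2 * ordP u 2 + 1 ≤ n := by
      have := Finset.single_le_sum (f := fun u : HeightOneSpectrum (𝓞 L) => 2 * ordP u 2 + 1)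
        (fun _ _ => Nat.zero_le _) hu
      omega
    rw [localPow_eq u two_ne_zero hn, Subgroup.mem_sup] at h
    obtain ⟨_, ⟨r, rfl⟩, c, hc, rfl⟩ := h
    exact ⟨r, by rw [powMonoidHom_apply, mul_div_cancel_left]; exact hc⟩
  choose! r hr using hloc
  obtain ⟨z, hz⟩ := exists_approx_units (placesOver L S) n r
  set q : Lˣ := y / z ^ 2
  have hq : ∀ u ∈ placesOver L S, q ∈ congrOne u n := by
    intro u hu
    have h1 : z / r u ∈ congrOne u n := mem_congrOne_of_close u (by omega)
      (by rw [Units.val_div_eq_div_val]; exact hz u hu)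
    rw [show q = y / r u ^ 2 / (z / r u) ^ 2 by rw [div_pow, div_div_div_cancel_right]]
    exact div_mem (hr u hu) (pow_mem h1 2)
  refine mem_sqAll.mpr ⟨fun v hv => ?_, fun u hu => ?_⟩
  · rw [show normHom (K := F) y = normHom q * normHom z ^ 2 by
      rw [← map_pow, ← map_mul, div_mul_cancel]]
    refine mul_mem ?_ (range_pow_le_localPow v 2 ⟨_, rfl⟩)
    refine congrOne_le_localPow v two_ne_zero ?_
    set k := 2 * ordP v 2 + 1
    have hmem : Units.map (algebraMap F L).toMonoidHom (normHom q) ∈ congrOne (w v) n := by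
      rw [show Units.map (algebraMap F L).toMonoidHom (normHom q) =
          ∏ σ : L ≃ₐ[F] L, Units.map (σ : L →* L) q by
        refine Units.ext ?_
        rw [Units.coe_prod]
        exact Algebra.norm_eq_prod_automorphisms F (q : L)]
      refine Subgroup.prod_mem _ fun σ _ => ?_
      have hu : galPlace σ⁻¹ (w v) ∈ placesOver L S :=
        mem_placesOver.mpr ⟨v, hv, over_galPlace _ (hw v)⟩
      obtain ⟨h1, h2⟩ := hq _ hu
      rw [galPlace_valuation', inv_inv] at h1 h2
      rw [map_sub, map_one] at h2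
      exact ⟨h1, h2⟩
    obtain ⟨h1, h2⟩ := hmem
    simp only [Units.coe_map, RingHom.toMonoidHom_eq_coe, MonoidHom.coe_coe] at h1 h2
    rw [← map_one (algebraMap F L), ← map_sub, he] at h2
    have hvu : v.valuation F (normHom (K := F) q : F) = 1 := by
      rw [he] at h1
      exact (pow_eq_one_iff_of_nonneg zero_le (he0 v)).mp h1
    refine ⟨hvu, ?_⟩
    by_cases h0 : v.valuation F ((normHom (K := F) q : F) - 1) = 0
    · rw [h0]; exact zero_le
    rw [← exp_log h0, ← exp_nsmul, exp_le_exp] at h2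
    rw [← exp_log h0, exp_le_exp]
    have hle : e v * k ≤ n := by
      have := Finset.single_le_sum (f := fun v => e v * (2 * ordP v 2 + 1))
        (fun _ _ => Nat.zero_le _) hv
      simp only [k] at this ⊢
      omega
    have h3 : (e v : ℤ) * k ≤ n := by exact_mod_cast hle
    have he1 : (0 : ℤ) < e v := by exact_mod_cast Nat.pos_of_ne_zero (he0 v)
    simp only [nsmul_eq_mul] at h2
    show log (v.valuation F ((normHom (K := F) q : F) - 1)) ≤ -(k : ℤ)
    nlinarith
  · by_cases hb : b ∈ posAt u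
    swap
    · have h1 : normHom (K := F) y ∈ normInf b u := normVals_le_normInf b u
        (range_normHom_eq hdeg hβ hβF ▸ ⟨y, rfl⟩)
      rw [normInf, if_neg hb] at h1
      exact h1 hu
    obtain ⟨p, hp⟩ := InfinitePlace.comap_surjective (K := L) u
    replace hp : p.comap (algebraMap F L) = u := hp
    have hemb : ∀ t, p.embedding (algebraMap F L t) = u.embedding t := fun t => by
      rw [← hp, InfinitePlace.comap_embedding_of_isReal _ (hp ▸ hu)]; rfl
    rw [← hemb, coe_normHom, Algebra.norm_eq_prod_automorphisms, map_prod]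
    refine (Finset.prod_induction (fun σ : L ≃ₐ[F] L => p.embedding (σ (y : L)))
      (fun t : ℂ => 0 < t.re ∧ t.im = 0) ?_ (by simp) fun σ _ => ?_).1
    · rintro s t ⟨hs, hs'⟩ ⟨ht, ht'⟩
      simp [Complex.mul_re, Complex.mul_im, hs', ht', mul_pos hs ht]
    set P := InfinitePlace.mk (p.embedding.comp (σ : L →+* L))
    have hPu : P.comap (algebraMap F L) = u := by
      rw [InfinitePlace.comap_mk]
      conv_rhs => rw [← InfinitePlace.mk_embedding u]
      congr 1
      ext t
      simp [hemb]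
    have hPr : P.IsReal := (InfinitePlace.isUnramified_iff.mp
      ((isUnramifiedIn_iff hdeg hβ hβF u).mpr hb P hPu)).resolve_right
      (by rw [hPu, InfinitePlace.not_isComplex_iff_isReal]; exact hu)
    have hPe : P.embedding = p.embedding.comp (σ : L →+* L) :=
      InfinitePlace.embedding_mk_eq_of_isReal (InfinitePlace.isReal_mk_iff.mp hPr)
    have h1 := (mem_sqAll.mp hy).2 P hPr
    have h2 : (P.embedding (y : L)).im = 0 := by
      rw [← InfinitePlace.embedding_of_isReal_apply hPr]; exact Complex.ofReal_im _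
    rw [hPe] at h1 h2
    exact ⟨h1, h2⟩

/-- Norms of norm values from `L(√c)` are norm values for `c`. -/
theorem normHom_mem_normVals (hdeg : finrank F L = 2) {c : Fˣ} {y : Lˣ}
    (hy : y ∈ normVals (Units.map (algebraMap F L).toMonoidHom c)) :
    normHom (K := F) y ∈ normVals c := by
  classical
  obtain ⟨σ, hσ⟩ := exists_ne_one Nat.prime_two hdeg (L := L)
  have huniv : (Finset.univ : Finset (L ≃ₐ[F] L)) = {1, σ} := by
    refine (Finset.eq_univ_of_card _ ?_).symm
    rw [Finset.card_pair hσ.symm, ← Nat.card_eq_fintype_card, natCard_aut, hdeg]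
  have hN : ∀ t : L, algebraMap F L (Algebra.norm F t) = t * σ t := fun t => by
    rw [Algebra.norm_eq_prod_automorphisms, huniv, Finset.prod_pair hσ.symm, AlgEquiv.one_apply]
  have hσσ : ∀ t : L, σ (σ t) = t := fun t => by
    have hm : σ * σ = 1 := by
      have := Finset.mem_univ (σ * σ)
      rw [huniv, Finset.mem_insert, Finset.mem_singleton] at this
      exact this.resolve_right fun h => hσ (mul_left_cancel (a := σ) (h.trans (mul_one σ).symm))
    exact congrArg (fun f : L ≃ₐ[F] L => f t) hm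
  have hfix : ∀ t : L, σ t = t → t ∈ Set.range (algebraMap F L) := fun t ht =>
    IsGalois.mem_range_algebraMap_iff_fixed t |>.mpr fun f => by
      have := Finset.mem_univ f
      rw [huniv, Finset.mem_insert, Finset.mem_singleton] at this
      rcases this with rfl | rfl
      · rfl
      · exact ht
  obtain ⟨X, Y, hXY⟩ := hy
  obtain ⟨s, hs⟩ := hfix (X * σ X + algebraMap F L c * (Y * σ Y)) (by
    simp only [map_add, map_mul, AlgEquiv.commutes, hσσ]; ring)
  obtain ⟨t, ht⟩ := hfix (X * σ Y + Y * σ X) (by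
    simp only [map_add, map_mul, hσσ]; ring)
  refine ⟨s, t, (algebraMap F L).injective ?_⟩
  rw [coe_normHom, hN, hXY]
  simp only [map_sub, map_mul, map_pow, AlgEquiv.commutes, Units.coe_map,
    RingHom.toMonoidHom_eq_coe,
    MonoidHom.coe_coe]
  rw [hs, ht]
  ring

end Extension

end Fermat.Agent.Duality.Global.Two
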