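import Fermat.Agent.Duality.Global.Powers

/-!
# Signs at the infinite places and quadratic norm groups at the finite places
-/

set_option autoImplicit false

open IsDedekindDomain NumberField WithZero Module

namespace Fermat.Agent.Duality.Global.Two

variable {F : Type} [Field F] [NumberField F]

/-- The elements positive at `w` (no condition at a complex place). -/
def posAt (w : InfinitePlace F) : Subgroup Fˣ where
  carrier := {x | w.IsReal → 0 < (w.embedding (x : F)).re}
  one_mem' := fun _ => by simp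
  mul_mem' := by
    intro x y hx hy h
    have e : ∀ z : F, (w.embedding z).im = 0 := fun z => by
      rw [← InfinitePlace.embedding_of_isReal_apply h]; exact Complex.ofReal_im _
    rw [Units.val_mul, map_mul, Complex.mul_re, e, e, mul_zero, sub_zero]
    exact mul_pos (hx h) (hy h)
  inv_mem' := by
    intro x hx h
    have e : (w.embedding (x : F)).im = 0 := by
      rw [← InfinitePlace.embedding_of_isReal_apply h]; exact Complex.ofReal_im _
    rw [Units.val_inv_eq_inv_val, map_inv₀, Complex.inv_re]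
    exact div_pos (hx h) (Complex.normSq_pos.mpr (by simp))

omit [NumberField F] in
lemma mem_posAt {w : InfinitePlace F} {x : Fˣ} :
    x ∈ posAt w ↔ (w.IsReal → 0 < (w.embedding (x : F)).re) := Iff.rfl

omit [NumberField F] in
lemma re_ne_zero {w : InfinitePlace F} (h : w.IsReal) (x : Fˣ) :
    (w.embedding (x : F)).re ≠ 0 := by
  rw [← InfinitePlace.embedding_of_isReal_apply h, Complex.ofReal_re]
  simp

omit [NumberField F] in
lemma sq_mem_posAt (w : InfinitePlace F) (x : Fˣ) : x ^ 2 ∈ posAt w := by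
  intro h
  have e : (w.embedding (x : F)).im = 0 := by
    rw [← InfinitePlace.embedding_of_isReal_apply h]; exact Complex.ofReal_im _
  rw [Units.val_pow_eq_pow_val, map_pow, pow_two, Complex.mul_re, e, mul_zero, sub_zero]
  exact mul_self_pos.mpr (re_ne_zero h x)

/-- There are elements with arbitrary signs at the real places. -/
theorem exists_signs (s : InfinitePlace F → Prop) :
    ∃ x : Fˣ, ∀ w : InfinitePlace F, w.IsReal → (x ∈ posAt w ↔ s w) := by
  classical
  let t : InfinitePlace F → F := fun w => if s w then 1 else -1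
  have hd := InfinitePlace.denseRange_algebraMap_pi F
    (fun w => (WithAbs.equiv w.1).symm (t w))
  rw [Metric.mem_closure_iff] at hd
  obtain ⟨_, ⟨x, rfl⟩, hx⟩ := hd 1 one_pos
  have hclose : ∀ w : InfinitePlace F, ‖w.embedding (t w - x)‖ < 1 := by
    intro w
    have h1 := (dist_pi_lt_iff one_pos).mp hx w
    rw [dist_eq_norm, WithAbs.norm_eq_apply_ofAbs] at h1
    rw [InfinitePlace.norm_embedding_eq]
    exact h1
  have hre : ∀ w : InfinitePlace F, (s w → 0 < (w.embedding x).re) ∧
      (¬ s w → (w.embedding x).re < 0) := by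
    intro w
    have h1 := (Complex.abs_re_le_norm _).trans_lt (hclose w)
    rw [map_sub, Complex.sub_re, abs_lt] at h1
    constructor <;> intro hs <;> simp only [t, if_pos, if_neg, hs, not_false_eq_true] at h1 <;>
      simp at h1 <;> linarith [h1.1, h1.2]
  have hx0 : x ≠ 0 := fun h => by
    have w : InfinitePlace F := Classical.arbitrary _
    rcases em (s w) with hs | hs
    · exact lt_irrefl (0 : ℝ) (by simpa [h] using (hre w).1 hs)
    · exact lt_irrefl (0 : ℝ) (by simpa [h] using (hre w).2 hs)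
  refine ⟨Units.mk0 x hx0, fun w hw => ⟨fun hp => ?_, fun hs _ => (hre w).1 hs⟩⟩
  by_contra hs
  exact lt_asymm (hp hw) ((hre w).2 hs)

lemma index_posAt {w : InfinitePlace F} (hw : w.IsReal) : (posAt w).index = 2 := by
  rw [Subgroup.index_eq_two_iff']
  obtain ⟨a, ha⟩ := exists_signs (F := F) fun _ => False
  refine ⟨a, fun b => ?_⟩
  have ha' : ¬ 0 < (w.embedding (a : F)).re := fun h => (ha w hw).mp fun _ => h
  have ha'' : (w.embedding (a : F)).re < 0 := lt_of_le_of_ne (not_lt.mp ha') (re_ne_zero hw a)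
  have e : ∀ z : F, (w.embedding z).im = 0 := fun z => by
    rw [← InfinitePlace.embedding_of_isReal_apply hw]; exact Complex.ofReal_im _
  simp only [xor_def, mem_posAt, hw, true_implies, Units.val_mul, map_mul, Complex.mul_re, e,
    mul_zero, sub_zero]
  rcases lt_or_gt_of_ne (re_ne_zero hw b) with hb | hb
  · exact .inl ⟨by nlinarith, not_lt.mpr hb.le⟩
  · exact .inr ⟨hb, not_lt.mpr (by nlinarith)⟩

lemma index_posAt_eq (w : InfinitePlace F) [Decidable w.IsReal] :
    (posAt w).index = if w.IsReal then 2 else 1 := by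
  split_ifs with h
  · exact index_posAt h
  · exact Subgroup.index_eq_one.mpr ((Subgroup.eq_top_iff' _).mpr fun x h' => absurd h' h)

/-- Weak approximation: finitely many finite places and all signs. -/
theorem exists_approx_signs (S : Finset (HeightOneSpectrum (𝓞 F))) (n : ℕ)
    (x : HeightOneSpectrum (𝓞 F) → Fˣ) (s : InfinitePlace F → Fˣ) :
    ∃ y : Fˣ, (∀ v ∈ S, y / x v ∈ congrOne v n) ∧ ∀ w, y / s w ∈ posAt w := by
  classical
  obtain ⟨y₀, hy₀⟩ := exists_approx_units S (n + 1) x
  -- the signs still wanted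
  obtain ⟨g, hg⟩ := exists_signs (F := F) fun w => s w / y₀ ∈ posAt w
  obtain ⟨⟨c, hc⟩, hcint⟩ := IsLocalization.exist_integer_multiples (nonZeroDivisors (𝓞 F))
    ({0} : Finset ℕ) fun _ => (g : F)
  obtain ⟨a, ha⟩ := hcint 0 (Finset.mem_singleton_self _)
  -- an integral element with the same signs
  let c' : Fˣ := Units.mk0 (algebraMap (𝓞 F) F c)
    (IsFractionRing.to_map_ne_zero_of_mem_nonZeroDivisors hc)
  let G : Fˣ := g * c' ^ 2
  have hGint : ∀ v : HeightOneSpectrum (𝓞 F), v.valuation F (G : F) ≤ 1 := by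
    intro v
    have e : (G : F) = algebraMap (𝓞 F) F (a * c) := by
      rw [map_mul, ha]
      simp [G, c', Algebra.smul_def]
      ring
    rw [e]
    exact v.valuation_le_one _
  choose r hr hrv using fun v : HeightOneSpectrum (𝓞 F) =>
    Places.exists_prime_natCast_mem v
  set M : ℕ := ∏ v ∈ S, r v ^ (n + 1) with hM
  have hM0 : M ≠ 0 := Finset.prod_ne_zero_iff.mpr fun v _ => pow_ne_zero _ (hr v).ne_zero
  -- a multiple outgrowing `1` at every infinite place
  obtain ⟨k, hk⟩ : ∃ k : ℕ, ∀ w : InfinitePlace F, w.IsReal →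
      1 < (k : ℝ) * M * |(w.embedding (G : F)).re| := by
    choose f hf using fun w : InfinitePlace F =>
      exists_nat_gt (1 / ((M : ℝ) * |(w.embedding (G : F)).re|))
    refine ⟨Finset.univ.sup f, fun w hw => ?_⟩
    have hpos : (0 : ℝ) < (M : ℝ) * |(w.embedding (G : F)).re| :=
      mul_pos (by exact_mod_cast Nat.pos_of_ne_zero hM0) (abs_pos.mpr (re_ne_zero hw G))
    have h1 := (div_lt_iff₀ hpos).mp (hf w)
    have h2 : (f w : ℝ) ≤ (Finset.univ.sup f : ℕ) :=
      Nat.cast_le.mpr (Finset.le_sup (Finset.mem_univ w))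
    calc (1 : ℝ) < f w * ((M : ℝ) * |(w.embedding (G : F)).re|) := h1
      _ ≤ _ := by rw [mul_assoc ((Finset.univ.sup f : ℕ) : ℝ)]; gcongr
  have hz : ∀ w : InfinitePlace F, w.IsReal →
      (w.embedding (1 + (k * M : ℕ) * (G : F))).re = 1 + k * M * (w.embedding (G : F)).re := by
    intro w _
    simp [Complex.add_re, Complex.mul_re]
  have hclose : ∀ v ∈ S, v.valuation F (((k * M : ℕ) : F) * G) ≤ exp (-((n + 1 : ℕ) : ℤ)) := by
    intro v hv
    rw [map_mul]
    refine (mul_le_of_le_one_right' (hGint v)).trans ?_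
    rw [← map_natCast (algebraMap (𝓞 F) F), ← mem_pow_iff_valuation, Nat.cast_mul]
    refine Ideal.mul_mem_left _ _ ?_
    rw [hM, Nat.cast_prod, ← Finset.mul_prod_erase _ _ hv]
    refine Ideal.mul_mem_right _ _ ?_
    push_cast
    exact Ideal.pow_mem_pow (hrv v) _
  have hz0 : 1 + ((k * M : ℕ) : F) * (G : F) ≠ 0 ∨ (∀ w : InfinitePlace F, ¬ w.IsReal) := by
    by_cases h : ∃ w : InfinitePlace F, w.IsReal
    · obtain ⟨w, hw⟩ := h
      left
      intro h0
      have h1 := hz w hw
      rw [h0, map_zero, Complex.zero_re] at h1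
      have h2 := hk w hw
      rcases abs_cases (w.embedding (G : F)).re with ⟨e, -⟩ | ⟨e, -⟩ <;> rw [e] at h2 <;>
        nlinarith
    · exact .inr fun w hw => h ⟨w, hw⟩
  have hy₀' : ∀ v ∈ S, y₀ / x v ∈ congrOne v n := fun v hv =>
    congrOne_antitone v n.le_succ (mem_congrOne_of_close v n.succ_ne_zero (by
      rw [Units.val_div_eq_div_val]; exact hy₀ v hv))
  rcases hz0 with h0 | hcx
  · refine ⟨y₀ * Units.mk0 _ h0, fun v hv => ?_, fun w hw => ?_⟩
    · rw [mul_div_right_comm]
      refine mul_mem (hy₀' v hv) (congrOne_antitone v n.le_succ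
        (mem_congrOne_of_close v n.succ_ne_zero ?_))
      rw [Units.val_mk0, add_sub_cancel_left]
      exact hclose v hv
    · have e : y₀ * Units.mk0 _ h0 / s w = Units.mk0 _ h0 / (s w / y₀) := by
        rw [div_div_eq_mul_div, mul_comm]
      rw [e]
      have hre : ∀ z : Fˣ, z ∈ posAt w ↔ 0 < (w.embedding (z : F)).re :=
        fun z => ⟨fun h => h hw, fun h _ => h⟩
      have hgG : G ∈ posAt w ↔ s w / y₀ ∈ posAt w := by
        rw [← hg w hw]
        exact Subgroup.mul_mem_cancel_right _ (sq_mem_posAt w c')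
      have hzG : Units.mk0 _ h0 ∈ posAt w ↔ G ∈ posAt w := by
        rw [hre, hre, Units.val_mk0, hz w hw]
        have h2 := hk w hw
        constructor <;> intro h <;>
          rcases lt_or_gt_of_ne (re_ne_zero hw G) with h' | h' <;>
          first
          | exact h'
          | (rw [abs_of_neg h'] at h2; nlinarith)
          | (rw [abs_of_pos h'] at h2; nlinarith)
      have hiff : Units.mk0 _ h0 / (s w / y₀) ∈ posAt w := by
        rw [div_eq_mul_inv]
        refine (Subgroup.mul_mem_iff_of_index_two (index_posAt hw)).mpr ?_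
        rw [inv_mem_iff, hzG, hgG]
      exact hiff hw
  · exact ⟨y₀, hy₀', fun w hw => absurd hw (hcx w)⟩

/-! ### The norm group of `x ^ 2 - b * y ^ 2` at `v` -/

variable (b : Fˣ)

/-- Values of `x ^ 2 - b * y ^ 2`. -/
def normVals : Subgroup Fˣ where
  carrier := {a | ∃ x y : F, (a : F) = x ^ 2 - b * y ^ 2}
  one_mem' := ⟨1, 0, by simp⟩
  mul_mem' := by
    rintro a a' ⟨x, y, h⟩ ⟨x', y', h'⟩
    exact ⟨x * x' + b * y * y', x * y' + x' * y, by rw [Units.val_mul, h, h']; ring⟩
  inv_mem' := by
    rintro a ⟨x, y, h⟩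
    refine ⟨x / a, y / a, ?_⟩
    have ha : (a : F) ≠ 0 := a.ne_zero
    rw [Units.val_inv_eq_inv_val]
    field_simp
    rw [h]

variable (v : HeightOneSpectrum (𝓞 F))

/-- The elements which are values of `x ^ 2 - b * y ^ 2` modulo every congruence subgroup at `v`. -/
def normTwo : Subgroup Fˣ := ⨅ n : ℕ, normVals b ⊔ congrOne v n

variable {b v}

lemma normVals_le_normTwo : normVals b ≤ normTwo b v := le_iInf fun _ => le_sup_left

omit [NumberField F] in
lemma range_sq_le_normVals : (powMonoidHom 2 : Fˣ →* Fˣ).range ≤ normVals b := by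
  rintro _ ⟨x, rfl⟩
  exact ⟨x, 0, by simp⟩

lemma localPow_le_normTwo : localPow v 2 ≤ normTwo b v :=
  iInf_mono fun _ => sup_le_sup_right range_sq_le_normVals _

lemma exists_of_mem_normTwo {a : Fˣ} (h : a ∈ normTwo b v) (n : ℕ) :
    ∃ (c : Fˣ) (x y : F), c ∈ congrOne v n ∧ ((a : F) / c) = x ^ 2 - b * y ^ 2 := by
  obtain ⟨m, ⟨x, y, hm⟩, c, hc, e⟩ := Subgroup.mem_sup.mp (Subgroup.mem_iInf.mp h n)
  exact ⟨c, x, y, hc, by rw [← e, Units.val_mul, mul_div_cancel_right₀ _ c.ne_zero, hm]⟩

lemma isPrimitiveRoot_neg_one : IsPrimitiveRoot (-1 : F) 2 :=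
  IsPrimitiveRoot.mk_of_lt (-1 : F) two_pos (by simp) fun l hl hl' => by
    obtain rfl : l = 1 := by omega
    norm_num

lemma normVals_eq_top_of_sq {z : Fˣ} (hz : z ^ 2 = b) : normVals b = ⊤ := by
  refine (Subgroup.eq_top_iff' _).mpr fun a => ⟨((a : F) + 1) / 2, ((a : F) - 1) / (2 * z), ?_⟩
  rw [← hz, Units.val_pow_eq_pow_val]
  field_simp
  ring

section Extension

variable {L : Type} [Field L] [NumberField L] [Algebra F L] [IsGalois F L]

/-- The norm values are the norms from `F(√b)`. -/
theorem range_normHom_eq (hdeg : finrank F L = 2) {β : L} (hβ : β ^ 2 = algebraMap F L b)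
    (hβF : β ∉ Set.range (algebraMap F L)) :
    (normHom (K := F) (L := L)).range = normVals b := by
  classical
  have hexp : ∀ y : L, ∃ c d : F, y = algebraMap F L c + algebraMap F L d * β := by
    intro y
    have h := natCast_mul_eq_sum_trace Nat.prime_two hdeg isPrimitiveRoot_neg_one
      ⟨b, hβ.symm⟩ hβF y
    rw [Finset.sum_range_succ, Finset.sum_range_one, pow_zero, pow_one, mul_one] at h
    refine ⟨Algebra.trace F L y / 2, Algebra.trace F L (y / β) / 2, ?_⟩
    rw [div_one] at h
    rw [map_div₀ (algebraMap F L), map_div₀ (algebraMap F L), map_ofNat]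
    have h2 : (2 : L) ≠ 0 := two_ne_zero
    push_cast at h
    field_simp
    rw [mul_comm]
    linear_combination h
  obtain ⟨σ, hσ⟩ := exists_ne_one Nat.prime_two hdeg (L := L)
  have hσβ : σ β = -β := by
    obtain ⟨k, hk, ek⟩ := exists_zeta_pow_mul two_ne_zero isPrimitiveRoot_neg_one
      (⟨b, hβ.symm⟩ : β ^ 2 ∈ Set.range (algebraMap F L)) σ
    interval_cases k
    · exact absurd (eq_one_of_apply_eq Nat.prime_two hdeg hβF (by simpa using ek)) hσ
    · simpa using ek
  have huniv : (Finset.univ : Finset (L ≃ₐ[F] L)) = {1, σ} := by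
    refine (Finset.eq_univ_of_card _ ?_).symm
    rw [Finset.card_pair hσ.symm, ← Nat.card_eq_fintype_card, natCard_aut, hdeg]
  have hnorm : ∀ c d : F, Algebra.norm F (algebraMap F L c + algebraMap F L d * β) =
      c ^ 2 - b * d ^ 2 := by
    intro c d
    refine (algebraMap F L).injective ?_
    rw [Algebra.norm_eq_prod_automorphisms, huniv, Finset.prod_pair hσ.symm, AlgEquiv.one_apply,
      map_add σ, map_mul σ, σ.commutes, σ.commutes, hσβ, map_sub, map_mul, map_pow, map_pow, ← hβ]
    ring
  ext a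
  constructor
  · rintro ⟨y, rfl⟩
    obtain ⟨c, d, h⟩ := hexp y
    exact ⟨c, d, by rw [coe_normHom, h, hnorm]⟩
  · rintro ⟨c, d, h⟩
    rw [← hnorm] at h
    refine ⟨Units.mk0 _ fun h0 => a.ne_zero ?_, Units.ext h.symm⟩
    rw [h, h0, Algebra.norm_zero]

theorem normTwo_eq_localNorm (hdeg : finrank F L = 2) {β : L} (hβ : β ^ 2 = algebraMap F L b)
    (hβF : β ∉ Set.range (algebraMap F L)) (v : HeightOneSpectrum (𝓞 F)) :
    normTwo b v = localNorm L v := by
  rw [normTwo, localNorm, range_normHom_eq hdeg hβ hβF]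

end Extension

open Classical in
/-- `b` a non-square: a quadratic extension containing a square root of it. -/
theorem exists_sqrt_extension (hb : ∀ z : Fˣ, z ^ 2 ≠ b) :
    ∃ (L : Type) (_ : Field L) (_ : NumberField L) (_ : Algebra F L) (_ : IsGalois F L) (β : L),
      finrank F L = 2 ∧ β ^ 2 = algebraMap F L b ∧ β ∉ Set.range (algebraMap F L) := by
  have hirr : Irreducible (Polynomial.X ^ 2 - Polynomial.C (b : F)) :=
    X_pow_sub_C_irreducible_of_prime Nat.prime_two fun c hc => by
      refine hb (Units.mk0 c fun h => ?_) (Units.ext hc)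
      rw [h, zero_pow two_ne_zero] at hc
      exact b.ne_zero hc.symm
  have := Fact.mk hirr
  let L := AdjoinRoot (Polynomial.X ^ 2 - Polynomial.C (b : F))
  have hprim : (primitiveRoots 2 F).Nonempty :=
    ⟨-1, (mem_primitiveRoots two_pos).mpr isPrimitiveRoot_neg_one⟩
  have := isSplittingField_AdjoinRoot_X_pow_sub_C hprim hirr
  have hgal : IsGalois F L := isGalois_of_isSplittingField_X_pow_sub_C hprim hirr L
  have hdeg : finrank F L = 2 := finrank_of_isSplittingField_X_pow_sub_C hprim hirr L
  have : FiniteDimensional F L := Module.finite_of_finrank_pos (by rw [hdeg]; exact two_pos)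
  have hnf : NumberField L := NumberField.of_module_finite F L
  refine ⟨L, inferInstance, hnf, inferInstance, hgal, AdjoinRoot.root _, hdeg, ?_, ?_⟩
  · have h := AdjoinRoot.eval₂_root (Polynomial.X ^ 2 - Polynomial.C (b : F))
    rw [Polynomial.eval₂_sub, Polynomial.eval₂_X_pow, Polynomial.eval₂_C, sub_eq_zero] at h
    exact h
  · rintro ⟨c, hc⟩
    have h := AdjoinRoot.eval₂_root (Polynomial.X ^ 2 - Polynomial.C (b : F))
    rw [Polynomial.eval₂_sub, Polynomial.eval₂_X_pow, Polynomial.eval₂_C, sub_eq_zero, ← hc] at h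
    have h1 : c ^ 2 = (b : F) := (algebraMap F L).injective (by rw [map_pow]; exact h)
    refine hb (Units.mk0 c fun h2 => ?_) (Units.ext h1)
    rw [h2, zero_pow two_ne_zero] at h1
    exact b.ne_zero h1.symm

end Fermat.Agent.Duality.Global.Two
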