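import Fermat.Agent.Duality.Global.Two.Symbol

/-!
# The quadratic symbol inside `PadicAlgCl q`, and isotropy over quadratic local fields
-/

set_option autoImplicit false

open IsDedekindDomain NumberField WithZero Module

namespace Fermat.Agent.Duality.Global.Two

open Fermat.Agent.Duality

variable {q : ℕ} [Fact q.Prime]

local notation "Ω" => PadicAlgCl q

/-- A conic point over a subfield. -/
def ConicPoint (L : IntermediateField ℚ_[q] Ω) (a b : Ω) : Prop :=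
  ∃ z ∈ L, ∃ w ∈ L, a = z ^ 2 - b * w ^ 2

lemma ConicPoint.mul {L : IntermediateField ℚ_[q] Ω} {a a' b : Ω} (hb : b ∈ L)
    (h : ConicPoint L a b) (h' : ConicPoint L a' b) : ConicPoint L (a * a') b := by
  obtain ⟨z, hz, w, hw, rfl⟩ := h
  obtain ⟨z', hz', w', hw', rfl⟩ := h'
  exact ⟨z * z' + b * w * w', add_mem (mul_mem hz hz') (mul_mem (mul_mem hb hw) hw'),
    z * w' + z' * w, add_mem (mul_mem hz hw') (mul_mem hz' hw), by ring⟩

lemma ConicPoint.mul_sq {L : IntermediateField ℚ_[q] Ω} {a b t : Ω} (ht : t ∈ L)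
    (h : ConicPoint L a b) : ConicPoint L (a * t ^ 2) b := by
  obtain ⟨z, hz, w, hw, rfl⟩ := h
  exact ⟨z * t, mul_mem hz ht, w * t, mul_mem hw ht, by ring⟩

lemma ConicPoint.change_sq {L : IntermediateField ℚ_[q] Ω} {a b t : Ω} (ht : t ∈ L) (ht0 : t ≠ 0)
    (h : ConicPoint L a b) : ConicPoint L a (b * t ^ 2) := by
  obtain ⟨z, hz, w, hw, rfl⟩ := h
  exact ⟨z, hz, w / t, div_mem hw ht, by field_simp⟩

variable {K : Type} [Field K] [NumberField K]

/-- **Bridge**: the local norm group is the set of conic values in the local field. -/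
theorem mem_normTwo_iff (τ : K →ₐ[ℚ] Ω) (a b : Kˣ) :
    a ∈ normTwo b (Places.placeOf q τ) ↔ ConicPoint (locField q τ) (τ (a : K)) (τ (b : K)) := by
  constructor
  · intro h
    obtain ⟨δ, hδ, hpow⟩ := Places.exists_pow_eq_of_norm_sub_one_lt q Nat.prime_two
    obtain ⟨n, hn⟩ := Places.exists_norm_lt_of_valuation_le q τ hδ
    obtain ⟨c, x, y, hc, hxy⟩ := exists_of_mem_normTwo h n
    have h1 := hn _ hc.2
    rw [map_sub, map_one] at h1
    obtain ⟨s, hs, hs2⟩ := hpow (locField q τ) _ (Places.mem_locField q τ (c : K)) h1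
    refine ⟨s * τ x, mul_mem hs (Places.mem_locField q τ x), s * τ y,
      mul_mem hs (Places.mem_locField q τ y), ?_⟩
    have e : (a : K) = (c : K) * (x ^ 2 - (b : K) * y ^ 2) := by
      rw [← hxy, mul_div_cancel₀ _ c.ne_zero]
    rw [e, map_mul, map_sub, map_mul, map_pow, map_pow, ← hs2]
    ring
  · rintro ⟨z, hz, w, hw, he⟩
    refine Subgroup.mem_iInf.mpr fun n => ?_
    have ha : τ (a : K) ≠ 0 := by simp
    obtain ⟨ε, hε, hε'⟩ := Places.exists_valuation_le_of_norm_lt q τ (n + 1)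
    have hf : ContinuousAt (fun u : Ω × Ω => (u.1 ^ 2 - τ (b : K) * u.2 ^ 2) / τ (a : K) - 1)
        (z, w) := by fun_prop
    obtain ⟨δ, hδ, hδ'⟩ := Metric.continuousAt_iff.1 hf ε hε
    obtain ⟨x, hx⟩ := Places.exists_apply_norm_sub_lt q τ hz hδ
    obtain ⟨y, hy⟩ := Places.exists_apply_norm_sub_lt q τ hw hδ
    have h1 := hδ' (x := (τ x, τ y)) (by
      rw [Prod.dist_eq, dist_eq_norm, dist_eq_norm, norm_sub_rev, norm_sub_rev (τ y)]
      exact max_lt hx hy)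
    rw [dist_eq_norm, ← he, div_self ha, sub_self, sub_zero] at h1
    have h2 : (Places.placeOf q τ).valuation K
        ((x ^ 2 - (b : K) * y ^ 2) / a - 1) ≤ exp (-((n + 1 : ℕ) : ℤ)) :=
      hε' _ (by simpa only [map_sub, map_div₀, map_mul, map_pow, map_one] using h1)
    have h0 : x ^ 2 - (b : K) * y ^ 2 ≠ 0 := fun h0 => by
      rw [h0, zero_div, zero_sub, Valuation.map_neg, map_one, ← exp_zero, exp_le_exp] at h2
      omega
    have hmem : Units.mk0 _ h0 / a ∈ congrOne (Places.placeOf q τ) n :=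
      congrOne_antitone _ n.le_succ (mem_congrOne_of_close _ n.succ_ne_zero (by
        rw [Units.val_div_eq_div_val, Units.val_mk0]; exact h2))
    rw [show a = Units.mk0 _ h0 * (Units.mk0 _ h0 / a)⁻¹ by
      rw [inv_div, mul_div_cancel]]
    exact Subgroup.mul_mem_sup ⟨x, y, rfl⟩ (inv_mem hmem)

lemma hil_eq_zero_iff_conicPoint (τ : K →ₐ[ℚ] Ω) (a b : Kˣ) :
    hil (.inl (Places.placeOf q τ)) a b = 0 ↔
      ConicPoint (locField q τ) (τ (a : K)) (τ (b : K)) :=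
  hil_eq_zero.trans (mem_normTwo_iff τ a b)

/-- Over a quadratic extension of `ℚ_q`, every conic with coefficients in `ℚ_q` has a point. -/
theorem conicPoint_of_quadratic {L : IntermediateField ℚ_[q] Ω} (hL : finrank ℚ_[q] L = 2)
    {c d : ℚ_[q]} (hc : c ≠ 0) (hd : d ≠ 0) :
    ConicPoint L (algebraMap ℚ_[q] Ω c) (algebraMap ℚ_[q] Ω d) := by
  let τ₀ : ℚ →ₐ[ℚ] Ω := Algebra.ofId ℚ Ω
  have hbot : ∀ z, z ∈ locField q τ₀ ↔ z ∈ (⊥ : IntermediateField ℚ_[q] Ω) := by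
    intro z
    refine ⟨fun h => ?_, fun h => (bot_le : ⊥ ≤ locField q τ₀) h⟩
    refine (IntermediateField.adjoin_le_iff.mpr ?_ : locField q τ₀ ≤ ⊥) h
    rintro _ ⟨r, rfl⟩
    exact IntermediateField.mem_bot.mpr
      ⟨(r : ℚ_[q]), by rw [map_ratCast]; exact (map_ratCast τ₀ r).symm⟩
  have hbL : ∀ {z}, z ∈ locField q τ₀ → z ∈ L := fun {z} h => (bot_le : ⊥ ≤ L) ((hbot z).mp h)
  have hrat : ∀ e : ℚ_[q], e ≠ 0 → ∃ x : ℚˣ, ∃ w ∈ L, w ≠ 0 ∧
      algebraMap ℚ_[q] Ω e = τ₀ (x : ℚ) * w ^ 2 := by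
    intro e he
    obtain ⟨x, w, hw, h⟩ := Places.exists_mul_pow_eq q Nat.prime_two τ₀
      ((hbot _).mpr (IntermediateField.mem_bot.mpr ⟨e, rfl⟩))
      ((map_ne_zero (algebraMap ℚ_[q] Ω)).mpr he)
    refine ⟨x, w, hbL hw, fun h0 => ?_, h⟩
    rw [h0, zero_pow two_ne_zero, mul_zero] at h
    exact (map_ne_zero (algebraMap ℚ_[q] Ω)).mpr he h
  -- a square root generating `L`
  obtain ⟨r, hrL, D, hD, hrD⟩ : ∃ r ∈ L, ∃ D : ℚˣ,
      r ∉ (⊥ : IntermediateField ℚ_[q] Ω) ∧ r ^ 2 = τ₀ (D : ℚ) := by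
    obtain ⟨t, htL, ht⟩ : ∃ t ∈ L, t ∉ (⊥ : IntermediateField ℚ_[q] Ω) := by
      by_contra h
      push Not at h
      have : L = ⊥ := le_antisymm (fun t ht => h t ht) bot_le
      rw [this, IntermediateField.finrank_bot] at hL
      exact absurd hL (by norm_num)
    have hfd : FiniteDimensional ℚ_[q] L := Module.finite_of_finrank_eq_succ hL
    have hint : IsIntegral ℚ_[q] t := (Algebra.IsAlgebraic.isAlgebraic t).isIntegral
    have hdeg : (minpoly ℚ_[q] t).natDegree = 2 := by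
      have h1 := minpoly.natDegree_le (A := ℚ_[q]) (⟨t, htL⟩ : L)
      rw [hL] at h1
      have e : minpoly ℚ_[q] (⟨t, htL⟩ : L) = minpoly ℚ_[q] t :=
        (minpoly.algebraMap_eq (algebraMap L Ω).injective (⟨t, htL⟩ : L)).symm
      rw [e] at h1
      have h2 := minpoly.natDegree_pos hint
      by_contra hne
      have h3 : (minpoly ℚ_[q] t).natDegree = 1 := by omega
      obtain ⟨s, hs⟩ := minpoly.natDegree_eq_one_iff.mp h3
      exact ht (IntermediateField.mem_bot.mpr ⟨s, hs⟩)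
    have hroot := minpoly.aeval ℚ_[q] t
    rw [Polynomial.aeval_eq_sum_range, hdeg, Finset.sum_range_succ, Finset.sum_range_succ,
      Finset.sum_range_one, show (minpoly ℚ_[q] t).coeff 2 = 1 from
        hdeg ▸ (minpoly.monic hint).coeff_natDegree, one_smul, Algebra.smul_def, Algebra.smul_def,
      pow_zero, mul_one, pow_one] at hroot
    set p₀ := (minpoly ℚ_[q] t).coeff 0
    set p₁ := (minpoly ℚ_[q] t).coeff 1
    set r := t + algebraMap ℚ_[q] Ω (p₁ / 2) with hr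
    have hrbot : r ∉ (⊥ : IntermediateField ℚ_[q] Ω) := fun h => ht (by
      have := sub_mem h (IntermediateField.mem_bot.mpr ⟨p₁ / 2, rfl⟩ :
        algebraMap ℚ_[q] Ω (p₁ / 2) ∈ (⊥ : IntermediateField ℚ_[q] Ω))
      rwa [hr, add_sub_cancel_right] at this)
    set e := (p₁ / 2) ^ 2 - p₀
    have hre : r ^ 2 = algebraMap ℚ_[q] Ω e := by
      simp only [hr, e, map_sub, map_pow, map_div₀, map_ofNat]
      linear_combination hroot
    have he : e ≠ 0 := fun h0 => hrbot (by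
      rw [h0, map_zero] at hre
      rw [pow_eq_zero_iff two_ne_zero |>.mp hre]; exact zero_mem _)
    obtain ⟨x, w, hw, h⟩ := Places.exists_mul_pow_eq q Nat.prime_two τ₀
      ((hbot _).mpr (IntermediateField.mem_bot.mpr ⟨e, rfl⟩))
      ((map_ne_zero (algebraMap ℚ_[q] Ω)).mpr he)
    have hw0 : w ≠ 0 := fun h0 => by
      rw [h0, zero_pow two_ne_zero, mul_zero] at h
      exact (map_ne_zero (algebraMap ℚ_[q] Ω)).mpr he h
    refine ⟨r / w, div_mem (add_mem htL (L.algebraMap_mem _)) (hbL hw), x, fun h' => hrbot ?_, ?_⟩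
    · have := mul_mem h' ((hbot w).mp hw)
      rwa [div_mul_cancel₀ _ hw0] at this
    · rw [div_pow, hre, h, mul_div_cancel_right₀ _ (pow_ne_zero _ hw0)]; rfl
  -- reduce to rational coefficients
  obtain ⟨c₀, t, ht, -, hct⟩ := hrat c hc
  obtain ⟨d₀, s, hs, hs0, hds⟩ := hrat d hd
  rw [hct, hds]
  refine ((?_ : ConicPoint L (τ₀ (c₀ : ℚ)) (τ₀ (d₀ : ℚ))).mul_sq ht).change_sq hs hs0
  set v := Places.placeOf q τ₀
  have hd₀L : τ₀ (d₀ : ℚ) ∈ L := hbL (Places.mem_locField q τ₀ _)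
  have hpt : ∀ u e : ℚˣ, hil (.inl v) u e = 0 →
      ∃ z ∈ L, ∃ w ∈ L, τ₀ (u : ℚ) = z ^ 2 - τ₀ (e : ℚ) * w ^ 2 := by
    intro u e h
    obtain ⟨z, hz, w, hw, h'⟩ := (hil_eq_zero_iff_conicPoint τ₀ u e).mp h
    exact ⟨z, hbL hz, w, hbL hw, h'⟩
  rcases zmodTwo_cases' (hil (.inl v) c₀ d₀) with h | h
  · exact hpt c₀ d₀ h
  have hr0 : r ≠ 0 := fun h0 => hD (h0 ▸ zero_mem _)
  -- `d₀` is not a square, nor is `d₀ D`
  have hdsq : d₀ ∉ localPow v 2 := fun h' => by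
    rw [hil_eq_zero_of_right (p := .inl v) c₀ h'] at h; exact zero_ne_one h
  have hDsq : D ∉ localPow v 2 := fun h' => by
    obtain ⟨z, hz, hz2⟩ := (Places.mem_localPow_placeOf_iff q Nat.prime_two τ₀ D).mp h'
    rcases sq_eq_sq_iff_eq_or_eq_neg.mp (hrD.trans hz2.symm) with e | e <;> rw [e] at hD
    · exact hD ((hbot z).mp hz)
    · exact hD (neg_mem ((hbot z).mp hz))
  obtain ⟨y, hy1, hy2⟩ : ∃ y, hil (.inl v) y d₀ = 1 ∧ hil (.inl v) y (d₀ * D) = 0 := by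
    obtain ⟨x₁, hx₁⟩ := exists_hil_eq_one (p := Sum.inl v) hdsq
    rcases zmodTwo_cases' (hil (.inl v) x₁ D) with e₁ | e₁
    swap
    · exact ⟨x₁, hx₁, by rw [hil_mul_right, hx₁, e₁]; decide⟩
    obtain ⟨x₂, hx₂⟩ := exists_hil_eq_one (p := Sum.inl v) hDsq
    rcases zmodTwo_cases' (hil (.inl v) x₂ d₀) with e₂ | e₂
    · exact ⟨x₁ * x₂, by rw [hil_mul_left, hx₁, e₂]; decide,
        by rw [hil_mul_left, hil_mul_right, hil_mul_right, hx₁, e₁, e₂, hx₂]; decide⟩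
    · exact ⟨x₂, e₂, by rw [hil_mul_right, e₂, hx₂]; decide⟩
  have hyd : ConicPoint L (τ₀ (y : ℚ)) (τ₀ (d₀ : ℚ)) := by
    obtain ⟨z, hz, w, hw, h'⟩ := hpt y (d₀ * D) hy2
    refine ⟨z, hz, w * r, mul_mem hw hrL, ?_⟩
    rw [h', Units.val_mul, map_mul, mul_pow, hrD]
    ring
  have hcy : ConicPoint L (τ₀ ((c₀ * y : ℚˣ) : ℚ)) (τ₀ (d₀ : ℚ)) :=
    hpt (c₀ * y) d₀ (by rw [hil_mul_left, h, hy1]; decide)
  have hy0 : τ₀ (y : ℚ) ≠ 0 := by simp
  have := (hcy.mul hd₀L hyd).mul_sq (inv_mem (hbL (Places.mem_locField q τ₀ (y : ℚ))))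
  convert this using 1
  rw [Units.val_mul, map_mul]
  field_simp
  rfl
where
  zmodTwo_cases' (x : ZMod 2) : x = 0 ∨ x = 1 := by revert x; decide

/-- **Isotropy over a quadratic local field**: classes coming from `ℚ_q` pair to zero. -/
theorem hil_eq_zero_of_quadratic (τ : K →ₐ[ℚ] Ω) (hL : finrank ℚ_[q] (locField q τ) = 2)
    {a b : Kˣ} {c d : ℚ_[q]} {z w : Ω} (hz : z ∈ locField q τ) (hw : w ∈ locField q τ)
    (ha : τ (a : K) = algebraMap ℚ_[q] Ω c * z ^ 2)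
    (hb : τ (b : K) = algebraMap ℚ_[q] Ω d * w ^ 2) :
    hil (.inl (Places.placeOf q τ)) a b = 0 := by
  have ha0 : τ (a : K) ≠ 0 := by simp
  have hb0 : τ (b : K) ≠ 0 := by simp
  have hc : c ≠ 0 := fun h => ha0 (by rw [ha, h, map_zero, zero_mul])
  have hd : d ≠ 0 := fun h => hb0 (by rw [hb, h, map_zero, zero_mul])
  have hw0 : w ≠ 0 := fun h => hb0 (by rw [hb, h, zero_pow two_ne_zero, mul_zero])
  rw [hil_eq_zero_iff_conicPoint, ha, hb]
  exact ((conicPoint_of_quadratic hL hc hd).mul_sq hz).change_sq hw hw0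

end Fermat.Agent.Duality.Global.Two
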