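import Fermat.Agent.Duality.Global.Two.Rel

/-!
# Elements supported at places of degree one, and relations vanishing there
-/

set_option autoImplicit false

open IsDedekindDomain NumberField WithZero Module

namespace Fermat.Agent.Duality.Global.Two

variable {F : Type} [Field F] [NumberField F]

lemma dvd_absNorm_of_mem {v : HeightOneSpectrum (𝓞 F)} {ℓ : ℕ} (hℓ : ℓ.Prime)
    (h : (ℓ : 𝓞 F) ∈ v.asIdeal) : ℓ ∣ Ideal.absNorm v.asIdeal := by
  by_contra hne
  obtain ⟨a, b, hab⟩ := Nat.isCoprime_iff_coprime.2 ((hℓ.coprime_iff_not_dvd).mpr hne)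
  refine v.isPrime.ne_top ((Ideal.eq_top_iff_one _).2 ?_)
  have h' := congrArg (Int.castRingHom (𝓞 F)) hab
  simp only [map_add, map_mul, map_natCast, map_one, eq_intCast] at h'
  rw [← h']
  exact add_mem (v.asIdeal.mul_mem_left _ h) (v.asIdeal.mul_mem_left _ (Ideal.absNorm_mem _))

/-- There are at most `[F : ℚ]` places over a prime. -/
lemma card_le_finrank {ℓ : ℕ} (hℓ : ℓ.Prime) (V : Finset (HeightOneSpectrum (𝓞 F)))
    (hV : ∀ v ∈ V, (ℓ : 𝓞 F) ∈ v.asIdeal) : V.card ≤ finrank ℚ F := by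
  have hdvd : ∏ v ∈ V, v.asIdeal ∣ Ideal.span {(ℓ : 𝓞 F)} := by
    refine Finset.prod_dvd_of_coprime ?_ fun v hv =>
      Ideal.dvd_span_singleton.mpr (hV v hv)
    intro v _ w _ hne
    exact Ideal.isCoprime_iff_sup_eq.mpr (v.isMaximal.coprime_of_ne w.isMaximal
      fun e => hne (HeightOneSpectrum.ext e))
  have h1 := Ideal.absNorm_dvd_absNorm_of_le (Ideal.le_of_dvd hdvd)
  rw [Ideal.absNorm_span_singleton, map_natCast_norm ℓ, map_prod] at h1
  have h2 : ℓ ^ V.card ∣ ℓ ^ finrank ℚ F := by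
    refine dvd_trans ?_ h1
    rw [← Finset.prod_const]
    exact Finset.prod_dvd_prod_of_dvd _ _ fun v hv => dvd_absNorm_of_mem hℓ (hV v hv)
  exact (Nat.pow_dvd_pow_iff_le_right hℓ.one_lt).mp h2
where
  map_natCast_norm (ℓ : ℕ) : (Algebra.norm ℤ (ℓ : 𝓞 F)).natAbs = ℓ ^ finrank ℚ F := by
    rw [show (ℓ : 𝓞 F) = algebraMap ℤ (𝓞 F) ℓ by simp, Algebra.norm_algebraMap,
      RingOfIntegers.rank, Int.natAbs_pow, Int.natAbs_natCast]

/-- A primitive element has a denominator clearing all integers. -/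
lemma exists_denominator {a : 𝓞 F}
    (ha : IntermediateField.adjoin ℚ {(a : F)} = ⊤) :
    ∃ N : ℕ, N ≠ 0 ∧ ∀ z : 𝓞 F, (N : 𝓞 F) * z ∈ Subring.closure {a} := by
  classical
  set R : Subring F := (Subring.closure {a}).map (algebraMap (𝓞 F) F)
  have haR : algebraMap (𝓞 F) F a ∈ R :=
    ⟨a, Subring.subset_closure (Set.mem_singleton a), rfl⟩
  have hQ : ∀ x : F, ∃ N : ℕ, N ≠ 0 ∧ (N : F) * x ∈ R := by
    intro x
    have hx : x ∈ Algebra.adjoin ℚ {(a : F)} := by
      rw [← IntermediateField.adjoin_simple_toSubalgebra_of_isAlgebraic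
        (Algebra.IsAlgebraic.isAlgebraic (R := ℚ) (a : F)), ha]
      trivial
    induction hx using Algebra.adjoin_induction with
    | mem y hy =>
      rw [Set.mem_singleton_iff] at hy
      exact ⟨1, one_ne_zero, by rw [hy, Nat.cast_one, one_mul]; exact haR⟩
    | algebraMap r =>
      refine ⟨r.den, r.den_nz, ?_⟩
      rw [show (r.den : F) * algebraMap ℚ F r = (r.num : F) by
        rw [← map_natCast (algebraMap ℚ F), ← map_mul, mul_comm, Rat.mul_den_eq_num, map_intCast]]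
      exact intCast_mem R r.num
    | add y z _ _ hy hz =>
      obtain ⟨M, hM, hy⟩ := hy
      obtain ⟨N, hN, hz⟩ := hz
      refine ⟨M * N, mul_ne_zero hM hN, ?_⟩
      rw [show ((M * N : ℕ) : F) * (y + z) = (N : F) * ((M : F) * y) + (M : F) * ((N : F) * z) by
        push_cast; ring]
      exact add_mem (mul_mem (natCast_mem R N) hy) (mul_mem (natCast_mem R M) hz)
    | mul y z _ _ hy hz =>
      obtain ⟨M, hM, hy⟩ := hy
      obtain ⟨N, hN, hz⟩ := hz
      refine ⟨M * N, mul_ne_zero hM hN, ?_⟩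
      rw [show ((M * N : ℕ) : F) * (y * z) = ((M : F) * y) * ((N : F) * z) by push_cast; ring]
      exact mul_mem hy hz
  obtain ⟨G, hG⟩ := (inferInstance : Module.Finite ℤ (𝓞 F)).fg_top
  choose N hN0 hN using fun g : 𝓞 F => hQ (g : F)
  refine ⟨∏ g ∈ G, N g, Finset.prod_ne_zero_iff.mpr fun g _ => hN0 g, fun z => ?_⟩
  have hz : z ∈ Submodule.span ℤ (G : Set (𝓞 F)) := hG ▸ Submodule.mem_top
  induction hz using Submodule.span_induction with
  | mem g hg =>
    obtain ⟨y, hy, hyg⟩ := hN g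
    have e : y = (N g : 𝓞 F) * g :=
      RingOfIntegers.coe_injective (by rw [map_mul, map_natCast]; exact hyg)
    rw [Nat.cast_prod, ← Finset.prod_erase_mul _ _ hg, mul_assoc, ← e]
    exact mul_mem (Subring.prod_mem _ fun i _ => natCast_mem _ _) hy
  | zero => rw [mul_zero]; exact zero_mem _
  | add x y _ _ hx hy => rw [mul_add]; exact add_mem hx hy
  | smul c x _ hx => rw [mul_smul_comm]; exact Subring.zsmul_mem _ hx c

open Classical in
/-- Any local square classes are realised by an element supported, away from a fixed finite set,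
at places of prime norm. -/
theorem exists_degOne (S : Finset (HeightOneSpectrum (𝓞 F))) :
    ∃ S₁, S ⊆ S₁ ∧ ∀ Y : Fˣ, ∃ y : Fˣ, (∀ q ∈ plSet S₁, y / Y ∈ sqLoc q) ∧
      ∀ v ∉ S₁, v.valuation F (y : F) ≠ 1 → (Ideal.absNorm v.asIdeal).Prime := by
  choose r hr hrv using fun v : HeightOneSpectrum (𝓞 F) => Places.exists_prime_natCast_mem v
  set B : ℕ := finrank ℚ F + ∑ v ∈ S, r v with hB
  set P : ℕ := B.factorial with hP
  have hP0 : P ≠ 0 := Nat.factorial_ne_zero B
  let PU : Fˣ := Units.mk0 (P : F) (Nat.cast_ne_zero.mpr hP0)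
  set S₁ := (finite_setOf_valuation_ne_one PU).toFinset with hS₁
  have hmem : ∀ v, v ∈ S₁ ↔ (P : 𝓞 F) ∈ v.asIdeal := by
    intro v
    rw [hS₁, Set.Finite.mem_toFinset, Set.mem_ofPred_eq,
      ← HeightOneSpectrum.valuation_lt_one_iff_mem (K := F)]
    push_cast [PU, Units.val_mk0]
    exact ⟨fun h => lt_of_le_of_ne (by
      rw [← map_natCast (algebraMap (𝓞 F) F)]; exact v.valuation_le_one _) h, ne_of_lt⟩
  refine ⟨S₁, fun v hv => (hmem v).mpr ?_, fun Y => ?_⟩
  · obtain ⟨c, hc⟩ := Nat.dvd_factorial (hr v).pos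
      ((Finset.single_le_sum (fun _ _ => Nat.zero_le _) hv).trans (Nat.le_add_left _ _) : r v ≤ B)
    rw [hP, hc, Nat.cast_mul]
    exact Ideal.mul_mem_right _ _ (hrv v)
  -- an integral representative
  obtain ⟨⟨c, hc⟩, hint⟩ := IsLocalization.exist_integer_multiples (nonZeroDivisors (𝓞 F))
    ({0} : Finset ℕ) fun _ => (Y : F)
  obtain ⟨y₀, hy₀⟩ := hint 0 (Finset.mem_singleton_self _)
  let c' : Fˣ := Units.mk0 (algebraMap (𝓞 F) F c)
    (IsFractionRing.to_map_ne_zero_of_mem_nonZeroDivisors hc)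
  set Y₁ : Fˣ := Y * c' ^ 2 with hY₁
  set z₁ : 𝓞 F := y₀ * c
  have hz₁ : algebraMap (𝓞 F) F z₁ = (Y₁ : F) := by
    rw [map_mul, hy₀]
    simp [hY₁, c', Algebra.smul_def]
    ring
  -- the modulus
  set n : ℕ := ∑ v ∈ S₁, (2 * ordP v 2 + 1 + (-log (v.valuation F (Y₁ : F))).toNat) with hn
  set M : ℕ := P ^ n with hM
  -- a primitive integral element
  obtain ⟨θ₀, hθ₀⟩ := Field.exists_primitive_element ℚ F
  obtain ⟨m, hm, hmθ⟩ := ((IsFractionRing.isAlgebraic_iff ℤ ℚ F).mpr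
    (Algebra.IsAlgebraic.isAlgebraic (R := ℚ) θ₀)).exists_integral_multiple
  obtain ⟨θ, hθ⟩ : ∃ θ : 𝓞 F, (θ : F) = (m : F) * θ₀ :=
    ⟨⟨(m : F) * θ₀, by rw [← zsmul_eq_mul]; exact hmθ⟩, rfl⟩
  have : Finite (IntermediateField ℚ F) :=
    Field.finite_intermediateField_of_exists_primitive_element ℚ F ⟨θ₀, hθ₀⟩
  set D : ℕ := Nat.card (IntermediateField ℚ F) with hD
  choose f hf using fun w : InfinitePlace F => exists_nat_gt
    ((M : ℝ) * (D * |(w.embedding (θ : F)).re| + 1) / |(w.embedding (Y₁ : F)).re|)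
  set E₀ : ℕ := 1 + P * (Finset.univ.sup f + 1) with hE₀
  -- the choice of `s`
  have hkey : ∃ s : ℕ, s ≤ D ∧ IntermediateField.adjoin ℚ
      {((z₁ * (E₀ : 𝓞 F) ^ 2 + (M : 𝓞 F) * s * θ : 𝓞 F) : F)} = ⊤ := by
    have := Fintype.ofFinite (IntermediateField ℚ F)
    let g : ℕ → IntermediateField ℚ F := fun s => IntermediateField.adjoin ℚ
      {((z₁ * (E₀ : 𝓞 F) ^ 2 + (M : 𝓞 F) * s * θ : 𝓞 F) : F)}
    obtain ⟨s, hs, t, ht, hne, hst⟩ := Finset.exists_ne_map_eq_of_card_lt_of_maps_to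
      (s := Finset.range (D + 1)) (t := Finset.univ)
      (by rw [Finset.card_range, Finset.card_univ, hD, Nat.card_eq_fintype_card]; omega)
      (f := g) fun _ _ => Finset.mem_coe.mpr (Finset.mem_univ _)
    refine ⟨s, Nat.lt_succ_iff.mp (Finset.mem_range.mp hs), top_le_iff.mp ?_⟩
    rw [← hθ₀, IntermediateField.adjoin_simple_le_iff]
    have h1 : ((z₁ * (E₀ : 𝓞 F) ^ 2 + (M : 𝓞 F) * s * θ : 𝓞 F) : F) ∈ g s :=
      IntermediateField.mem_adjoin_simple_self ℚ _
    have h2 : ((z₁ * (E₀ : 𝓞 F) ^ 2 + (M : 𝓞 F) * t * θ : 𝓞 F) : F) ∈ g s :=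
      hst ▸ IntermediateField.mem_adjoin_simple_self ℚ _
    have h3 := sub_mem h1 h2
    push_cast [map_add, map_mul, map_pow, map_natCast] at h3
    rw [add_sub_add_left_eq_sub, ← sub_mul, ← mul_sub,
      show algebraMap (𝓞 F) F θ = (m : F) * θ₀ from hθ] at h3
    have hM0 : (M : F) ≠ 0 := Nat.cast_ne_zero.mpr (pow_ne_zero _ hP0)
    have hst0 : ((s : F) - t) ≠ 0 := sub_ne_zero.mpr fun e => hne (Nat.cast_injective e)
    have hm0 : (m : F) ≠ 0 := Int.cast_ne_zero.mpr hm
    have h4 : ((M : F) * ((s : F) - t) * m)⁻¹ * ((M : F) * ((s : F) - t) * ((m : F) * θ₀)) ∈ g s :=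
      mul_mem (inv_mem (mul_mem (mul_mem (natCast_mem _ M) (sub_mem (natCast_mem _ s)
        (natCast_mem _ t))) (intCast_mem _ m))) h3
    rw [show ((M : F) * ((s : F) - t) * m)⁻¹ * ((M : F) * ((s : F) - t) * ((m : F) * θ₀)) = θ₀ by
      field_simp] at h4
    exact h4
  obtain ⟨s, hs, htop⟩ := hkey
  set a : 𝓞 F := z₁ * (E₀ : 𝓞 F) ^ 2 + (M : 𝓞 F) * s * θ
  obtain ⟨N, hN0, hN⟩ := exists_denominator htop
  -- avoid the places over `N`
  set R : Finset ℕ := N.primeFactors.filter fun ℓ => ¬ ℓ ∣ P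
  have hR : ∀ ℓ ∈ R, ℓ.Prime ∧ ¬ ℓ ∣ P := fun ℓ hℓ =>
    ⟨Nat.prime_of_mem_primeFactors (Finset.mem_filter.mp hℓ).1, (Finset.mem_filter.mp hℓ).2⟩
  have havoid : ∀ ℓ : ℕ, ℓ ∈ R → ∃ t, t < ℓ ∧
      ∀ v : HeightOneSpectrum (𝓞 F), (ℓ : 𝓞 F) ∈ v.asIdeal → a + (M : 𝓞 F) * t ∉ v.asIdeal := by
    intro ℓ hℓ
    obtain ⟨hℓp, hℓP⟩ := hR ℓ hℓ
    have hℓd : finrank ℚ F < ℓ := by
      by_contra h
      exact hℓP (Nat.dvd_factorial hℓp.pos ((not_lt.mp h).trans (Nat.le_add_right _ _)))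
    let ℓU : Fˣ := Units.mk0 (ℓ : F) (Nat.cast_ne_zero.mpr hℓp.ne_zero)
    set V := (finite_setOf_valuation_ne_one ℓU).toFinset.filter fun v => (ℓ : 𝓞 F) ∈ v.asIdeal
    have hV : ∀ v : HeightOneSpectrum (𝓞 F), (ℓ : 𝓞 F) ∈ v.asIdeal → v ∈ V := fun v hv => by
      refine Finset.mem_filter.mpr ⟨(Set.Finite.mem_toFinset _).mpr ?_, hv⟩
      rw [← HeightOneSpectrum.valuation_lt_one_iff_mem (K := F)] at hv
      push_cast at hv
      exact hv.ne
    set bad := V.biUnion fun v => (Finset.range ℓ).filter fun t : ℕ => a + (M : 𝓞 F) * t ∈ v.asIdeal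
    have hbad : bad.card < (Finset.range ℓ).card := by
      rw [Finset.card_range]
      refine lt_of_le_of_lt ((Finset.card_biUnion_le).trans
        (Finset.sum_le_card_nsmul _ _ 1 fun v hv => ?_)) ?_
      · rw [Finset.card_le_one]
        intro t ht t' ht'
        obtain ⟨htℓ, ht⟩ := Finset.mem_filter.mp ht
        obtain ⟨htℓ', ht'⟩ := Finset.mem_filter.mp ht'
        have h := sub_mem ht ht'
        rw [add_sub_add_left_eq_sub, ← mul_sub] at h
        have hℓv := (Finset.mem_filter.mp hv).2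
        rcases v.isPrime.mem_or_mem h with h' | h'
        · refine absurd ?_ hℓP
          rw [hM, Nat.cast_pow] at h'
          have hPv := v.isPrime.mem_of_pow_mem _ h'
          by_contra hne
          obtain ⟨x, y, hxy⟩ := Nat.isCoprime_iff_coprime.2 (hℓp.coprime_iff_not_dvd.mpr hne)
          refine v.isPrime.ne_top ((Ideal.eq_top_iff_one _).2 ?_)
          have e := congrArg (Int.castRingHom (𝓞 F)) hxy
          simp only [map_add, map_mul, map_natCast, map_one, eq_intCast] at e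
          rw [← e]
          exact add_mem (v.asIdeal.mul_mem_left _ hℓv) (v.asIdeal.mul_mem_left _ hPv)
        · by_contra hne
          have hd : ((((t : ℤ) - t') : ℤ) : 𝓞 F) ∈ v.asIdeal := by simpa using h'
          have hcop : IsCoprime (ℓ : ℤ) ((t : ℤ) - t') := by
            rw [(Nat.prime_iff_prime_int.mp hℓp).coprime_iff_not_dvd]
            intro hd'
            have h1 := Finset.mem_range.mp htℓ
            have h2 := Finset.mem_range.mp htℓ'
            exact hne (by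
              have := Int.eq_zero_of_abs_lt_dvd hd' (by rw [abs_lt]; omega)
              omega)
          obtain ⟨x, y, hxy⟩ := hcop
          refine v.isPrime.ne_top ((Ideal.eq_top_iff_one _).2 ?_)
          have e := congrArg (Int.castRingHom (𝓞 F)) hxy
          simp only [map_add, map_mul, map_natCast, map_one, eq_intCast] at e
          rw [← e]
          exact add_mem (v.asIdeal.mul_mem_left _ hℓv) (v.asIdeal.mul_mem_left _ hd)
      · rw [smul_eq_mul, mul_one]
        exact lt_of_le_of_lt (card_le_finrank hℓp V fun v hv => (Finset.mem_filter.mp hv).2) hℓd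
    obtain ⟨t, ht, htb⟩ := Finset.exists_mem_notMem_of_card_lt_card hbad
    exact ⟨t, Finset.mem_range.mp ht, fun v hv hmem' =>
      htb (Finset.mem_biUnion.mpr ⟨v, hV v hv, Finset.mem_filter.mpr ⟨ht, hmem'⟩⟩)⟩
  choose! tf htf using havoid
  obtain ⟨t₀, ht₀⟩ := Nat.chineseRemainderOfFinset tf id R (fun ℓ hℓ => (hR ℓ hℓ).1.ne_zero)
    (fun x hx y hy hne => (Nat.coprime_primes (hR x hx).1 (hR y hy).1).mpr hne)
  set t : ℕ := t₀ + ∏ ℓ ∈ R, ℓ with ht
  have ht1 : 1 ≤ t := le_trans (Nat.one_le_iff_ne_zero.mpr (Finset.prod_ne_zero_iff.mpr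
    fun ℓ hℓ => (hR ℓ hℓ).1.ne_zero)) (Nat.le_add_left _ _)
  set E : ℕ := 1 + P * t * N with hE
  set a' : 𝓞 F := a * (E : 𝓞 F) ^ 2 + (M : 𝓞 F) * t with ha'
  set W : 𝓞 F := (s : 𝓞 F) * θ * (E : 𝓞 F) ^ 2 + t
  have hform : (a' : F) = (Y₁ : F) * ((E₀ : F) * E) ^ 2 + (M : F) * (W : F) := by
    rw [ha', ← hz₁]
    simp only [a, W, map_add, map_mul, map_pow, map_natCast]
    ring
  have hEreal : ∀ w : InfinitePlace F, w.IsReal →
      (M : ℝ) * |(w.embedding (W : F)).re| <
        |(w.embedding (Y₁ : F)).re| * ((E₀ : ℝ) * E) ^ 2 := by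
    intro w hw
    have him : ∀ z : F, (w.embedding z).im = 0 := fun z => by
      rw [← InfinitePlace.embedding_of_isReal_apply hw]; exact Complex.ofReal_im _
    have hY0 : 0 < |(w.embedding (Y₁ : F)).re| := abs_pos.mpr (re_ne_zero hw Y₁)
    have hW : (w.embedding (W : F)).re = (s : ℝ) * (w.embedding (θ : F)).re * (E : ℝ) ^ 2 + t := by
      simp [W, map_add, map_mul, map_natCast, Complex.mul_re, him, pow_two]
    have hE1 : (t : ℝ) ≤ (E : ℝ) ^ 2 := by
      have h1 : t ≤ E := by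
        have hpos : 1 ≤ P * N := Nat.one_le_iff_ne_zero.mpr (mul_ne_zero hP0 hN0)
        calc t = 1 * t := (one_mul t).symm
          _ ≤ P * N * t := Nat.mul_le_mul_right t hpos
          _ ≤ E := by rw [hE, mul_right_comm]; exact Nat.le_add_left _ _
      exact_mod_cast h1.trans (Nat.le_self_pow two_ne_zero E)
    have hW' : |(w.embedding (W : F)).re| ≤
        ((D : ℝ) * |(w.embedding (θ : F)).re| + 1) * (E : ℝ) ^ 2 := by
      rw [hW, add_mul, one_mul]
      refine (abs_add_le _ _).trans (add_le_add ?_ (by rw [Nat.abs_cast]; exact hE1))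
      rw [abs_mul, abs_mul, Nat.abs_cast, abs_of_nonneg (sq_nonneg (E : ℝ))]
      gcongr
    have hf' := (div_lt_iff₀ hY0).mp (hf w)
    have hfE : (f w : ℝ) ≤ (E₀ : ℝ) ^ 2 := by
      have h1 : f w ≤ E₀ := by
        have := Finset.le_sup (f := f) (Finset.mem_univ w)
        have hpos : 1 ≤ P := Nat.one_le_iff_ne_zero.mpr hP0
        calc f w ≤ 1 * (Finset.univ.sup f + 1) := by omega
          _ ≤ P * (Finset.univ.sup f + 1) := Nat.mul_le_mul_right _ hpos
          _ ≤ E₀ := Nat.le_add_left _ _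
      exact_mod_cast h1.trans (Nat.le_self_pow two_ne_zero E₀)
    have hEpos : (0 : ℝ) < (E : ℝ) ^ 2 := by
      have : (0 : ℝ) < E := by exact_mod_cast (by rw [hE]; omega : 0 < E)
      positivity
    calc (M : ℝ) * |(w.embedding (W : F)).re|
        ≤ (M : ℝ) * ((D : ℝ) * |(w.embedding (θ : F)).re| + 1) * (E : ℝ) ^ 2 := by
          rw [mul_assoc]; exact mul_le_mul_of_nonneg_left hW' (Nat.cast_nonneg M)
      _ < (f w : ℝ) * |(w.embedding (Y₁ : F)).re| * (E : ℝ) ^ 2 :=
          mul_lt_mul_of_pos_right hf' hEpos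
      _ ≤ (E₀ : ℝ) ^ 2 * |(w.embedding (Y₁ : F)).re| * (E : ℝ) ^ 2 := by gcongr
      _ = _ := by ring
  have hEunit : ∀ v ∈ S₁, ∀ j : ℕ, v.valuation F ((1 + P * j : ℕ) : F) = 1 := by
    intro v hv j
    rw [← map_natCast (algebraMap (𝓞 F) F)]
    refine le_antisymm (v.valuation_le_one _) (not_lt.mp fun h => ?_)
    rw [HeightOneSpectrum.valuation_lt_one_iff_mem] at h
    refine v.isPrime.ne_top ((Ideal.eq_top_iff_one _).2 ?_)
    have := sub_mem h (v.asIdeal.mul_mem_right (j : 𝓞 F) ((hmem v).mp hv))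
    simpa using this
  -- `a'` is non-zero
  have ha0 : (a' : F) ≠ 0 ∨ (∀ w : InfinitePlace F, ¬ w.IsReal) := by
    by_contra h
    push Not at h
    obtain ⟨h0, w, hw⟩ := h
    have him : ∀ z : F, (w.embedding z).im = 0 := fun z => by
      rw [← InfinitePlace.embedding_of_isReal_apply hw]; exact Complex.ofReal_im _
    rw [hform] at h0
    obtain ⟨y, hy'⟩ : ∃ y : ℝ, w.embedding (Y₁ : F) = y :=
      ⟨_, (Complex.ext rfl (by simp [him]) :
        w.embedding (Y₁ : F) = ((w.embedding (Y₁ : F)).re : ℂ))⟩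
    obtain ⟨x, hx'⟩ : ∃ x : ℝ, w.embedding (W : F) = x :=
      ⟨_, (Complex.ext rfl (by simp [him]) : w.embedding (W : F) = ((w.embedding (W : F)).re : ℂ))⟩
    have h1 := congrArg w.embedding h0
    rw [map_add, map_mul, map_mul, map_pow, map_mul, map_natCast, map_natCast, map_natCast,
      map_zero, hy', hx'] at h1
    have h2 := hEreal w hw
    rw [hy', hx', Complex.ofReal_re, Complex.ofReal_re] at h2
    have h3 : y * ((E₀ : ℝ) * E) ^ 2 + (M : ℝ) * x = 0 := by exact_mod_cast h1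
    have h4 := congrArg abs (eq_neg_of_add_eq_zero_left h3)
    rw [abs_neg, abs_mul, abs_mul, abs_of_nonneg (sq_nonneg ((E₀ : ℝ) * E)), Nat.abs_cast] at h4
    linarith
  have hv₁ : ∀ v ∈ S₁, v.valuation F ((a' : F) / ((Y₁ : F) * ((E₀ : F) * E) ^ 2) - 1) ≤
      exp (-((2 * ordP v 2 + 1 : ℕ) : ℤ)) := by
    intro v hv
    have hden : v.valuation F ((Y₁ : F) * ((E₀ : F) * E) ^ 2) = v.valuation F (Y₁ : F) := by
      rw [map_mul, map_pow, map_mul, hE₀, hE, hEunit v hv, mul_assoc, hEunit v hv, one_mul,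
        one_pow, mul_one]
    have hden0 : (Y₁ : F) * ((E₀ : F) * E) ^ 2 ≠ 0 := fun h => by
      rw [h, map_zero] at hden; exact (Valuation.ne_zero_iff _).mpr Y₁.ne_zero hden.symm
    rw [hform, add_div, div_self hden0, add_sub_cancel_left, map_div₀, hden, map_mul,
      div_le_iff₀ (by simp [zero_lt_iff])]
    refine (mul_le_of_le_one_right' (v.valuation_le_one W)).trans ?_
    rw [hM, Nat.cast_pow, map_pow]
    have hP1 : v.valuation F (P : F) ≤ exp (-1 : ℤ) := by
      rw [← map_natCast (algebraMap (𝓞 F) F), show (-1 : ℤ) = -((1 : ℕ) : ℤ) from rfl,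
        ← mem_pow_iff_valuation, pow_one]
      exact (hmem v).mp hv
    refine (pow_le_pow_left₀ zero_le hP1 n).trans ?_
    rw [← exp_nsmul, ← exp_log (show v.valuation F (Y₁ : F) ≠ 0 by simp), ← exp_add, exp_le_exp]
    have h1 : 2 * ordP v 2 + 1 + (-log (v.valuation F (Y₁ : F))).toNat ≤ n := Finset.single_le_sum
      (f := fun v => 2 * ordP v 2 + 1 + (-log (v.valuation F (Y₁ : F))).toNat)
      (fun _ _ => Nat.zero_le _) hv
    simp only [nsmul_eq_mul]
    omega
  have hres : ∀ v ∉ S₁, a' ∈ v.asIdeal → (Ideal.absNorm v.asIdeal).Prime := by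
    intro v hv hav
    have hℓp := hr v
    set ℓ := r v
    have hℓP : ¬ ℓ ∣ P := fun ⟨k, hk⟩ => hv ((hmem v).mpr (by
      rw [hk, Nat.cast_mul]; exact Ideal.mul_mem_right _ _ (hrv v)))
    let φ := Ideal.Quotient.mk v.asIdeal
    have hφℓ : φ (ℓ : 𝓞 F) = 0 := Ideal.Quotient.eq_zero_iff_mem.mpr (hrv v)
    have := v.isPrime
    have hzero : ∀ k : ℕ, (k : 𝓞 F ⧸ v.asIdeal) = 0 → ℓ ∣ k := by
      intro k hk
      by_contra hne
      obtain ⟨x, y, hxy⟩ := Nat.isCoprime_iff_coprime.2 (hℓp.coprime_iff_not_dvd.mpr hne)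
      have e := congrArg (fun z : ℤ => (z : 𝓞 F ⧸ v.asIdeal)) hxy
      simp only [Int.cast_add, Int.cast_mul, Int.cast_natCast, Int.cast_one, hk, mul_zero,
        show (ℓ : 𝓞 F ⧸ v.asIdeal) = 0 by rw [← map_natCast φ]; exact hφℓ, add_zero] at e
      exact zero_ne_one e
    have hE' : ¬ ℓ ∣ E := by
      intro hdE
      obtain ⟨k, hk⟩ := hdE
      have h0 := Ideal.Quotient.eq_zero_iff_mem.mpr hav
      rw [ha', map_add, map_mul, map_mul, map_pow, map_natCast, map_natCast, map_natCast, hk,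
        Nat.cast_mul, show (ℓ : 𝓞 F ⧸ v.asIdeal) = 0 by rw [← map_natCast φ]; exact hφℓ,
        zero_mul, zero_pow two_ne_zero, mul_zero, zero_add, ← Nat.cast_mul] at h0
      rcases hℓp.dvd_mul.mp (hzero _ h0) with h | h
      · exact hℓP (hℓp.dvd_of_dvd_pow (hM ▸ h))
      · exact hℓp.one_lt.ne' (Nat.dvd_one.mp ((Nat.dvd_add_left
          ((dvd_mul_of_dvd_right h P).mul_right N)).mp (hE ▸ ⟨k, hk⟩)))
    have hNv : ¬ ℓ ∣ N := by
      intro hN'
      have hℓR : ℓ ∈ R :=
        Finset.mem_filter.mpr ⟨Nat.mem_primeFactors.mpr ⟨hℓp, hN', hN0⟩, hℓP⟩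
      refine (htf ℓ hℓR).2 v (hrv v) (Ideal.Quotient.eq_zero_iff_mem.mp ?_)
      have h0 := Ideal.Quotient.eq_zero_iff_mem.mpr hav
      have hNc : (N : 𝓞 F ⧸ v.asIdeal) = 0 := by
        obtain ⟨k, hk⟩ := hN'
        rw [hk, Nat.cast_mul, ← map_natCast φ, hφℓ, zero_mul]
      have hE1 : (E : 𝓞 F ⧸ v.asIdeal) = 1 := by rw [hE]; push_cast; rw [hNc, mul_zero, add_zero]
      have htt : (t : 𝓞 F ⧸ v.asIdeal) = (tf ℓ : 𝓞 F ⧸ v.asIdeal) := by
        have hprod : ℓ ∣ ∏ i ∈ R, i := Finset.dvd_prod_of_mem _ hℓR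
        have hmod : t ≡ tf ℓ [MOD ℓ] := by
          have := (ht₀ ℓ hℓR).add (Nat.modEq_zero_iff_dvd.mpr hprod)
          simpa [ht] using this
        obtain ⟨k, hk⟩ := (Nat.modEq_iff_dvd.mp hmod)
        have e := congrArg (fun z : ℤ => (z : 𝓞 F ⧸ v.asIdeal)) hk
        simp only [Int.cast_sub, Int.cast_mul, Int.cast_natCast] at e
        rw [show (ℓ : 𝓞 F ⧸ v.asIdeal) = 0 by rw [← map_natCast φ]; exact hφℓ, zero_mul,
          sub_eq_zero] at e
        exact e.symm
      rw [ha', map_add, map_mul, map_mul, map_pow, map_natCast, map_natCast, map_natCast, hE1,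
        one_pow, mul_one, htt] at h0
      rw [map_add, map_mul, map_natCast, map_natCast]
      exact h0
    -- the residue field is the prime field
    let T : Subring (𝓞 F) := (Int.castRingHom (𝓞 F ⧸ v.asIdeal)).range.comap φ
    have hE0 : (E : 𝓞 F ⧸ v.asIdeal) ≠ 0 := fun h => hE' (hzero E h)
    have : CharP (𝓞 F ⧸ v.asIdeal) ℓ := (CharP.charP_iff_prime_eq_zero hℓp).mpr
      (by rw [← map_natCast φ]; exact hφℓ)
    have : Fact ℓ.Prime := ⟨hℓp⟩
    have hinv : ∀ k : ℕ, ¬ ℓ ∣ k → ∃ j : ℤ, (k : 𝓞 F ⧸ v.asIdeal) * j = 1 := by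
      intro k hk
      obtain ⟨x, y, hxy⟩ := Nat.isCoprime_iff_coprime.2 (hℓp.coprime_iff_not_dvd.mpr hk)
      refine ⟨y, ?_⟩
      have e := congrArg (fun z : ℤ => (z : 𝓞 F ⧸ v.asIdeal)) hxy
      simp only [Int.cast_add, Int.cast_mul, Int.cast_natCast, Int.cast_one,
        show (ℓ : 𝓞 F ⧸ v.asIdeal) = 0 by rw [← map_natCast φ]; exact hφℓ, mul_zero,
        zero_add] at e
      rw [mul_comm]; exact e
    have haT : a ∈ T := by
      obtain ⟨j, hj⟩ := hinv E hE'
      refine ⟨-((M : ℤ) * t * j ^ 2), ?_⟩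
      have h0 := Ideal.Quotient.eq_zero_iff_mem.mpr hav
      rw [ha', map_add, map_mul, map_mul, map_pow, map_natCast, map_natCast, map_natCast,
        add_eq_zero_iff_eq_neg] at h0
      show _ = φ a
      rw [eq_intCast]; push_cast
      calc -((M : 𝓞 F ⧸ v.asIdeal) * t * (j : 𝓞 F ⧸ v.asIdeal) ^ 2)
          = φ a * ((E : 𝓞 F ⧸ v.asIdeal) * j) ^ 2 := by rw [mul_pow, ← mul_assoc, h0]; ring
        _ = φ a := by rw [hj, one_pow, mul_one]
    have hsurj : Function.Surjective (ZMod.castHom (dvd_refl ℓ) (𝓞 F ⧸ v.asIdeal)) := by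
      intro u
      obtain ⟨z, rfl⟩ := Ideal.Quotient.mk_surjective u
      obtain ⟨i, hi⟩ := (Subring.closure_le.mpr (Set.singleton_subset_iff.mpr haT)) (hN z)
      obtain ⟨j, hj⟩ := hinv N hNv
      refine ⟨((i * j : ℤ) : ZMod ℓ), ?_⟩
      rw [map_intCast, Int.cast_mul]
      rw [eq_intCast, map_mul, map_natCast] at hi
      rw [hi, mul_right_comm, hj, one_mul]
    have hbij : Function.Bijective (ZMod.castHom (dvd_refl ℓ) (𝓞 F ⧸ v.asIdeal)) :=
      ⟨RingHom.injective _, hsurj⟩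
    have hcard := Nat.card_eq_of_bijective _ hbij
    rw [Nat.card_zmod] at hcard
    rw [Ideal.absNorm_apply, Submodule.cardQuot_apply]
    exact hcard ▸ hℓp
  rcases eq_or_ne (a' : F) 0 with h0 | h0
  · -- no real place: use a different element
    exfalso
    rcases Finset.eq_empty_or_nonempty S₁ with hempty | ⟨v, hv⟩
    · have : ∀ v : HeightOneSpectrum (𝓞 F), (P : 𝓞 F) ∉ v.asIdeal := fun v h => by
        have := (hmem v).mpr h
        rw [hempty] at this
        exact Finset.notMem_empty v this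
      obtain ⟨⟨Q, hQ, hQv⟩⟩ : Nonempty (Ideal.primesOver (Ideal.span {(2 : ℤ)}) (𝓞 F)) := by
        have : (Ideal.span {(2 : ℤ)}).IsPrime :=
          (Ideal.span_singleton_prime (by norm_num)).mpr (by norm_num)
        infer_instance
      have h2Q : (2 : 𝓞 F) ∈ Q := by
        have := hQv.over ▸ Ideal.mem_span_singleton_self (2 : ℤ)
        simpa using this
      refine this ⟨Q, hQ, fun h => ?_⟩ ?_
      · rw [h, Ideal.mem_bot] at h2Q; exact two_ne_zero h2Q
      · have hB2 : 2 ∣ P ∨ B < 2 := (lt_or_ge B 2).symm.imp (Nat.dvd_factorial two_pos) id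
        rcases hB2 with ⟨k, hk⟩ | hB2
        · rw [hk, Nat.cast_mul, Nat.cast_two]; exact Ideal.mul_mem_right _ _ h2Q
        · exfalso
          have hd : 0 < finrank ℚ F := finrank_pos
          have h1 : finrank ℚ F = 1 := by omega
          obtain ⟨w⟩ := (inferInstance : Nonempty (InfinitePlace F))
          refine (ha0.resolve_left (not_not.mpr h0)) w (InfinitePlace.not_isComplex_iff_isReal.mp
            fun hc => ?_)
          have := InfinitePlace.card_add_two_mul_card_eq_rank F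
          have : 0 < InfinitePlace.nrComplexPlaces F := by
            rw [InfinitePlace.nrComplexPlaces]; exact Fintype.card_pos_iff.mpr ⟨⟨w, hc⟩⟩
          omega
    · have h := hv₁ v hv
      rw [h0, zero_div, zero_sub, Valuation.map_neg, map_one, ← exp_zero, exp_le_exp] at h
      omega
  refine ⟨Units.mk0 _ h0, ?_, fun v hv hne => hres v hv ?_⟩
  · rintro (v | w) hq
    · have hv := inl_mem_plSet.mp hq
      have hE00 : ((E₀ : F) * E) ≠ 0 :=
        mul_ne_zero (Nat.cast_ne_zero.mpr (by rw [hE₀]; omega))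
          (Nat.cast_ne_zero.mpr (by rw [hE]; omega))
      set u : Fˣ := Units.mk0 _ h0 / (Y₁ * Units.mk0 _ hE00 ^ 2) with hu
      have h1 : u ∈ localPow v 2 := congrOne_le_localPow v two_ne_zero
        (mem_congrOne_of_close v (by omega) (by
          simp only [hu, Units.val_div_eq_div_val, Units.val_mul, Units.val_pow_eq_pow_val,
            Units.val_mk0]
          exact hv₁ v hv))
      rw [show Units.mk0 _ h0 / Y = u * (c' * Units.mk0 _ hE00) ^ 2 by
        rw [hu, hY₁, mul_pow, mul_assoc, div_mul_eq_mul_div, mul_div_mul_right_eq_div]]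
      exact mul_mem h1 (range_pow_le_localPow v 2 ⟨_, rfl⟩)
    · intro hw
      have him : ∀ z : F, (w.embedding z).im = 0 := fun z => by
        rw [← InfinitePlace.embedding_of_isReal_apply hw]; exact Complex.ofReal_im _
      have hsame : Units.mk0 _ h0 / Y₁ ∈ posAt w := fun _ => by
        rw [Units.val_div_eq_div_val, Units.val_mk0, hform, map_div₀, map_add, map_mul, map_mul,
          map_pow, map_mul, map_natCast, map_natCast, map_natCast]
        have h2 := hEreal w hw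
        have hy := re_ne_zero hw Y₁
        obtain ⟨y, hy'⟩ : ∃ y : ℝ, w.embedding (Y₁ : F) = y :=
          ⟨_, (Complex.ext rfl (by simp [him]) :
            w.embedding (Y₁ : F) = ((w.embedding (Y₁ : F)).re : ℂ))⟩
        obtain ⟨x, hx'⟩ : ∃ x : ℝ, w.embedding (W : F) = x :=
          ⟨_, (Complex.ext rfl (by simp [him]) :
            w.embedding (W : F) = ((w.embedding (W : F)).re : ℂ))⟩
        rw [hy', Complex.ofReal_re] at hy
        rw [hy', hx', Complex.ofReal_re, Complex.ofReal_re] at h2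
        rw [hy', hx', show ((y : ℂ) * ((E₀ : ℂ) * E) ^ 2 + (M : ℂ) * x) / y =
          (((y * ((E₀ : ℝ) * E) ^ 2 + (M : ℝ) * x) / y : ℝ) : ℂ) by push_cast; ring,
          Complex.ofReal_re]
        have hx1 := neg_abs_le x
        have hx2 := le_abs_self x
        rcases lt_or_gt_of_ne hy with hy0 | hy0
        · rw [abs_of_neg hy0] at h2
          exact div_pos_of_neg_of_neg (by nlinarith) hy0
        · rw [abs_of_pos hy0] at h2
          exact div_pos (by nlinarith) hy0
      refine (show Units.mk0 _ h0 / Y ∈ posAt w from ?_) hw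
      rw [show Units.mk0 _ h0 / Y = Units.mk0 _ h0 / Y₁ * c' ^ 2 by
        rw [hY₁, div_mul_eq_mul_div, mul_div_mul_right_eq_div]]
      exact mul_mem hsame (sq_mem_posAt w c')
  · rw [← HeightOneSpectrum.valuation_lt_one_iff_mem (K := F)]
    exact lt_of_le_of_ne (v.valuation_le_one _) hne

open Classical in
/-- A relation vanishing at the places of prime norm vanishes. -/
theorem IsRel.eq_zero_of_degOne {A : Pl F → Fˣ → ZMod 2} {S : Finset (HeightOneSpectrum (𝓞 F))}
    (h : IsRel A S)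
    (h0 : ∀ v ∉ S, (Ideal.absNorm v.asIdeal).Prime → ∀ x, A (.inl v) x = 0) :
    ∀ p x, A p x = 0 := by
  intro p₀ x₀
  let S₀ : Finset (HeightOneSpectrum (𝓞 F)) := match p₀ with
    | .inl v => insert v S
    | .inr _ => S
  have hS₀ : S ⊆ S₀ := by cases p₀ <;> simp [S₀]
  have hp₀ : p₀ ∈ plSet S₀ := by
    cases p₀ with
    | inl v => exact inl_mem_plSet.mpr (Finset.mem_insert_self v S)
    | inr w => exact inr_mem_plSet w
  obtain ⟨S₁, hS₁, hdeg⟩ := exists_degOne S₀
  have hp₁ : p₀ ∈ plSet S₁ := by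
    cases p₀ with
    | inl v => exact inl_mem_plSet.mpr (hS₁ (Finset.mem_insert_self v S))
    | inr w => exact inr_mem_plSet w
  obtain ⟨Y, hY⟩ := exists_targets S₁ fun q => if q = p₀ then x₀ else 1
  obtain ⟨y, hy, hsupp⟩ := hdeg Y
  set T := S₁ ∪ (finite_setOf_valuation_ne_one y).toFinset
  have hsum := h.sum_eq T ((hS₀.trans hS₁).trans Finset.subset_union_left) y fun v hv => by
    simp only [T, Finset.mem_coe, Finset.mem_union, Set.Finite.mem_toFinset, not_or] at hv
    exact not_not.mp hv.2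
  rw [Finset.sum_eq_single_of_mem p₀ (by
    cases p₀ with
    | inl v => exact inl_mem_plSet.mpr (Finset.mem_union_left _ (inl_mem_plSet.mp hp₁))
    | inr w => exact inr_mem_plSet w) fun q hq hne => ?_] at hsum
  · rw [h.congr_sq (x := y) (y := x₀) ?_] at hsum
    · exact hsum
    · have h1 := hY p₀ hp₁
      rw [if_pos rfl] at h1
      simpa [div_mul_div_cancel] using mul_mem (hy p₀ hp₁) h1
  · by_cases hq₁ : q ∈ plSet S₁
    · rw [h.congr_sq (x := y) (y := 1) ?_, h.map_one]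
      have h1 := hY q hq₁
      rw [if_neg hne] at h1
      simpa [div_mul_div_cancel] using mul_mem (hy q hq₁) h1
    · cases q with
      | inr w => exact absurd (inr_mem_plSet w) hq₁
      | inl v =>
        have hv : v ∉ S₁ := fun e => hq₁ (inl_mem_plSet.mpr e)
        rcases Finset.mem_union.mp (inl_mem_plSet.mp hq) with hq' | hq'
        · exact absurd hq' hv
        · exact h0 v (fun e => hv (hS₁ (hS₀ e)))
            (hsupp v hv ((Set.Finite.mem_toFinset _).mp hq')) y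

end Fermat.Agent.Duality.Global.Two
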