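import Fermat.Agent.Duality.Global.Two.Basic
import Fermat.Agent.Duality.Global.HasseNorm

/-!
# The index theorem for quadratic extensions of an arbitrary number field
-/

set_option autoImplicit false

open IsDedekindDomain NumberField WithZero Module

namespace Fermat.Agent.Duality.Global.Two

variable {F : Type} [Field F] [NumberField F]

/-- Norms from the local extension at an infinite place. -/
noncomputable def normInf (b : Fˣ) (w : InfinitePlace F) : Subgroup Fˣ :=
  open Classical in if b ∈ posAt w then ⊤ else posAt w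

omit [NumberField F] in
lemma posAt_le_normInf (b : Fˣ) (w : InfinitePlace F) : posAt w ≤ normInf b w := by
  classical
  rw [normInf]; split_ifs
  · exact le_top
  · exact le_rfl

lemma normVals_le_normInf (b : Fˣ) (w : InfinitePlace F) : normVals b ≤ normInf b w := by
  classical
  rintro a ⟨x, y, h⟩
  rw [normInf]; split_ifs with hb
  · exact Subgroup.mem_top a
  · intro hw
    have hb' : (w.embedding (b : F)).re ≤ 0 := not_lt.mp fun h' => hb fun _ => h'
    have e : ∀ z : F, (w.embedding z).im = 0 := fun z => by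
      rw [← InfinitePlace.embedding_of_isReal_apply hw]; exact Complex.ofReal_im _
    refine lt_of_le_of_ne ?_ (re_ne_zero hw a).symm
    rw [h, map_sub, map_mul, map_pow, map_pow, Complex.sub_re, pow_two, pow_two, Complex.mul_re,
      Complex.mul_re, Complex.mul_re, e, e, e]
    nlinarith [mul_self_nonneg (w.embedding x).re, mul_self_nonneg (w.embedding y).re]

/-- `S` is large for `b`. -/
structure Adm (b : Fˣ) (S : Finset (HeightOneSpectrum (𝓞 F))) : Prop where
  principal : SPrincipal F S
  two : ∀ v ∉ S, v.valuation F (2 : F) = 1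
  mem : b ∈ sUnit F S
  normPrime : ∀ v ∉ S, b ∈ localPow v 2 → ∃ π ∈ normVals b, v.valuation F (π : F) = exp (-1 : ℤ) ∧
    ∀ v' ∉ S, v' ≠ v → v'.valuation F (π : F) = 1

lemma Adm.mono {b : Fˣ} {S S' : Finset (HeightOneSpectrum (𝓞 F))} (h : Adm b S) (hS : S ⊆ S') :
    Adm b S' where
  principal := SPrincipal.mono F h.principal hS
  two v hv := h.two v fun e => hv (hS e)
  mem := sUnit_mono hS h.mem
  normPrime v hv hb := by
    obtain ⟨π, h1, h2, h3⟩ := h.normPrime v (fun e => hv (hS e)) hb
    exact ⟨π, h1, h2, fun v' hv' => h3 v' fun e => hv' (hS e)⟩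

open Classical in
theorem exists_adm (b : Fˣ) : ∃ S : Finset (HeightOneSpectrum (𝓞 F)), Adm b S := by
  by_cases hb : ∃ z : Fˣ, z ^ 2 = b
  · obtain ⟨z, hz⟩ := hb
    obtain ⟨S₁, hS₁⟩ := exists_sPrincipal F
    let P : Fˣ := Units.mk0 2 two_ne_zero
    refine ⟨S₁ ∪ (finite_setOf_valuation_ne_one P).toFinset ∪
      (finite_setOf_valuation_ne_one b).toFinset,
      SPrincipal.mono F hS₁ (fun v hv => by simp [hv]), fun v hv => ?_, fun v hv => ?_,
      fun v hv _ => ?_⟩
    · simp only [Finset.mem_union, Set.Finite.mem_toFinset, not_or] at hv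
      exact not_not.mp hv.1.2
    · simp only [Finset.mem_coe, Finset.mem_union, Set.Finite.mem_toFinset, not_or] at hv
      exact not_not.mp hv.2
    · obtain ⟨π, h1, h2⟩ := hS₁ v fun e => hv (by simp [e])
      exact ⟨π, by rw [normVals_eq_top_of_sq hz]; exact Subgroup.mem_top π, h1,
        fun v' hv' => h2 v' fun e => hv' (by simp [e])⟩
  · push Not at hb
    obtain ⟨L, _, _, _, _, β, hdeg, hβ, hβF⟩ := exists_sqrt_extension hb
    obtain ⟨S, -, hS, hSL, h2, hbS, -⟩ := exists_large (L := L) Nat.prime_two ∅ b b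
    refine ⟨S, hS, fun v hv => by exact_mod_cast h2 v hv, hbS, fun v hv hbv => ?_⟩
    obtain ⟨π, h1, h2, h3⟩ := exists_norm_prime Nat.prime_two hdeg hSL hv
      (isSplit_of_mem_localPow Nat.prime_two hdeg isPrimitiveRoot_neg_one hβ hβF hbv)
    exact ⟨π, by rwa [← range_normHom_eq hdeg hβ hβF], h2, h3⟩

open Classical in
/-- The number of infinite places at which `b` is negative. -/
noncomputable def negCount (b : Fˣ) : ℕ :=
  (Finset.univ.filter fun w : InfinitePlace F => b ∉ posAt w).card

section Extension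

variable {b : Fˣ} {L : Type} [Field L] [NumberField L] [Algebra F L] [IsGalois F L]
  {β : L}

lemma isUnramifiedIn_iff (hdeg : finrank F L = 2) (hβ : β ^ 2 = algebraMap F L b)
    (hβF : β ∉ Set.range (algebraMap F L)) (w : InfinitePlace F) :
    w.IsUnramifiedIn L ↔ b ∈ posAt w := by
  by_cases hw : w.IsReal
  swap
  · refine ⟨fun _ h => absurd h hw, fun _ v hv => InfinitePlace.isUnramified_iff.mpr (.inr ?_)⟩
    rw [hv]; exact InfinitePlace.not_isReal_iff_isComplex.mp hw
  have him : ∀ z : F, (w.embedding z).im = 0 := fun z => by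
    rw [← InfinitePlace.embedding_of_isReal_apply hw]; exact Complex.ofReal_im _
  constructor
  · intro h _
    obtain ⟨v, hv⟩ := InfinitePlace.comap_surjective (K := L) w
    replace hv : v.comap (algebraMap F L) = w := hv
    have hemb : ∀ z, v.embedding (algebraMap F L z) = w.embedding z := fun z => by
      rw [← hv, InfinitePlace.comap_embedding_of_isReal _ (hv ▸ hw)]; rfl
    have hreal : v.IsReal := (InfinitePlace.isUnramified_iff.mp (h v hv)).resolve_right
      (by rw [hv, InfinitePlace.not_isComplex_iff_isReal]; exact hw)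
    have h1 : (v.embedding β).im = 0 := by
      rw [← InfinitePlace.embedding_of_isReal_apply hreal]; exact Complex.ofReal_im _
    have h2 : (w.embedding (b : F)).re = (v.embedding β).re ^ 2 := by
      rw [← hemb, ← hβ, map_pow, pow_two, Complex.mul_re, h1, mul_zero, sub_zero, pow_two]
    exact lt_of_le_of_ne (h2 ▸ sq_nonneg _) (re_ne_zero hw b).symm
  · intro hb v hv
    refine InfinitePlace.isUnramified_iff.mpr (.inl ?_)
    have hemb : ∀ z, v.embedding (algebraMap F L z) = w.embedding z := fun z => by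
      rw [← hv, InfinitePlace.comap_embedding_of_isReal _ (hv ▸ hw)]; rfl
    have h1 : (v.embedding β).im = 0 := by
      have h2 := congrArg v.embedding hβ
      rw [map_pow, hemb, pow_two] at h2
      have h3 := congrArg Complex.im h2
      have h4 := congrArg Complex.re h2
      rw [Complex.mul_im, him] at h3
      rw [Complex.mul_re] at h4
      have h5 := hb hw
      rcases mul_eq_zero.mp (show (v.embedding β).re * (v.embedding β).im = 0 by linarith) with
        h | h
      · rw [h, zero_mul] at h4; nlinarith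
      · exact h
    rw [InfinitePlace.isReal_iff, ComplexEmbedding.isReal_iff]
    refine RingHom.ext fun y => ?_
    have h := natCast_mul_eq_sum_trace Nat.prime_two hdeg isPrimitiveRoot_neg_one
      ⟨b, hβ.symm⟩ hβF y
    rw [Finset.sum_range_succ, Finset.sum_range_one, pow_zero, pow_one, mul_one] at h
    have h6 := congrArg (fun z => (v.embedding z).im) h
    simp only [map_mul, map_add, map_natCast, hemb, Complex.add_im, Complex.mul_im, him, h1,
      Complex.natCast_im, mul_zero, zero_mul, add_zero, Complex.natCast_re] at h6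
    rw [ComplexEmbedding.conjugate_coe_eq, Complex.conj_eq_iff_im]
    push_cast at h6
    linarith

open Classical in
/-- First inequality for a quadratic extension. -/
theorem index_unitNorms_two (hdeg : finrank F L = 2) (hβ : β ^ 2 = algebraMap F L b)
    (hβF : β ∉ Set.range (algebraMap F L)) (S : Finset (HeightOneSpectrum (𝓞 F)))
    (hS : SPrincipal F S) (hram : ∀ v ∉ S, IsUnram L v) :
    (unitNorms L S).index * 2 =
      2 ^ ((S.filter fun v => ¬ IsSplit L v).card + negCount b) := by
  obtain ⟨σ, hσ⟩ := exists_ne_one Nat.prime_two hdeg (L := L)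
  obtain ⟨-, -, hH⟩ := herbrand_eq Nat.prime_two (sigmaEnd_pow_eq_one S hdeg σ)
  rw [herbrand0_eq S Nat.prime_two hdeg hσ, herbrand1_eq_one S Nat.prime_two hdeg hσ hS hram,
    one_pow, one_mul, ← (fixedEquiv S Nat.prime_two hdeg hσ).toIntLinearEquiv.finrank_eq,
    finrank_sUnit, finrank_sUnit, show 2 - 1 = 1 from rfl, pow_one] at hH
  have hinf : Fintype.card (InfinitePlace L) + negCount b =
      2 * Fintype.card (InfinitePlace F) := by
    rw [InfinitePlace.card_eq_card_isUnramifiedIn F L, hdeg, negCount, ← Finset.card_univ,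
      Finset.filter_congr fun w _ => isUnramifiedIn_iff hdeg hβ hβF w]
    have hcount := Finset.card_filter_add_card_filter_not
      (s := (Finset.univ : Finset (InfinitePlace F))) fun w => b ∈ posAt w
    rw [Finset.compl_filter]
    omega
  have hc := card_placesOver Nat.prime_two hdeg S (L := L)
  have hK : 0 < Fintype.card (InfinitePlace F) := Fintype.card_pos
  have hL : 0 < Fintype.card (InfinitePlace L) := Fintype.card_pos
  simp only [Units.rank] at hH
  refine Nat.eq_of_mul_eq_mul_right
    (Nat.two_pow_pos (Fintype.card (InfinitePlace L) - 1 + (placesOver L S).card)) ?_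
  rw [mul_right_comm, hH, ← pow_succ, ← pow_add]
  congr 1
  omega

end Extension

/-- Local squares on `S` and positive at infinity. -/
noncomputable def sqAll (S : Finset (HeightOneSpectrum (𝓞 F))) : Subgroup Fˣ :=
  (⨅ v ∈ S, localPow v 2) ⊓ ⨅ w : InfinitePlace F, posAt w

lemma mem_sqAll {S : Finset (HeightOneSpectrum (𝓞 F))} {x : Fˣ} :
    x ∈ sqAll S ↔ (∀ v ∈ S, x ∈ localPow v 2) ∧ ∀ w, x ∈ posAt w := by
  simp [sqAll, Subgroup.mem_iInf]

/-- Local norms on `S` and at infinity. -/
noncomputable def normAll (b : Fˣ) (S : Finset (HeightOneSpectrum (𝓞 F))) : Subgroup Fˣ :=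
  (⨅ v ∈ S, normTwo b v) ⊓ ⨅ w : InfinitePlace F, normInf b w

lemma mem_normAll {b : Fˣ} {S : Finset (HeightOneSpectrum (𝓞 F))} {x : Fˣ} :
    x ∈ normAll b S ↔ (∀ v ∈ S, x ∈ normTwo b v) ∧ ∀ w, x ∈ normInf b w := by
  simp [normAll, Subgroup.mem_iInf]

lemma sqAll_le_normAll (b : Fˣ) (S : Finset (HeightOneSpectrum (𝓞 F))) : sqAll S ≤ normAll b S :=
  fun _ hx => mem_normAll.mpr ⟨fun v hv => localPow_le_normTwo ((mem_sqAll.mp hx).1 v hv),
    fun w => posAt_le_normInf b w ((mem_sqAll.mp hx).2 w)⟩

lemma normVals_le_normAll (b : Fˣ) (S : Finset (HeightOneSpectrum (𝓞 F))) :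
    normVals b ≤ normAll b S :=
  fun _ hx => mem_normAll.mpr ⟨fun _ _ => normVals_le_normTwo hx,
    fun w => normVals_le_normInf b w hx⟩

/-- The index of a finite intersection of local conditions is the product of the local indices. -/
lemma index_inf_eq_prod (S : Finset (HeightOneSpectrum (𝓞 F)))
    (A : HeightOneSpectrum (𝓞 F) → Subgroup Fˣ) (B : InfinitePlace F → Subgroup Fˣ)
    (hA : ∀ v, localPow v 2 ≤ A v) (hB : ∀ w, posAt w ≤ B w) :
    ((⨅ v ∈ S, A v) ⊓ ⨅ w, B w).index = (∏ v ∈ S, (A v).index) * ∏ w, (B w).index := by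
  classical
  let Θ : Fˣ →* (∀ v : S, Fˣ ⧸ A v.1) × (∀ w, Fˣ ⧸ B w) :=
    (MonoidHom.pi fun v : S => QuotientGroup.mk' (A v.1)).prod
      (MonoidHom.pi fun w => QuotientGroup.mk' (B w))
  have hker : Θ.ker = (⨅ v ∈ S, A v) ⊓ ⨅ w, B w := by
    ext x
    simp [Θ, MonoidHom.mem_ker, Prod.ext_iff, funext_iff, Subgroup.mem_iInf,
      QuotientGroup.eq_one_iff]
  have hsurj : Function.Surjective Θ := by
    rintro ⟨f, g⟩
    obtain ⟨y, hy, hy'⟩ := exists_approx_signs S (∑ v ∈ S, (2 * ordP v 2 + 1))
      (fun v => if h : v ∈ S then (f ⟨v, h⟩).out else 1) (fun w => (g w).out)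
    refine ⟨y, Prod.ext (funext fun v => ?_) (funext fun w => ?_)⟩
    · show (y : Fˣ ⧸ A v.1) = f v
      rw [← QuotientGroup.out_eq' (f v)]
      refine (QuotientGroup.eq.mpr ?_).symm
      have h1 := hy v.1 v.2
      rw [dif_pos v.2, div_eq_inv_mul] at h1
      exact hA v.1 (congrOne_le_localPow v.1 two_ne_zero (congrOne_antitone v.1
        (Finset.single_le_sum (f := fun w => 2 * ordP w 2 + 1) (fun _ _ => Nat.zero_le _) v.2) h1))
    · show (y : Fˣ ⧸ B w) = g w
      rw [← QuotientGroup.out_eq' (g w)]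
      refine (QuotientGroup.eq.mpr ?_).symm
      have h1 := hy' w
      rw [div_eq_inv_mul] at h1
      exact hB w h1
  rw [← hker, index_ker_of_surjective Θ hsurj, Nat.card_prod, Nat.card_pi, Nat.card_pi]
  congr 1
  exact Finset.prod_attach S fun v => (A v).index

lemma prod_index_posAt :
    ∏ w : InfinitePlace F, (posAt w).index = 2 ^ InfinitePlace.nrRealPlaces F := by
  classical
  simp only [index_posAt_eq]
  rw [Finset.prod_ite, Finset.prod_const_one, mul_one, Finset.prod_const,
    InfinitePlace.nrRealPlaces, Fintype.card_subtype]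

/-- An `S ∪ T`-unit which is a square at `S` and at infinity is a square. -/
theorem exists_sq_eq {S T : Finset (HeightOneSpectrum (𝓞 F))}
    [DecidableEq (HeightOneSpectrum (𝓞 F))]
    (hS : SPrincipal F (S ∪ T))
    (h2S : ∀ v ∉ S, v.valuation F (2 : F) = 1)
    (hsurj : ∀ f : HeightOneSpectrum (𝓞 F) → Fˣ, ∃ x ∈ sUnit F (S ∪ T),
      ∀ v ∈ T, x / f v ∈ localPow v 2)
    {u : Fˣ} (hu : u ∈ sUnit F (S ∪ T)) (hloc : u ∈ sqAll S) : ∃ y : Fˣ, y ^ 2 = u := by
  classical
  by_contra hne
  push Not at hne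
  obtain ⟨L, _, _, _, _, β, hdeg, hβ, hβF⟩ := exists_sqrt_extension hne
  have hram : ∀ v ∉ S ∪ T, IsUnram L v := fun v hv =>
    isUnram_of_unit Nat.prime_two hdeg isPrimitiveRoot_neg_one hβ hβF
      (by exact_mod_cast h2S v fun h => hv (Finset.mem_union_left _ h)) (hu v hv)
  have hidx := index_unitNorms_two hdeg hβ hβF (S ∪ T) hS hram
  rw [show negCount u = 0 from Finset.card_eq_zero.mpr
    (Finset.filter_false_of_mem fun w _ => not_not.mpr ((mem_sqAll.mp hloc).2 w)), add_zero] at hidx
  set N' := (S ∪ T).filter fun v => ¬ IsSplit L v with hN'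
  have hN'T : ∀ v ∈ N', v ∈ T := fun v hv => by
    obtain ⟨hv', hns⟩ := Finset.mem_filter.mp hv
    exact (Finset.mem_union.mp hv').resolve_left fun h =>
      hns (isSplit_of_mem_localPow Nat.prime_two hdeg isPrimitiveRoot_neg_one hβ hβF
        ((mem_sqAll.mp hloc).1 v h))
  let Ψ : sUnit F (S ∪ T) →* ∀ v : N', Fˣ ⧸ localNorm L v.1 :=
    MonoidHom.pi fun v => (QuotientGroup.mk' (localNorm L v.1)).comp (sUnit F (S ∪ T)).subtype
  have hΨ : Function.Surjective Ψ := by
    intro f
    obtain ⟨x, hx, hxf⟩ := hsurj fun v => if h : v ∈ N' then (f ⟨v, h⟩).out else 1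
    refine ⟨⟨x, hx⟩, funext fun v => ?_⟩
    show (x : Fˣ ⧸ localNorm L v.1) = f v
    rw [← QuotientGroup.out_eq' (f v)]
    refine QuotientGroup.eq.mpr ?_
    have h1 := localPow_le_localNorm (L := L) hdeg _ (hxf v.1 (hN'T v.1 v.2))
    rw [dif_pos v.2] at h1
    have h2 := (localNorm L v.1).inv_mem h1
    rwa [inv_div, div_eq_inv_mul] at h2
  have hker : unitNorms L (S ∪ T) ≤ Ψ.ker := by
    intro x hx
    obtain ⟨y, -, hy⟩ := hx
    refine funext fun v => (QuotientGroup.eq_one_iff _).mpr ?_
    show (x : Fˣ) ∈ localNorm L v.1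
    rw [show (x : Fˣ) = normHom y from hy.symm]
    exact normHom_mem_localNorm y _
  have h1 := Subgroup.index_dvd_of_le hker
  rw [index_ker_of_surjective Ψ hΨ, Nat.card_pi] at h1
  have h2 : (unitNorms L (S ∪ T)).index ≠ 0 := fun h => by
    rw [h, zero_mul] at hidx; exact (Nat.two_pow_pos _).ne' hidx.symm
  have h3 : 2 ^ N'.card ≤ ∏ v : N', Nat.card (Fˣ ⧸ localNorm L v.1) := by
    calc 2 ^ N'.card = ∏ _v : N', 2 := by simp
      _ ≤ _ := Finset.prod_le_prod' fun v _ =>
        le_index_localNorm Nat.prime_two hdeg isPrimitiveRoot_neg_one (Finset.mem_filter.mp v.2).2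
  have h4 := Nat.le_of_dvd (Nat.pos_of_ne_zero h2) h1
  omega

/-- The relative index of the local squares in the `S ∪ T`-units. -/
lemma relIndex_sqAll {S S' : Finset (HeightOneSpectrum (𝓞 F))}
    (hinj : ∀ u ∈ sUnit F S', u ∈ sqAll S → ∃ y : Fˣ, y ^ 2 = u) :
    (sqAll S).relIndex (sUnit F S') = 2 ^ (S'.card + Fintype.card (InfinitePlace F)) := by
  rw [Subgroup.relIndex, ← index_sUnit_pow Nat.prime_two isPrimitiveRoot_neg_one S']
  congr 1
  ext u
  constructor
  · intro h
    obtain ⟨y, hy⟩ := hinj u u.2 h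
    have hyS : y ∈ sUnit F S' := fun v hv => by
      have h1 := u.2 v hv
      rw [← hy, Units.val_pow_eq_pow_val, map_pow,
        pow_eq_one_iff_of_nonneg zero_le two_ne_zero] at h1
      exact h1
    exact ⟨⟨y, hyS⟩, Subtype.ext hy⟩
  · rintro ⟨y, rfl⟩
    exact mem_sqAll.mpr ⟨fun v _ => range_pow_le_localPow v 2 ⟨(y : Fˣ), rfl⟩,
      fun w => sq_mem_posAt w _⟩

open Classical in
/-- **Index theorem**: the `S`-units and the local norms span a subgroup of index `2`, and the
local norm groups at non-split places have index `2`. -/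
theorem index_sup_normAll {b : Fˣ} (hb : ∀ z : Fˣ, z ^ 2 ≠ b)
    {S : Finset (HeightOneSpectrum (𝓞 F))} (hA : Adm b S) :
    (sUnit F S ⊔ normAll b S).index = 2 ∧
      (∀ v ∈ S, (normTwo b v).index = if b ∈ localPow v 2 then 1 else 2) := by
  have h2' : ∀ v ∉ S, v.valuation F ((2 : ℕ) : F) = 1 := fun v hv => by exact_mod_cast hA.two v hv
  obtain ⟨L, _, _, _, _, β, hdeg, hβ, hβF⟩ := exists_sqrt_extension hb
  have hζ := isPrimitiveRoot_neg_one (F := F)
  have hsplit : ∀ v, IsSplit L v ↔ b ∈ localPow v 2 := fun v =>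
    ⟨fun h => mem_localPow_of_isSplit Nat.prime_two hdeg h hβ,
      fun h => isSplit_of_mem_localPow Nat.prime_two hdeg hζ hβ hβF h⟩
  obtain ⟨T, hT, hTcard, hTs⟩ := exists_aux_places Nat.prime_two hdeg hζ hβ hβF h2' hA.mem
  have hdisj : Disjoint S T := Finset.disjoint_left.mpr fun v h h' => (hT v h').1 h
  have hπ : ∀ v ∈ T, ∃ π ∈ (⊤ : Subgroup Fˣ), v.valuation F (π : F) = exp (-1 : ℤ) ∧
      ∀ v' ∉ S, v' ≠ v → v'.valuation F (π : F) = 1 := fun v hv => by
    obtain ⟨π, h1, h2⟩ := hA.principal v (hT v hv).1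
    exact ⟨π, Subgroup.mem_top π, h1, h2⟩
  have hsurj : ∀ f : HeightOneSpectrum (𝓞 F) → Fˣ, ∃ y ∈ sUnit F (S ∪ T),
      ∀ v ∈ T, y / f v ∈ localPow v 2 := by
    intro f
    obtain ⟨x₀, -, hx₀, hx₀v⟩ := exists_prod_valuation S T ⊤ (fun v hv => (hT v hv).1) hπ
      fun v => log (v.valuation F (f v : F))
    obtain ⟨u, hu, hu'⟩ := hTs (fun v => f v / x₀) fun v hv => by
      show v.valuation F ((f v / x₀ : Fˣ) : F) = 1
      rw [Units.val_div_eq_div_val, map_div₀, hx₀v v hv, exp_log (by simp), div_self (by simp)]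
    refine ⟨u * x₀, mul_mem (sUnit_mono Finset.subset_union_left hu) hx₀, fun v hv => ?_⟩
    have := hu' v hv
    rwa [div_div_eq_mul_div] at this
  -- squares
  have hP : (sUnit F (S ∪ T) ⊔ sqAll S).index = 2 := by
    have h1 : (sqAll S).index = 2 ^ (2 * S.card + finrank ℚ F + InfinitePlace.nrRealPlaces F) := by
      rw [sqAll, index_inf_eq_prod S _ _ (fun v => le_rfl) (fun w => le_rfl), prod_index_posAt,
        pow_add, ← prod_index_localPow Nat.prime_two hζ S h2', Finset.univ_eq_attach,
        Finset.prod_attach S fun v => (localPow v 2).index]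
    have h2 := Subgroup.relIndex_mul_index (le_sup_right : sqAll S ≤ sUnit F (S ∪ T) ⊔ sqAll S)
    rw [Subgroup.relIndex_sup_right, h1,
      relIndex_sqAll fun u hu h => exists_sq_eq (SPrincipal.mono F hA.principal
        Finset.subset_union_left) hA.two hsurj hu h,
      Finset.card_union_of_disjoint hdisj] at h2
    refine mul_left_cancel₀ (Nat.two_pow_pos (S.card + T.card +
      Fintype.card (InfinitePlace F))).ne' (h2.trans ?_)
    rw [← pow_succ]
    congr 1
    rw [InfinitePlace.card_eq_nrRealPlaces_add_nrComplexPlaces] at hTcard ⊢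
    rw [← InfinitePlace.card_add_two_mul_card_eq_rank]
    omega
  have hle : sUnit F (S ∪ T) ≤ sUnit F S ⊔ normAll b S := by
    intro u hu
    obtain ⟨x, hxN, hxS, hxv⟩ := exists_prod_valuation S T (normVals b) (fun v hv => (hT v hv).1)
      (fun v hv => hA.normPrime v (hT v hv).1 ((hsplit v).mp (hT v hv).2))
      fun v => log (v.valuation F (u : F))
    rw [show u = u / x * x by rw [div_mul_cancel]]
    refine Subgroup.mul_mem_sup (fun v hv => ?_) (normVals_le_normAll b S hxN)
    rw [Units.val_div_eq_div_val, map_div₀]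
    by_cases hvT : v ∈ T
    · rw [hxv v hvT, exp_log (by simp), div_self (by simp)]
    · have hv' : v ∉ S ∪ T := by simp [hvT]; exact hv
      rw [show v.valuation F (u : F) = 1 from hu v hv',
        show v.valuation F (x : F) = 1 from hxS v hv', div_one]
  have hUN : (sUnit F S ⊔ normAll b S).index ≤ 2 := Nat.le_of_dvd two_pos
    ((Subgroup.index_dvd_of_le (sup_le hle ((sqAll_le_normAll b S).trans le_sup_right))).trans
      (dvd_of_eq hP))
  -- norms
  have hram : ∀ v ∉ S, IsUnram L v := fun v hv =>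
    isUnram_of_unit Nat.prime_two hdeg hζ hβ hβF (h2' v hv) (hA.mem v hv)
  have hidx := index_unitNorms_two hdeg hβ hβF S hA.principal hram
  have hne : (unitNorms L S).index ≠ 0 := fun h => by
    rw [h, zero_mul] at hidx; exact (Nat.two_pow_pos _).ne' hidx.symm
  have hrel : (normAll b S).relIndex (sUnit F S) ≤ (unitNorms L S).index := by
    refine Nat.le_of_dvd (Nat.pos_of_ne_zero hne) (Subgroup.index_dvd_of_le ?_)
    rintro u ⟨y, -, hy⟩
    refine normVals_le_normAll b S ?_
    rw [← range_normHom_eq hdeg hβ hβF]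
    exact ⟨y, hy⟩
  have hmul := Subgroup.relIndex_mul_index (le_sup_right : normAll b S ≤ sUnit F S ⊔ normAll b S)
  rw [Subgroup.relIndex_sup_right] at hmul
  have hprod : (normAll b S).index =
      (∏ v ∈ S, (normTwo b v).index) * ∏ w, (normInf b w).index :=
    index_inf_eq_prod S _ _ (fun v => localPow_le_normTwo) fun w => posAt_le_normInf b w
  have hInf : ∏ w : InfinitePlace F, (normInf b w).index = 2 ^ negCount b := by
    rw [negCount, ← Finset.prod_const, Finset.prod_filter]
    refine Finset.prod_congr rfl fun w _ => ?_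
    by_cases h : b ∈ posAt w
    · simp [normInf, h]
    · rw [normInf, if_neg h, if_pos h]
      exact index_posAt (Classical.byContradiction fun hw => h fun h' => absurd h' hw)
  have hfac : ∀ v ∈ S, (if b ∈ localPow v 2 then 1 else 2) ≤ (normTwo b v).index := by
    intro v _
    rw [normTwo_eq_localNorm hdeg hβ hβF]
    split_ifs with h
    · exact Nat.one_le_iff_ne_zero.mpr (index_localNorm_ne_zero Nat.prime_two hdeg hζ v)
    · exact le_index_localNorm Nat.prime_two hdeg hζ fun hs => h ((hsplit v).mp hs)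
  have hlow : ∏ v ∈ S, (if b ∈ localPow v 2 then 1 else 2) =
      2 ^ (S.filter fun v => ¬ IsSplit L v).card := by
    rw [Finset.prod_ite, Finset.prod_const_one, one_mul, Finset.prod_const,
      Finset.filter_congr fun v _ => not_congr (hsplit v).symm]
  have hup : ∏ v ∈ S, (normTwo b v).index ≤ 2 ^ (S.filter fun v => ¬ IsSplit L v).card := by
    refine Nat.le_of_mul_le_mul_right ?_ (Nat.two_pow_pos (negCount b))
    rw [← hInf, ← hprod, ← hmul, hInf, ← pow_add, ← hidx]
    exact Nat.mul_le_mul hrel hUN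
  have heach : ∀ v ∈ S, (if b ∈ localPow v 2 then 1 else 2) = (normTwo b v).index := by
    intro v hv
    refine le_antisymm (hfac v hv) (not_lt.mp fun h => ?_)
    have := Finset.prod_lt_prod (s := S) (fun i _ => by split_ifs <;> norm_num) hfac ⟨v, hv, h⟩
    rw [hlow] at this
    omega
  refine ⟨le_antisymm hUN ?_, fun v hv => (heach v hv).symm⟩
  have h1 : (unitNorms L S).index * 2 ≤
      (normAll b S).relIndex (sUnit F S) * (sUnit F S ⊔ normAll b S).index := by
    rw [hidx, hmul, hprod, hInf, pow_add, ← hlow]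
    exact Nat.mul_le_mul_right _ (Finset.prod_le_prod' hfac)
  exact Nat.le_of_mul_le_mul_left (h1.trans (Nat.mul_le_mul_right _ hrel)) (Nat.pos_of_ne_zero hne)

end Fermat.Agent.Duality.Global.Two
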