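import Fermat.Agent.Duality.Global.Two.Rel

/-!
# The relation of a rational prime `q ≡ 1 (mod 4)`
-/

set_option autoImplicit false

open IsDedekindDomain NumberField WithZero Module

namespace Fermat.Agent.Duality.Global.Two

variable {F : Type} [Field F] [NumberField F]

/-- `1` exactly at the non-residues mod `q`. -/
noncomputable def nonRes (q : ℕ) [Fact q.Prime] (n : ℤ) : ZMod 2 :=
  if legendreSym q n = -1 then 1 else 0

section Prime

variable {q : ℕ} [hq : Fact q.Prime]

lemma nonRes_mul {m n : ℤ} (hm : (m : ZMod q) ≠ 0) (hn : (n : ZMod q) ≠ 0) :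
    nonRes q (m * n) = nonRes q m + nonRes q n := by
  rw [nonRes, nonRes, nonRes, legendreSym.mul]
  rcases legendreSym.eq_one_or_neg_one q hm with h | h <;>
    rcases legendreSym.eq_one_or_neg_one q hn with h' | h' <;> simp +decide [h, h']

lemma nonRes_one : nonRes q 1 = 0 := by simp [nonRes]

lemma nonRes_pow {m : ℤ} (hm : (m : ZMod q) ≠ 0) (k : ℕ) : nonRes q (m ^ k) = k * nonRes q m := by
  induction k with
  | zero => simp [nonRes_one]
  | succ k ih =>
    rw [pow_succ, nonRes_mul (by push_cast; exact pow_ne_zero k hm) hm, ih]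
    push_cast
    ring

lemma nonRes_prod {ι : Type*} (s : Finset ι) {f : ι → ℤ} (hf : ∀ i ∈ s, (f i : ZMod q) ≠ 0) :
    nonRes q (∏ i ∈ s, f i) = ∑ i ∈ s, nonRes q (f i) := by
  classical
  induction s using Finset.induction_on with
  | empty => simp [nonRes_one]
  | insert i s hi ih =>
    rw [Finset.prod_insert hi, Finset.sum_insert hi,
      nonRes_mul (hf i (Finset.mem_insert_self i s)) ?_,
      ih fun j hj => hf j (Finset.mem_insert_of_mem hj)]
    push_cast
    exact Finset.prod_ne_zero_iff.mpr fun j hj => hf j (Finset.mem_insert_of_mem hj)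

/-- The norm of an integral element congruent to `1` is congruent to `1`. -/
lemma norm_one_add_mul (r : 𝓞 F) :
    ((Algebra.norm ℤ (1 + (q : 𝓞 F) * r) : ℤ) : ZMod q) = 1 := by
  classical
  let bs := Module.Free.chooseBasis ℤ (𝓞 F)
  rw [Algebra.norm_eq_matrix_det bs, ← eq_intCast (Int.castRingHom (ZMod q)), RingHom.map_det]
  have h : (Int.castRingHom (ZMod q)).mapMatrix
      (Algebra.leftMulMatrix bs (1 + (q : 𝓞 F) * r)) = 1 := by
    rw [map_add, map_mul, map_one, map_natCast, map_add, map_mul, map_one, map_natCast,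
      show (q : Matrix (Module.Free.ChooseBasisIndex ℤ (𝓞 F))
          (Module.Free.ChooseBasisIndex ℤ (𝓞 F)) (ZMod q)) = 0 by
        rw [← map_natCast (algebraMap (ZMod q) _), ZMod.natCast_self, map_zero],
      zero_mul, add_zero]
  rw [h, Matrix.det_one]

variable (F)

open Classical in
/-- Integral form: the parities of the orders of an element recover the symbol of its norm. -/
lemma nonRes_norm (hq4 : q % 4 = 1) {α : 𝓞 F} (hα : α ≠ 0)
    (hnorm : ((Algebra.norm ℤ α : ℤ) : ZMod q) = 1) (α' : Fˣ) (hα' : (α' : F) = α)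
    (T : Finset (HeightOneSpectrum (𝓞 F))) (hT : ∀ v ∉ T, v.valuation F (α' : F) = 1)
    (e : HeightOneSpectrum (𝓞 F) → ZMod 2)
    (he : ∀ v, (q : 𝓞 F) ∉ v.asIdeal →
      e v = nonRes q (Ideal.absNorm v.asIdeal : ℤ) ∨ ordPar v α' = 0) :
    ∑ v ∈ T, e v * ordPar v α' = 0 := by
  have hI : Ideal.span {α} ≠ ⊥ := by simpa using hα
  set k : HeightOneSpectrum (𝓞 F) → ℕ := fun v => (Associates.mk v.asIdeal).count
    (Associates.mk (Ideal.span {α})).factors with hk
  have hval : ∀ v : HeightOneSpectrum (𝓞 F), v.valuation F (α' : F) = exp (-(k v : ℤ)) :=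
    fun v => by
    rw [hα', HeightOneSpectrum.valuation_of_algebraMap, v.intValuation_if_neg hα]
  have hsupp : (Function.mulSupport fun v : HeightOneSpectrum (𝓞 F) =>
      v.maxPowDividing (Ideal.span {α})) ⊆ T := by
    intro v hv
    by_contra hvT
    have h := hT v hvT
    rw [hval, ← exp_zero, exp_inj, neg_eq_zero, Nat.cast_eq_zero] at h
    exact hv (show v.asIdeal ^ k v = 1 by rw [h, pow_zero])
  have habs : (Ideal.absNorm (Ideal.span {α}) : ℤ) =
      ∏ v ∈ T, (Ideal.absNorm v.asIdeal : ℤ) ^ k v := by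
    conv_lhs => rw [← Ideal.finprod_heightOneSpectrum_factorization hI,
      finprod_eq_prod_of_mulSupport_subset _ hsupp, map_prod, Nat.cast_prod]
    exact Finset.prod_congr rfl fun v _ => by
      rw [show v.maxPowDividing (Ideal.span {α}) = v.asIdeal ^ k v from rfl, map_pow, Nat.cast_pow]
  have hunit : ((Ideal.absNorm (Ideal.span {α}) : ℤ) : ZMod q) ^ 2 = 1 := by
    rw [Ideal.absNorm_span_singleton]
    rcases Int.natAbs_eq (Algebra.norm ℤ α) with h | h <;> rw [h] at hnorm <;> push_cast at hnorm ⊢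
    · rw [hnorm, one_pow]
    · rw [← neg_sq, hnorm, one_pow]
  have hne : ∀ v ∈ T, (((Ideal.absNorm v.asIdeal : ℤ) ^ k v : ℤ) : ZMod q) ≠ 0 := by
    intro v hv h0
    rw [habs] at hunit
    push_cast at hunit h0
    rw [Finset.prod_eq_zero hv h0, zero_pow two_ne_zero] at hunit
    exact zero_ne_one hunit
  have hpar : ∀ v, ordPar v α' = (k v : ZMod 2) := fun v => by
    rw [ordPar, hval, log_exp]
    push_cast
    rw [ZMod.neg_eq_self_mod_two]
  have hterm : ∀ v ∈ T, e v * ordPar v α' =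
      nonRes q ((Ideal.absNorm v.asIdeal : ℤ) ^ k v) := by
    intro v hv
    by_cases h0 : k v = 0
    · rw [hpar, h0, Nat.cast_zero, mul_zero, pow_zero, nonRes_one]
    have hn : ((Ideal.absNorm v.asIdeal : ℤ) : ZMod q) ≠ 0 := fun h => hne v hv (by
      push_cast at h ⊢; rw [h, zero_pow h0])
    have hqv : (q : 𝓞 F) ∉ v.asIdeal := fun h => by
      refine hn ?_
      push_cast
      rw [ZMod.natCast_eq_zero_iff]
      by_contra hne'
      obtain ⟨a, b, hab⟩ := Nat.isCoprime_iff_coprime.2 ((hq.out.coprime_iff_not_dvd).mpr hne')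
      refine v.isPrime.ne_top ((Ideal.eq_top_iff_one _).2 ?_)
      have h' := congrArg (Int.castRingHom (𝓞 F)) hab
      simp only [map_add, map_mul, map_natCast, map_one, eq_intCast] at h'
      rw [← h']
      exact add_mem (v.asIdeal.mul_mem_left _ h) (v.asIdeal.mul_mem_left _ (Ideal.absNorm_mem _))
    rw [nonRes_pow hn, mul_comm (k v : ZMod 2)]
    rcases he v hqv with h | h
    · rw [h, hpar]
    · rw [← hpar, h, mul_zero, mul_zero]
  rw [Finset.sum_congr rfl hterm, ← nonRes_prod T hne, ← habs, nonRes, if_neg]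
  intro h
  have hneg : legendreSym q (-1) = 1 := by
    rw [legendreSym.at_neg_one (by omega), ZMod.χ₄_nat_one_mod_four hq4]
  rw [Ideal.absNorm_span_singleton] at h
  have h1 : legendreSym q (Algebra.norm ℤ α) = 1 := by
    rw [legendreSym.mod, show (Algebra.norm ℤ α) % (q : ℤ) = 1 % (q : ℤ) from
      (ZMod.intCast_eq_intCast_iff' _ _ q).mp (by rw [hnorm, Int.cast_one]), ← legendreSym.mod,
      legendreSym.at_one]
  rcases Int.natAbs_eq (Algebra.norm ℤ α) with e' | e' <;> rw [e'] at h1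
  · rw [h] at h1; exact absurd h1 (by decide)
  · rw [← neg_one_mul, legendreSym.mul, hneg, one_mul, h] at h1; exact absurd h1 (by decide)

end Prime

/-- A square is not sent to a non-residue. -/
lemma nonRes_absNorm_eq_zero {q : ℕ} [hq : Fact q.Prime] (hq4 : q % 4 = 1)
    {v : HeightOneSpectrum (𝓞 F)} (hv2 : (2 : 𝓞 F) ∉ v.asIdeal) (hvq : (q : 𝓞 F) ∉ v.asIdeal)
    {g : 𝓞 F} (hg : g ^ 2 - (q : 𝓞 F) ∈ v.asIdeal) :
    nonRes q (Ideal.absNorm v.asIdeal : ℤ) = 0 := by
  classical
  rw [nonRes, if_neg]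
  intro hleg
  let _ := Ideal.Quotient.field v.asIdeal
  have : Finite (𝓞 F ⧸ v.asIdeal) := Ideal.finiteQuotientOfFreeOfNeBot _ v.ne_bot
  let _ := Fintype.ofFinite (𝓞 F ⧸ v.asIdeal)
  obtain ⟨ℓ, hℓ, hℓv⟩ := Places.exists_prime_natCast_mem v
  have : Fact ℓ.Prime := ⟨hℓ⟩
  have hℓ0 : (ℓ : 𝓞 F ⧸ v.asIdeal) = 0 := by
    rw [← map_natCast (Ideal.Quotient.mk v.asIdeal)]
    exact Ideal.Quotient.eq_zero_iff_mem.mpr hℓv
  have : CharP (𝓞 F ⧸ v.asIdeal) ℓ := (CharP.charP_iff_prime_eq_zero hℓ).mpr hℓ0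
  obtain ⟨f, -, hcard⟩ := FiniteField.card (𝓞 F ⧸ v.asIdeal) ℓ
  have habs : Ideal.absNorm v.asIdeal = ℓ ^ (f : ℕ) := by
    rw [← hcard, Ideal.absNorm_apply, Submodule.cardQuot_apply, Nat.card_eq_fintype_card]
  have hℓ2 : ℓ ≠ 2 := fun e => hv2 (by rw [e] at hℓv; exact_mod_cast hℓv)
  have hℓq : ℓ ≠ q := fun e => hvq (e ▸ hℓv)
  rw [habs, Nat.cast_pow] at hleg
  have hℓ' : ((ℓ : ℤ) : ZMod q) ≠ 0 := by
    rw [Int.cast_natCast, Ne, ZMod.natCast_eq_zero_iff]
    exact fun h => hℓq ((Nat.prime_dvd_prime_iff_eq hq.out hℓ).mp h).symm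
  have hpow : legendreSym q ((ℓ : ℤ) ^ (f : ℕ)) = legendreSym q ℓ ^ (f : ℕ) :=
    map_pow (legendreSym.hom q) _ _
  rw [hpow] at hleg
  have hneg : legendreSym q ℓ = -1 := by
    rcases legendreSym.eq_one_or_neg_one q hℓ' with h | h
    · rw [h, one_pow] at hleg; exact absurd hleg (by decide)
    · exact h
  have hodd : Odd (f : ℕ) := by
    rw [hneg] at hleg
    exact neg_one_pow_eq_neg_one_iff_odd (by decide) |>.mp hleg
  have hrec : legendreSym ℓ q = -1 := by
    rw [legendreSym.quadratic_reciprocity_one_mod_four hq4 hℓ2]; exact hneg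
  have heul : ((q : ℤ) : ZMod ℓ) ^ (ℓ / 2) = -1 := by
    rw [← legendreSym.eq_pow, hrec]; push_cast; rfl
  set z := Ideal.Quotient.mk v.asIdeal g
  have hz : z ^ 2 = (q : 𝓞 F ⧸ v.asIdeal) := by
    rw [← map_pow, ← map_natCast (Ideal.Quotient.mk v.asIdeal)]
    exact Ideal.Quotient.eq.mpr hg
  have hzpow : z ^ ℓ = -z := by
    have h2 := congrArg (ZMod.castHom (dvd_refl ℓ) (𝓞 F ⧸ v.asIdeal)) heul
    rw [map_pow, map_neg, map_one, Int.cast_natCast, map_natCast, ← hz, ← pow_mul] at h2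
    obtain ⟨k, hk⟩ := hℓ.odd_of_ne_two hℓ2
    rw [show 2 * (ℓ / 2) = 2 * k by omega] at h2
    rw [hk, pow_succ, h2, neg_one_mul]
  have hiter : ∀ n : ℕ, z ^ (ℓ ^ n) = (-1) ^ n * z := by
    intro n
    induction n with
    | zero => simp
    | succ n ih =>
      rw [pow_succ, pow_mul, ih, mul_pow, hzpow, ← pow_mul, mul_comm n, pow_mul,
        (hℓ.odd_of_ne_two hℓ2).neg_one_pow, pow_succ]
      ring
  have hcl := FiniteField.pow_card z
  rw [hcard, hiter, hodd.neg_one_pow, neg_one_mul] at hcl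
  have h20 : (2 : 𝓞 F ⧸ v.asIdeal) ≠ 0 := fun h => hv2 (by
    rw [← Ideal.Quotient.eq_zero_iff_mem, map_ofNat]; exact h)
  have hz0 : z = 0 := by
    have : (2 : 𝓞 F ⧸ v.asIdeal) * z = 0 := by linear_combination -hcl
    exact (mul_eq_zero.mp this).resolve_left h20
  rw [hz0, zero_pow two_ne_zero] at hz
  exact hvq (Ideal.Quotient.eq_zero_iff_mem.mp (by rw [map_natCast]; exact hz.symm))

/-- The weight of a place: the symbol of its norm at `q`. -/
noncomputable def qWeight (q : ℕ) [Fact q.Prime] (v : HeightOneSpectrum (𝓞 F)) : ZMod 2 :=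
  open Classical in
  if (q : 𝓞 F) ∈ v.asIdeal ∨ (2 : 𝓞 F) ∈ v.asIdeal then 0
  else nonRes q (Ideal.absNorm v.asIdeal : ℤ)

open Classical in
/-- The character of `q`, summed away from `S`. -/
noncomputable def qChar (q : ℕ) [Fact q.Prime] (S : Finset (HeightOneSpectrum (𝓞 F))) (x : Fˣ) :
    ZMod 2 :=
  ∑ v ∈ (finite_setOf_valuation_ne_one x).toFinset \ S, qWeight q v * ordPar v x

open Classical in
lemma qChar_eq_sum {q : ℕ} [Fact q.Prime] {S : Finset (HeightOneSpectrum (𝓞 F))} (x : Fˣ)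
    (T : Finset (HeightOneSpectrum (𝓞 F)))
    (hT : (finite_setOf_valuation_ne_one x).toFinset ⊆ T ∪ S) :
    qChar q S x = ∑ v ∈ T \ S, qWeight q v * ordPar v x := by
  refine Finset.sum_subset (fun v hv => ?_) fun v hv hv' => ?_
  · obtain ⟨h1, h2⟩ := Finset.mem_sdiff.mp hv
    exact Finset.mem_sdiff.mpr ⟨(Finset.mem_union.mp (hT h1)).resolve_right h2, h2⟩
  · have h1 : v ∉ (finite_setOf_valuation_ne_one x).toFinset :=
      fun h => hv' (Finset.mem_sdiff.mpr ⟨h, (Finset.mem_sdiff.mp hv).2⟩)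
    rw [Set.Finite.mem_toFinset, Set.mem_ofPred_eq, not_not] at h1
    rw [ordPar, h1, log_one, Int.cast_zero, mul_zero]

open Classical in
lemma qChar_mul {q : ℕ} [Fact q.Prime] (S : Finset (HeightOneSpectrum (𝓞 F))) (x y : Fˣ) :
    qChar q S (x * y) = qChar q S x + qChar q S y := by
  set supp : Fˣ → Finset (HeightOneSpectrum (𝓞 F)) := fun x =>
    (finite_setOf_valuation_ne_one x).toFinset
  have hsub : supp (x * y) ⊆ supp x ∪ supp y ∪ S := fun v hv => by
    rw [Set.Finite.mem_toFinset, Set.mem_ofPred_eq] at hv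
    simp only [Finset.mem_union, supp, Set.Finite.mem_toFinset, Set.mem_ofPred_eq]
    by_contra hne
    simp only [not_or, not_not] at hne
    exact hv (by rw [Units.val_mul, map_mul, hne.1.1, hne.1.2, mul_one])
  rw [qChar_eq_sum (x * y) _ hsub, qChar_eq_sum x (supp x ∪ supp y)
      (Finset.subset_union_left.trans Finset.subset_union_left),
    qChar_eq_sum y (supp x ∪ supp y) (Finset.subset_union_right.trans Finset.subset_union_left),
    ← Finset.sum_add_distrib]
  exact Finset.sum_congr rfl fun v _ => by rw [ordPar_mul, mul_add]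

open Classical in
/-- The character of `q` vanishes on the local squares. -/
theorem qChar_sqAll {q : ℕ} [hq : Fact q.Prime] (hq4 : q % 4 = 1) {qu : Fˣ} (hqu : (qu : F) = q)
    {S : Finset (HeightOneSpectrum (𝓞 F))}
    (hout : ∀ v ∉ S, (q : 𝓞 F) ∉ v.asIdeal ∧ (2 : 𝓞 F) ∉ v.asIdeal) {x : Fˣ} (hx : x ∈ sqAll S) :
    qChar q S x = 0 := by
  set e : HeightOneSpectrum (𝓞 F) → ZMod 2 := fun v => qWeight q v with he
  let supp : Fˣ → Finset (HeightOneSpectrum (𝓞 F)) := fun x =>
    (finite_setOf_valuation_ne_one x).toFinset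
  let h : Fˣ → ZMod 2 := qChar q S
  have hsum : ∀ (x : Fˣ) (T : Finset (HeightOneSpectrum (𝓞 F))), supp x ⊆ T ∪ S →
      h x = ∑ v ∈ T \ S, e v * ordPar v x := qChar_eq_sum
  have hmul : ∀ x y, h (x * y) = h x + h y := qChar_mul S
  show h x = 0
  have hqpos : (q : F) ≠ 0 := Nat.cast_ne_zero.mpr hq.out.ne_zero
  set n := ∑ v ∈ S, (ordP v q + 2 * ordP v 2 + 1) with hn
  have hloc : ∀ v ∈ S, ∃ g : Fˣ, x / g ^ 2 ∈ congrOne v n := by
    intro v hv
    have h1 := (mem_sqAll.mp hx).1 v hv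
    have hle : 2 * ordP v 2 + 1 ≤ n := le_trans (by omega)
      (Finset.single_le_sum (f := fun v => ordP v q + 2 * ordP v 2 + 1)
        (fun _ _ => Nat.zero_le _) hv)
    rw [localPow_eq v two_ne_zero hle, Subgroup.mem_sup] at h1
    obtain ⟨_, ⟨g, rfl⟩, c, hc, rfl⟩ := h1
    exact ⟨g, by rw [powMonoidHom_apply, mul_div_cancel_left]; exact hc⟩
  choose! g hg using hloc
  obtain ⟨z, hz⟩ := exists_approx_units S n g
  set y := x / z ^ 2 with hy
  have hyS : ∀ v ∈ S, y ∈ congrOne v n := fun v hv => by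
    have h1 : z / g v ∈ congrOne v n := mem_congrOne_of_close v (by
      have := Finset.single_le_sum (f := fun v => ordP v q + 2 * ordP v 2 + 1)
        (fun _ _ => Nat.zero_le _) hv
      omega) (by rw [Units.val_div_eq_div_val]; exact hz v hv)
    rw [hy, show x / z ^ 2 = x / g v ^ 2 / (z / g v) ^ 2 by rw [div_pow, div_div_div_cancel_right]]
    exact div_mem (hg v hv) (pow_mem h1 2)
  have hxy : h x = h y := by
    rw [show x = y * (z * z) by rw [hy, ← pow_two, div_mul_cancel], hmul, hmul,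
      (show ∀ a : ZMod 2, a + a = 0 by decide), add_zero]
  -- write `y` as a quotient of integers congruent to `1`
  set t : F := ((y : F) - 1) / q
  have ht : ∀ v : HeightOneSpectrum (𝓞 F), (q : 𝓞 F) ∈ v.asIdeal → v.valuation F t ≤ 1 := by
    intro v hv
    have hvS : v ∈ S := by
      by_contra hvS
      exact (hout v hvS).1 hv
    have hle : ordP v q ≤ n := le_trans (by omega)
      (Finset.single_le_sum (f := fun v => ordP v q + 2 * ordP v 2 + 1)
        (fun _ _ => Nat.zero_le _) hvS)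
    rw [map_div₀, div_le_iff₀ (by simp [zero_lt_iff, hqpos]), one_mul,
      valuation_natCast_eq v hq.out.ne_zero]
    exact (hyS v hvS).2.trans (exp_le_exp.mpr (by omega))
  obtain ⟨m, hm⟩ : ∃ m : HeightOneSpectrum (𝓞 F) → ℕ,
      ∀ v, v.valuation F t ≤ exp (m v : ℤ) :=
    ⟨fun v => (log (v.valuation F t)).toNat, fun v => by
      by_cases h0 : v.valuation F t = 0
      · rw [h0]; exact zero_le
      · conv_lhs => rw [← exp_log h0]
        exact exp_le_exp.mpr (Int.self_le_toNat _)⟩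
  let qpl := (finite_setOf_valuation_ne_one qu).toFinset.filter fun v => (q : 𝓞 F) ∈ v.asIdeal
  have hqpl : ∀ v, (q : 𝓞 F) ∈ v.asIdeal → v ∈ qpl := fun v hv => by
    refine Finset.mem_filter.mpr ⟨(Set.Finite.mem_toFinset _).mpr ?_, hv⟩
    rw [← HeightOneSpectrum.valuation_lt_one_iff_mem (K := F)] at hv
    push_cast at hv
    rw [← hqu] at hv
    exact hv.ne
  obtain ⟨poles, hpoles⟩ : ∃ P : Finset (HeightOneSpectrum (𝓞 F)),
      ∀ v ∉ P, v.valuation F t ≤ 1 := by
    by_cases h0 : t = 0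
    · exact ⟨∅, fun v _ => by rw [h0, map_zero]; exact zero_le⟩
    · refine ⟨(finite_setOf_valuation_ne_one (Units.mk0 t h0)).toFinset, fun v hv => ?_⟩
      rw [Set.Finite.mem_toFinset, Set.mem_ofPred_eq, not_not] at hv
      exact hv.le
  set M := ∑ v ∈ qpl ∪ poles, (ordP v q + m v + 1)
  obtain ⟨c, hc⟩ := exists_approx_integral (qpl ∪ poles) M
    fun v => if (q : 𝓞 F) ∈ v.asIdeal then 1 else 0
  have hc' : ∀ v ∈ qpl ∪ poles, ordP v q + m v + 1 ≤ M := fun v hv =>
    Finset.single_le_sum (f := fun v => ordP v q + m v + 1) (fun _ _ => Nat.zero_le _) hv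
  have hct : ∀ v : HeightOneSpectrum (𝓞 F),
      v.valuation F (algebraMap (𝓞 F) F c * t) ≤ 1 := by
    intro v
    rw [map_mul]
    by_cases hqv : (q : 𝓞 F) ∈ v.asIdeal
    · exact (mul_le_of_le_one_left' (v.valuation_le_one c)).trans (ht v hqv)
    by_cases hv : v ∈ poles
    · have h1 := hc v (Finset.mem_union_right _ hv)
      rw [if_neg hqv, sub_zero] at h1
      rw [HeightOneSpectrum.valuation_of_algebraMap]
      refine (mul_le_mul' h1 (hm v)).trans ?_
      rw [← exp_add, ← exp_zero, exp_le_exp]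
      have := hc' v (Finset.mem_union_right _ hv)
      omega
    · exact (mul_le_of_le_one_left' (v.valuation_le_one c)).trans (hpoles v hv)
  have hcr : ∀ v : HeightOneSpectrum (𝓞 F),
      v.valuation F ((algebraMap (𝓞 F) F c - 1) / q) ≤ 1 := by
    intro v
    rw [map_div₀, div_le_iff₀ (by simp [zero_lt_iff, hqpos]), one_mul]
    by_cases hqv : (q : 𝓞 F) ∈ v.asIdeal
    · have h1 := hc v (Finset.mem_union_left _ (hqpl v hqv))
      rw [if_pos hqv, ← HeightOneSpectrum.valuation_of_algebraMap (K := F)] at h1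
      push_cast at h1
      rw [valuation_natCast_eq v hq.out.ne_zero]
      refine h1.trans (exp_le_exp.mpr ?_)
      have := hc' v (Finset.mem_union_left _ (hqpl v hqv))
      omega
    · have h1 : v.valuation F (q : F) = 1 := by
        rw [← HeightOneSpectrum.valuation_lt_one_iff_mem (K := F)] at hqv
        push_cast at hqv
        rw [not_lt] at hqv
        refine le_antisymm ?_ hqv
        rw [← map_natCast (algebraMap (𝓞 F) F)]
        exact v.valuation_le_one _
      rw [h1, ← map_one (algebraMap (𝓞 F) F), ← map_sub]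
      exact v.valuation_le_one _
  obtain ⟨τ, hτ⟩ := HeightOneSpectrum.mem_integers_of_valuation_le_one F _ hct
  obtain ⟨ρ, hρ⟩ := HeightOneSpectrum.mem_integers_of_valuation_le_one F _ hcr
  have hcρ : c = 1 + (q : 𝓞 F) * ρ := RingOfIntegers.coe_injective (by
    rw [map_add, map_mul, map_one, map_natCast, hρ, mul_div_cancel₀ _ hqpos]; ring)
  have hnum : (y : F) * algebraMap (𝓞 F) F c =
      algebraMap (𝓞 F) F (1 + (q : 𝓞 F) * (ρ + τ)) := by
    rw [map_add, map_mul, map_one, map_natCast, map_add, hρ, hτ, mul_add,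
      mul_div_cancel₀ _ hqpos]
    simp only [t]
    field_simp
    ring
  have hc0 : c ≠ 0 := fun h => by
    have h1 := norm_one_add_mul (q := q) ρ
    rw [← hcρ, h, Algebra.norm_zero, Int.cast_zero] at h1
    exact zero_ne_one h1
  let cu : Fˣ := Units.mk0 (algebraMap (𝓞 F) F c) (by simpa using hc0)
  set T := S ∪ supp cu ∪ supp (y * cu)
  have heq : ∀ α' : Fˣ, supp α' ⊆ T → h α' = ∑ v ∈ T \ S, e v * ordPar v α' :=
    fun α' hα' => hsum α' T (hα'.trans Finset.subset_union_left)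
  have hycu : ∀ v ∈ S, ordPar v (y * cu) = ordPar v cu := fun v hv => by
    rw [ordPar_mul, ordPar_eq_zero_of_unit (congrOne_le_unitsAt v n (hyS v hv)), zero_add]
  have hunit : ∀ α' : Fˣ, supp α' ⊆ T → ∀ v ∉ T, v.valuation F (α' : F) = 1 :=
    fun α' hα' v hv => by
      by_contra hne
      exact hv (hα' ((Set.Finite.mem_toFinset _).mpr hne))
  have hE : ∀ v, (q : 𝓞 F) ∉ v.asIdeal → e v = nonRes q (Ideal.absNorm v.asIdeal : ℤ) ∨
      (2 : 𝓞 F) ∈ v.asIdeal := fun v hv => by
    by_cases h2 : (2 : 𝓞 F) ∈ v.asIdeal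
    · exact .inr h2
    · exact .inl (if_neg (not_or.mpr ⟨hv, h2⟩))
  -- the two integral sums agree, with the true weights at every place
  set e' : HeightOneSpectrum (𝓞 F) → ZMod 2 := fun v =>
    if (q : 𝓞 F) ∈ v.asIdeal then 0 else nonRes q (Ideal.absNorm v.asIdeal : ℤ)
  have hsame : ∀ v ∉ S, e v = e' v := fun v hv => by
    simp only [e, e', qWeight, if_neg (hout v hv).1, if_neg (not_or.mpr (hout v hv))]
  have hzero : ∀ (α : 𝓞 F) (α' : Fˣ), (α' : F) = algebraMap (𝓞 F) F α →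
      ((Algebra.norm ℤ α : ℤ) : ZMod q) = 1 → supp α' ⊆ T →
      h α' + ∑ v ∈ S, e' v * ordPar v α' = 0 := by
    intro α α' hα' hnorm hsub
    rw [heq α' hsub, Finset.sum_congr rfl fun v hv => by
      rw [hsame v (Finset.mem_sdiff.mp hv).2],
      Finset.sum_sdiff (Finset.subset_union_left.trans Finset.subset_union_left)]
    exact nonRes_norm F hq4 (fun h0 => by
      rw [h0, Algebra.norm_zero, Int.cast_zero] at hnorm; exact zero_ne_one hnorm) hnorm α' hα' T
      (hunit α' hsub) e' fun v hv => .inl (if_neg hv)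
  have h1 := hzero c cu rfl (hcρ ▸ norm_one_add_mul ρ)
    (Finset.subset_union_right.trans Finset.subset_union_left)
  have h2 := hzero _ (y * cu) (by rw [Units.val_mul, Units.val_mk0]; exact hnum)
    (norm_one_add_mul (ρ + τ)) Finset.subset_union_right
  rw [hmul, Finset.sum_congr rfl fun v hv => by rw [hycu v hv]] at h2
  rw [hxy]
  linear_combination h2 - h1

variable (F)

open Classical in
/-- **The relation of `q`.** -/
theorem exists_qRel {q : ℕ} [hq : Fact q.Prime] (hq4 : q % 4 = 1) (qu : Fˣ) (hqu : (qu : F) = q) :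
    ∃ (X : Pl F → Fˣ → ZMod 2) (S : Finset (HeightOneSpectrum (𝓞 F))), IsRel X S ∧
      (∀ v ∉ S, qu ∈ localPow v 2 → ∀ x, X (.inl v) x = 0) ∧
      (∀ v ∉ S, (q : 𝓞 F) ∉ v.asIdeal ∧ (2 : 𝓞 F) ∉ v.asIdeal) ∧
      ∀ v : HeightOneSpectrum (𝓞 F), (q : 𝓞 F) ∉ v.asIdeal → (2 : 𝓞 F) ∉ v.asIdeal →
        (∀ x ∈ unitsAt v, X (.inl v) x = 0) ∧
        ∀ π : Fˣ, v.valuation F (π : F) = exp (-1 : ℤ) →
          X (.inl v) π = nonRes q (Ideal.absNorm v.asIdeal : ℤ) := by
  obtain ⟨S₁, hS₁⟩ := exists_sPrincipal F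
  let two : Fˣ := Units.mk0 2 two_ne_zero
  set S := S₁ ∪ (finite_setOf_valuation_ne_one two).toFinset ∪
    (finite_setOf_valuation_ne_one qu).toFinset with hS
  have hout : ∀ v ∉ S, (q : 𝓞 F) ∉ v.asIdeal ∧ (2 : 𝓞 F) ∉ v.asIdeal := by
    intro v hv
    simp only [hS, Finset.mem_union, Set.Finite.mem_toFinset, Set.mem_ofPred_eq, not_or,
      not_not] at hv
    constructor <;> rw [← HeightOneSpectrum.valuation_lt_one_iff_mem (K := F)]
    · push_cast; rw [← hqu, hv.2]; exact lt_irrefl 1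
    · show ¬ v.valuation F (algebraMap (𝓞 F) F 2) < 1
      rw [map_ofNat, show (2 : F) = (two : F) from rfl, hv.1.2]; exact lt_irrefl 1
  -- the character
  let h : Fˣ → ZMod 2 := qChar q S
  have hmul : ∀ x y, h (x * y) = h x + h y := qChar_mul S
  have hU : ∀ x ∈ sUnit F S, h x = 0 := fun x hx => Finset.sum_eq_zero fun v hv => by
    rw [ordPar_eq_zero_of_unit (show x ∈ unitsAt v from hx v (Finset.mem_sdiff.mp hv).2), mul_zero]
  have hsq : ∀ x ∈ sqAll S, h x = 0 := fun x hx => qChar_sqAll hq4 hqu hout hx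
  obtain ⟨X, hX, -, hin, hXv⟩ := exists_rel_of_hom (SPrincipal.mono F hS₁
    (Finset.subset_union_left.trans Finset.subset_union_left)) h hmul hU hsq
  have hzero_one : h 1 = 0 := hU 1 (one_mem _)
  have key : ∀ v : HeightOneSpectrum (𝓞 F), (q : 𝓞 F) ∉ v.asIdeal → (2 : 𝓞 F) ∉ v.asIdeal →
      v ∉ S → ∀ π : Fˣ, v.valuation F (π : F) = exp (-1 : ℤ) →
      X (.inl v) π = nonRes q (Ideal.absNorm v.asIdeal : ℤ) := by
    intro v hq' h2' hv π hπ
    obtain ⟨π₀, hπ₀, hπ₀'⟩ := (SPrincipal.mono F hS₁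
      (Finset.subset_union_left.trans Finset.subset_union_left) : SPrincipal F S) v hv
    rw [hXv v hv π₀ hπ₀ hπ₀', ordPar_uniformizer hπ, one_mul,
      show h π₀ = _ from qChar_eq_sum π₀ {v} fun u hu => ?_, Finset.sdiff_eq_self_of_disjoint
        (Finset.disjoint_singleton_left.mpr hv),
      Finset.sum_singleton, ordPar_uniformizer hπ₀, mul_one]
    · exact (if_neg (not_or.mpr ⟨hq', h2'⟩) : qWeight q v = _)
    · rw [Set.Finite.mem_toFinset, Set.mem_ofPred_eq] at hu
      simp only [Finset.mem_union, Finset.mem_singleton]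
      by_contra hne
      simp only [not_or] at hne
      exact hu (hπ₀' u hne.2 hne.1)
  have key' : ∀ v : HeightOneSpectrum (𝓞 F), v ∈ S → (q : 𝓞 F) ∉ v.asIdeal →
      (2 : 𝓞 F) ∉ v.asIdeal → (∀ x ∈ unitsAt v, X (.inl v) x = 0) ∧
      ∀ π : Fˣ, v.valuation F (π : F) = exp (-1 : ℤ) →
        X (.inl v) π = nonRes q (Ideal.absNorm v.asIdeal : ℤ) := by
    intro v hv hq' h2'
    -- the same character on the set without `v`
    have hloc : ∀ x : Fˣ, X (.inl v) x = qWeight q v * ordPar v x := by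
      intro x
      obtain ⟨y, hy, hy1, hy2⟩ := hin (.inl v) (inl_mem_plSet.mpr hv) x
      rw [hy]
      have hyx : ordPar v y = ordPar v x := by
        rw [show y = y / x * x from (div_mul_cancel y x).symm, ordPar_mul]
        obtain ⟨m, hm⟩ : ∃ m : ℕ, 2 * ordP v 2 + 1 ≤ m := ⟨_, le_rfl⟩
        have h1 : y / x ∈ localPow v 2 := hy1
        rw [localPow_eq v two_ne_zero hm, Subgroup.mem_sup] at h1
        obtain ⟨_, ⟨w, rfl⟩, d, hd, hwd⟩ := h1
        rw [← hwd, ordPar_mul, ordPar_eq_zero_of_unit (congrOne_le_unitsAt v m hd),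
          powMonoidHom_apply, pow_two, ordPar_mul, (show ∀ a : ZMod 2, a + a = 0 by decide),
          add_zero, zero_add]
      rw [← hyx]
      have hmem : y ∈ sqAll (S.erase v) := mem_sqAll.mpr
        ⟨fun u hu => hy2 (.inl u) (inl_mem_plSet.mpr (Finset.mem_of_mem_erase hu))
          fun e => Finset.ne_of_mem_erase hu (Sum.inl.inj e),
        fun w => hy2 (.inr w) (inr_mem_plSet w) Sum.inr_ne_inl⟩
      have h0 := qChar_sqAll hq4 hqu (S := S.erase v) (fun u hu => by
        by_cases e : u = v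
        · subst e; exact ⟨hq', h2'⟩
        · exact hout u fun h => hu (Finset.mem_erase.mpr ⟨e, h⟩)) hmem
      set T := (finite_setOf_valuation_ne_one y).toFinset ∪ S
      rw [qChar_eq_sum y T (Finset.subset_union_left.trans Finset.subset_union_left),
        show T \ S.erase v = insert v (T \ S) by
          ext u
          simp only [Finset.mem_sdiff, Finset.mem_erase, Finset.mem_insert, T, Finset.mem_union]
          by_cases e : u = v
          · subst e; simp [hv]
          · simp [e],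
        Finset.sum_insert (fun h => (Finset.mem_sdiff.mp h).2 hv)] at h0
      rw [show h y = qChar q S y from rfl,
        qChar_eq_sum y T (Finset.subset_union_left.trans Finset.subset_union_left)]
      exact (zmodTwo_eq_of_add h0).symm
    refine ⟨fun x hx => by rw [hloc, ordPar_eq_zero_of_unit hx, mul_zero], fun π hπ => ?_⟩
    rw [hloc, ordPar_uniformizer hπ, mul_one]
    exact (if_neg (not_or.mpr ⟨hq', h2'⟩) : qWeight q v = _)
  refine ⟨X, S, hX, fun v hv hsq x => ?_, hout, fun v hq' h2' => ?_⟩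
  · obtain ⟨π, hπ⟩ := exists_uniformizer_unit v
    obtain ⟨hq', h2'⟩ := hout v hv
    rw [hX.eq_ordPar hv hπ, key v hq' h2' hv π hπ]
    obtain ⟨m, hm⟩ : ∃ m : ℕ, 2 * ordP v 2 + 1 ≤ m := ⟨_, le_rfl⟩
    rw [localPow_eq v two_ne_zero hm, Subgroup.mem_sup] at hsq
    obtain ⟨_, ⟨g, rfl⟩, d, hd, hgd⟩ := hsq
    have hgu : g ∈ unitsAt v := by
      rw [← pow_mem_unitsAt_iff v two_ne_zero]
      have hquu : qu ∈ unitsAt v := by
        have := hv
        simp only [hS, Finset.mem_union, Set.Finite.mem_toFinset, Set.mem_ofPred_eq, not_or,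
          not_not] at this
        exact this.2
      rw [← mul_div_cancel_right (g ^ 2) d, show g ^ 2 * d = qu from hgd]
      exact div_mem hquu (congrOne_le_unitsAt v m hd)
    obtain ⟨g₀, hg₀⟩ := exists_integral_approx v (le_of_eq hgu) 1
    rw [nonRes_absNorm_eq_zero hq4 h2' hq' (g := g₀), mul_zero]
    rw [← HeightOneSpectrum.valuation_lt_one_iff_mem (K := F)]
    push_cast
    rw [← hqu, ← hgd]
    have hsmall : exp (-((1 : ℕ) : ℤ)) < (1 : ℤᵐ⁰) := by rw [← exp_zero, exp_lt_exp]; omega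
    rw [Units.val_mul, powMonoidHom_apply, Units.val_pow_eq_pow_val,
      show (algebraMap (𝓞 F) F g₀) ^ 2 - (g : F) ^ 2 * d =
        (algebraMap (𝓞 F) F g₀ - g) * (algebraMap (𝓞 F) F g₀ + g) - (g : F) ^ 2 * ((d : F) - 1) by
          ring]
    refine Valuation.map_sub_lt _ ?_ ?_
    · rw [map_mul]
      exact (mul_le_of_le_one_right' ((Valuation.map_add _ _ _).trans
        (max_le (v.valuation_le_one _) (le_of_eq hgu)))).trans_lt (hg₀.trans_lt hsmall)
    · rw [map_mul, map_pow, hgu, one_pow, one_mul]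
      exact (((congrOne_antitone v (by omega : 1 ≤ m)) hd).2).trans_lt hsmall
  · by_cases hv : v ∈ S
    · exact key' v hv hq' h2'
    · exact ⟨hX.map_unit v hv, key v hq' h2' hv⟩

end Fermat.Agent.Duality.Global.Two
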