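import Fermat.Agent.Duality.Global.Two.Unique
import Fermat.Agent.Duality.Global.Two.Legendre

/-!
# The product formula for quadratic Hilbert symbols
-/

set_option autoImplicit false

open IsDedekindDomain NumberField WithZero Module

namespace Fermat.Agent.Duality.Global.Two

variable {F : Type} [Field F] [NumberField F]

/-- A unit which is a local square is a residual square. -/
lemma exists_residual_sqrt {v : HeightOneSpectrum (𝓞 F)} {qu : Fˣ} {q : ℕ} (hqu : (qu : F) = q)
    (hu : qu ∈ unitsAt v) (hsq : qu ∈ localPow v 2) :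
    ∃ g : 𝓞 F, g ^ 2 - (q : 𝓞 F) ∈ v.asIdeal := by
  obtain ⟨m, hm⟩ : ∃ m : ℕ, 2 * ordP v 2 + 1 ≤ m := ⟨_, le_rfl⟩
  rw [localPow_eq v two_ne_zero hm, Subgroup.mem_sup] at hsq
  obtain ⟨_, ⟨g, rfl⟩, d, hd, hgd⟩ := hsq
  have hgu : g ∈ unitsAt v := by
    rw [← pow_mem_unitsAt_iff v two_ne_zero, ← mul_div_cancel_right (g ^ 2) d,
      show g ^ 2 * d = qu from hgd]
    exact div_mem hu (congrOne_le_unitsAt v m hd)
  obtain ⟨g₀, hg₀⟩ := exists_integral_approx v (le_of_eq hgu) 1
  refine ⟨g₀, ?_⟩
  rw [← HeightOneSpectrum.valuation_lt_one_iff_mem (K := F)]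
  push_cast
  rw [← hqu, ← hgd]
  have hsmall : exp (-((1 : ℕ) : ℤ)) < (1 : ℤᵐ⁰) := by rw [← exp_zero, exp_lt_exp]; omega
  rw [Units.val_mul, powMonoidHom_apply, Units.val_pow_eq_pow_val,
    show (algebraMap (𝓞 F) F g₀) ^ 2 - (g : F) ^ 2 * d =
      (algebraMap (𝓞 F) F g₀ - g) * (algebraMap (𝓞 F) F g₀ + g) - (g : F) ^ 2 * ((d : F) - 1) by
        ring]
  refine Valuation.map_sub_lt _ ?_ ?_
  · rw [map_mul]
    exact (mul_le_of_le_one_right' ((Valuation.map_add _ _ _).trans
      (max_le (v.valuation_le_one _) (le_of_eq hgu)))).trans_lt (hg₀.trans_lt hsmall)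
  · rw [map_mul, map_pow, hgu, one_pow, one_mul]
    exact (((congrOne_antitone v (by omega : 1 ≤ m)) hd).2).trans_lt hsmall

lemma mul_mem_localPow {v : HeightOneSpectrum (𝓞 F)} (h2 : v.valuation F (2 : F) = 1) {a b : Fˣ}
    (ha : a ∈ unitsAt v) (hb : b ∈ unitsAt v) (ha' : a ∉ localPow v 2) (hb' : b ∉ localPow v 2) :
    a * b ∈ localPow v 2 := by
  by_contra h
  obtain ⟨π, hπ⟩ := exists_uniformizer_unit v
  have h1 := hil_mul_right (.inl v) π a b
  rw [hil_eq_ordPar h2 π (mul_mem ha hb), if_neg h, hil_eq_ordPar h2 π ha, if_neg ha',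
    hil_eq_ordPar h2 π hb, if_neg hb', ordPar_uniformizer hπ] at h1
  exact absurd h1 (by decide)

lemma two_unit_iff (v : HeightOneSpectrum (𝓞 F)) :
    v.valuation F (2 : F) = 1 ↔ (2 : 𝓞 F) ∉ v.asIdeal := by
  rw [← HeightOneSpectrum.valuation_lt_one_iff_mem (K := F)]
  show _ ↔ ¬ v.valuation F (algebraMap (𝓞 F) F 2) < 1
  rw [map_ofNat (algebraMap (𝓞 F) F), not_lt]
  exact ⟨fun h => h.ge, fun h => le_antisymm
    (by simpa [map_ofNat (algebraMap (𝓞 F) F)] using v.valuation_le_one (K := F) (2 : 𝓞 F)) h⟩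

open Classical in
/-- The relation of `b` is the full symbol at a place of prime norm. -/
theorem recRel_degOne {b : Fˣ} (hb : ∀ z : Fˣ, z ^ 2 ≠ b) {v : HeightOneSpectrum (𝓞 F)}
    (hv : (Ideal.absNorm v.asIdeal).Prime) (h2 : v.valuation F (2 : F) = 1) (hbu : b ∈ unitsAt v)
    (hbv : b ∉ localPow v 2) (x : Fˣ) : recRel b (.inl v) x = hil (.inl v) x b := by
  obtain ⟨πv, hπv⟩ := exists_uniformizer_unit v
  suffices hne : recRel b (.inl v) πv = 1 by
    rcases recRel_hasForm b (.inl v) with h | h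
    · rw [h] at hne; exact absurd hne zero_ne_one
    · exact h x
  -- a place of prime norm seen by the relation
  obtain ⟨S, -, hadm, hA⟩ := recRel_isRel b ∅
  obtain ⟨u, huS, hu, hAu⟩ : ∃ u, u ∉ S ∧ (Ideal.absNorm u.asIdeal).Prime ∧
      ∃ x, recRel b (.inl u) x ≠ 0 := by
    by_contra h
    push Not at h
    exact recRel_ne_zero hb (funext fun p => funext fun x =>
      hA.eq_zero_of_degOne (fun w hw hw' x => h w hw hw' x) p x)
  have hbu' : b ∉ localPow u 2 := fun h => by
    obtain ⟨x, hx⟩ := hAu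
    exact hx ((recRel_hasForm b).eq_zero (p := .inl u) h x)
  have hu2 := hadm.two u huS
  have hbuu : b ∈ unitsAt u := hadm.mem u huS
  obtain ⟨πu, hπu⟩ := exists_uniformizer_unit u
  have hAu1 : recRel b (.inl u) πu = 1 := by
    rcases recRel_hasForm b (.inl u) with h | h
    · obtain ⟨x, hx⟩ := hAu; exact absurd (h x) hx
    · rw [h, hil_eq_ordPar hu2 πu hbuu, if_neg hbu', ordPar_uniformizer hπu]
  -- the residue characteristics
  have hchar : ∀ w : HeightOneSpectrum (𝓞 F), (Ideal.absNorm w.asIdeal).Prime →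
      w.valuation F (2 : F) = 1 → Ideal.absNorm w.asIdeal ≠ 2 := by
    intro w _ hw2 h
    refine (two_unit_iff w).mp hw2 ?_
    have := Ideal.absNorm_mem w.asIdeal
    rw [h] at this
    exact_mod_cast this
  set lu := Ideal.absNorm u.asIdeal with hlu
  set lv := Ideal.absNorm v.asIdeal with hlv
  have hlu2 : lu ≠ 2 := hchar u hu hu2
  have hlv2 : lv ≠ 2 := hchar v hv h2
  -- the auxiliary prime
  have hnr : ∀ l : ℕ, l.Prime → l ≠ 2 → ∃ a : ℕ, ¬ IsSquare ((a : ℕ) : ZMod l) := by
    intro l hl hl2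
    have : Fact l.Prime := ⟨hl⟩
    obtain ⟨a, ha⟩ := FiniteField.exists_nonsquare (F := ZMod l) (by rwa [ZMod.ringChar_zmod_n])
    exact ⟨a.val, by rwa [ZMod.natCast_zmod_val]⟩
  choose! nr hnr using hnr
  set t : Finset ℕ := {4, lu, lv}
  have ht : ∀ m ∈ t, m = 4 ∨ (m.Prime ∧ m ≠ 2) := by
    intro m hm
    simp only [t, Finset.mem_insert, Finset.mem_singleton] at hm
    rcases hm with rfl | rfl | rfl
    · exact .inl rfl
    · exact .inr ⟨hu, hlu2⟩
    · exact .inr ⟨hv, hlv2⟩
  have hne4 : ∀ l : ℕ, l.Prime → l ≠ 4 := fun l hl h => by rw [h] at hl; norm_num at hl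
  have hcop4 : ∀ l : ℕ, l.Prime → l ≠ 2 → Nat.Coprime 4 l := fun l hl hl2 => by
    rw [show (4 : ℕ) = 2 ^ 2 from rfl]
    exact Nat.Coprime.pow_left 2 ((Nat.coprime_primes Nat.prime_two hl).mpr (Ne.symm hl2))
  obtain ⟨a₀, ha₀⟩ := Nat.chineseRemainderOfFinset (fun m => if m = 4 then 1 else nr m) id t
    (fun m hm => by rcases ht m hm with rfl | h <;> [norm_num; exact h.1.ne_zero])
    (fun m hm m' hm' hne => by
      rcases ht m hm with rfl | h <;> rcases ht m' hm' with rfl | h'
      · exact absurd rfl hne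
      · exact hcop4 m' h'.1 h'.2
      · exact (hcop4 m h.1 h.2).symm
      · exact (Nat.coprime_primes h.1 h'.1).mpr hne)
  have hres : ∀ m ∈ t, m ≠ 4 → ((a₀ : ℕ) : ZMod m) = (nr m : ZMod m) := by
    intro m hm hm4
    have := ha₀ m hm
    rw [if_neg hm4] at this
    exact (ZMod.natCast_eq_natCast_iff _ _ _).mpr this
  have hcop : Nat.Coprime a₀ (∏ m ∈ t, m) := Nat.Coprime.prod_right fun m hm => by
    rcases ht m hm with rfl | ⟨hm', hm2⟩
    · have := ha₀ 4 hm
      rw [if_pos rfl] at this
      have h4 : (a₀ : ℕ) % 4 = 1 := this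
      rw [Nat.coprime_comm, show (4 : ℕ) = 2 ^ 2 from rfl, Nat.coprime_pow_left_iff two_pos,
        Nat.prime_two.coprime_iff_not_dvd]
      omega
    · refine ((Nat.Prime.coprime_iff_not_dvd hm').mpr fun hd => hnr m hm' hm2 ?_).symm
      rw [← hres m hm (hne4 m hm'), (ZMod.natCast_eq_zero_iff _ _).mpr hd]
      exact IsSquare.zero
  have hprod : ∏ m ∈ t, m ≠ 0 := Finset.prod_ne_zero_iff.mpr fun m hm => by
    rcases ht m hm with rfl | h <;> [norm_num; exact h.1.ne_zero]
  obtain ⟨q, hqgt, hq, hqa⟩ :=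
    Nat.forall_exists_prime_gt_and_modEq (max lu lv + 4) hprod hcop
  have hqmod : ∀ m ∈ t, q ≡ a₀ [MOD m] := fun m hm => hqa.of_dvd (Finset.dvd_prod_of_mem _ hm)
  have hq4 : q % 4 = 1 := by
    have h := (hqmod 4 (by simp [t])).trans (ha₀ 4 (by simp [t]))
    rw [if_pos rfl] at h
    exact h
  have : Fact q.Prime := ⟨hq⟩
  have hq2 : q ≠ 2 := by omega
  have hsym : ∀ w : HeightOneSpectrum (𝓞 F), (Ideal.absNorm w.asIdeal).Prime →
      w.valuation F (2 : F) = 1 → Ideal.absNorm w.asIdeal ∈ t →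
      (q : 𝓞 F) ∉ w.asIdeal ∧ nonRes q (Ideal.absNorm w.asIdeal : ℤ) = 1 := by
    intro w hw hw2 hwt
    set l := Ideal.absNorm w.asIdeal with hl
    have : Fact l.Prime := ⟨hw⟩
    have hlt : l < q := by
      simp only [t, Finset.mem_insert, Finset.mem_singleton] at hwt
      rcases hwt with e | e | e <;> omega
    refine ⟨fun h => absurd (eq_of_prime_natCast_mem hw hq (Ideal.absNorm_mem _) h) hlt.ne, ?_⟩
    have hsq : legendreSym l q = -1 := by
      rw [legendreSym.eq_neg_one_iff', (ZMod.natCast_eq_natCast_iff _ _ _).mpr (hqmod l hwt),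
        hres l hwt (hne4 l hw)]
      exact hnr l hw (hchar w hw hw2)
    rw [nonRes, if_pos]
    rw [← legendreSym.quadratic_reciprocity_one_mod_four hq4 (hchar w hw hw2)]
    exact hsq
  have hut : lu ∈ t := by simp [t]
  have hvt : lv ∈ t := by simp [t]
  obtain ⟨hqu', hnru⟩ := hsym u hu hu2 hut
  obtain ⟨hqv', hnrv⟩ := hsym v hv h2 hvt
  let qu : Fˣ := Units.mk0 (q : F) (Nat.cast_ne_zero.mpr hq.ne_zero)
  have hqunit : ∀ w : HeightOneSpectrum (𝓞 F), (q : 𝓞 F) ∉ w.asIdeal → qu ∈ unitsAt w := by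
    intro w hw
    rw [← HeightOneSpectrum.valuation_lt_one_iff_mem (K := F)] at hw
    push_cast at hw
    exact le_antisymm (by
      show w.valuation F (q : F) ≤ 1
      rw [← map_natCast (algebraMap (𝓞 F) F)]; exact w.valuation_le_one _) (not_lt.mp hw)
  have hqns : ∀ w : HeightOneSpectrum (𝓞 F), w.valuation F (2 : F) = 1 →
      (q : 𝓞 F) ∉ w.asIdeal → nonRes q (Ideal.absNorm w.asIdeal : ℤ) = 1 →
      qu ∉ localPow w 2 := by
    intro w hw2 hqw hn hsq
    obtain ⟨g, hg⟩ := exists_residual_sqrt (q := q) rfl (hqunit w hqw) hsq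
    rw [nonRes_absNorm_eq_zero hq4 ((two_unit_iff w).mp hw2) hqw hg] at hn
    exact zero_ne_one hn
  obtain ⟨X, SX, hX, hXvan, -, hXval⟩ := exists_qRel F hq4 qu rfl
  have hXu : X (.inl u) πu = 1 := by
    rw [(hXval u hqu' ((two_unit_iff u).mp hu2)).2 πu hπu]; exact hnru
  have hXv : X (.inl v) πv = 1 := by
    rw [(hXval v hqv' ((two_unit_iff v).mp h2)).2 πv hπv]; exact hnrv
  have hqF : ∀ z : Fˣ, z ^ 2 ≠ qu := fun z hz =>
    hqns u hu2 hqu' hnru (range_pow_le_localPow u 2 ⟨z, hz⟩)
  by_cases hbq : ∃ z : Fˣ, z ^ 2 = b * qu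
  · obtain ⟨z, hz⟩ := hbq
    rcases eq_zero_or_eq_recRel hb hX fun w hw hbw y => hXvan w hw (by
      rw [show qu = z ^ 2 / b by rw [hz, mul_div_cancel_left]]
      exact div_mem (range_pow_le_localPow w 2 ⟨z, rfl⟩) hbw) y with h | h
    · exact absurd (h ▸ hXu) (by simp)
    · rw [← h]; exact hXv
  push Not at hbq
  obtain ⟨S', -, -, hA'⟩ := recRel_isRel (b * qu) ∅
  have hsq_u : b * qu ∈ localPow u 2 :=
    mul_mem_localPow hu2 hbuu (hqunit u hqu') hbu' (hqns u hu2 hqu' hnru)
  have hsq_v : b * qu ∈ localPow v 2 :=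
    mul_mem_localPow h2 hbu (hqunit v hqv') hbv (hqns v h2 hqv' hnrv)
  have hBu : recRel (b * qu) (.inl u) πu = 0 :=
    (recRel_hasForm _).eq_zero (p := .inl u) hsq_u πu
  have hBv : recRel (b * qu) (.inl v) πv = 0 :=
    (recRel_hasForm _).eq_zero (p := .inl v) hsq_v πv
  rcases biquadratic hb hqF hbq (hA'.mono (Finset.subset_union_left (s₂ := SX)))
      (hX.mono (Finset.subset_union_right (s₁ := S')))
      (fun w _ hb' hq' y => (recRel_hasForm _).eq_zero (p := .inl w) (mul_mem hb' hq') y)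
      (fun w hw _ hq' y => hXvan w (fun e => hw (Finset.mem_union_right _ e)) hq' y)
    with (h | h) | (h | h) | (h | h)
  · exact absurd h (recRel_ne_zero hbq)
  · rw [← h, hBu] at hAu1; exact absurd hAu1 zero_ne_one
  · rw [h] at hXu; exact absurd hXu (by simp)
  · rw [← h]; exact hXv
  · have := congrFun (congrFun h (.inl u)) πu
    simp only [Pi.add_apply, Pi.zero_apply, hBu, hXu, zero_add] at this
    exact absurd this one_ne_zero
  · have := congrFun (congrFun h (.inl v)) πv
    simp only [Pi.add_apply, hBv, hXv, zero_add] at this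
    exact this.symm

open Classical in
/-- The relations are additive. -/
theorem recRel_mul (b c : Fˣ) : recRel (b * c) = recRel b + recRel c := by
  obtain ⟨S₁, -, hadm₁, hA₁⟩ := recRel_isRel b ∅
  obtain ⟨S₂, -, hadm₂, hA₂⟩ := recRel_isRel c ∅
  obtain ⟨S₃, -, hadm₃, hA₃⟩ := recRel_isRel (b * c) ∅
  set S := S₁ ∪ S₂ ∪ S₃
  have h1 : S₁ ⊆ S := Finset.subset_union_left.trans Finset.subset_union_left
  have h2 : S₂ ⊆ S := Finset.subset_union_right.trans Finset.subset_union_left
  have h3 : S₃ ⊆ S := Finset.subset_union_right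
  have hD := ((hA₁.mono h1).add (hA₂.mono h2)).add (hA₃.mono h3)
  have key : ∀ (e : Fˣ) {S' : Finset (HeightOneSpectrum (𝓞 F))}, Adm e S' → S' ⊆ S →
      ∀ v ∉ S, (Ideal.absNorm v.asIdeal).Prime → ∀ x,
        recRel e (.inl v) x = hil (.inl v) x e := by
    intro e S' hadm hS' v hv hvp x
    by_cases hsq : e ∈ localPow v 2
    · rw [(recRel_hasForm e).eq_zero (p := .inl v) hsq, hil_eq_zero_of_right x hsq]
    · exact recRel_degOne (fun z hz => hsq (range_pow_le_localPow v 2 ⟨z, hz⟩)) hvp
        (hadm.two v fun h => hv (hS' h)) (hadm.mem v fun h => hv (hS' h)) hsq x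
  have hz := hD.eq_zero_of_degOne fun v hv hvp x => by
    simp only [Pi.add_apply, key b hadm₁ h1 v hv hvp, key c hadm₂ h2 v hv hvp,
      key _ hadm₃ h3 v hv hvp, hil_mul_right]
    exact (show ∀ a : ZMod 2, a + a = 0 by decide) _
  funext p x
  exact (zmodTwo_eq_of_add (hz p x)).symm

/-- At a given place all relations are zero or none is. -/
lemma recRel_dichotomy {p : Pl F} {b c : Fˣ} (hb : b ∉ sqLoc p) (hc : c ∉ sqLoc p)
    (h : ∀ x, recRel b p x = 0) (x : Fˣ) : recRel c p x = 0 := by
  rcases recRel_hasForm c p with hc' | hc'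
  · exact hc' x
  exfalso
  obtain ⟨y, hy⟩ := exists_hil_eq_one hc
  obtain ⟨z, hz⟩ := exists_hil_eq_one hb
  have hbc : ∀ t, recRel (b * c) p t = hil p t c := fun t => by
    rw [recRel_mul, Pi.add_apply, Pi.add_apply, h, hc', zero_add]
  rcases recRel_hasForm (b * c) p with h' | h'
  · have := hbc y
    rw [h', hy] at this
    exact zero_ne_one this
  · have := hbc z
    rw [h', hil_mul_right, hz] at this
    exact absurd this (by
      rcases zmodTwo_cases (hil p z c) with e | e <;> rw [e] <;> decide)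

lemma index_posAt_prod_sq (S : Finset (HeightOneSpectrum (𝓞 F)))
    (h2S : ∀ v ∉ S, v.valuation F (2 : F) = 1) :
    (∏ v ∈ S, (localPow v 2).index) * ∏ w : InfinitePlace F, (posAt w).index =
      (2 ^ (S.card + Fintype.card (InfinitePlace F))) ^ 2 := by
  classical
  have h2' : ∀ v ∉ S, v.valuation F ((2 : ℕ) : F) = 1 := fun v hv => by
    exact_mod_cast h2S v hv
  rw [prod_index_posAt, show ∏ v ∈ S, (localPow v 2).index = 2 ^ (2 * S.card + finrank ℚ F) by
    rw [← prod_index_localPow Nat.prime_two isPrimitiveRoot_neg_one S h2', Finset.univ_eq_attach,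
      Finset.prod_attach S fun v => (localPow v 2).index],
    ← pow_add, ← pow_mul]
  congr 1
  have := InfinitePlace.card_add_two_mul_card_eq_rank F
  rw [InfinitePlace.card_eq_nrRealPlaces_add_nrComplexPlaces]
  omega

open Classical in
/-- No place is left out. -/
theorem recRel_eq_hil (b : Fˣ) (p : Pl F) (x : Fˣ) : recRel b p x = hil p x b := by
  by_cases hb : b ∈ sqLoc p
  · rw [(recRel_hasForm b).eq_zero hb, hil_eq_zero_of_right x hb]
  rcases recRel_hasForm b p with h | h
  swap
  · exact h x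
  exfalso
  -- all relations vanish at the places of `X`
  let X : Pl F → Prop := fun q => ∀ e y, recRel e q y = 0
  have hpX : X p := fun e y => by
    by_cases he : e ∈ sqLoc p
    · exact (recRel_hasForm e).eq_zero he y
    · exact recRel_dichotomy hb he h y
  have hnX : ∀ q, ¬ X q → ∀ e y, recRel e q y = hil q y e := by
    intro q hq e y
    by_cases he : e ∈ sqLoc q
    · rw [(recRel_hasForm e).eq_zero he, hil_eq_zero_of_right y he]
    rcases recRel_hasForm e q with h' | h'
    · exact absurd (fun e' y' => by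
        by_cases he' : e' ∈ sqLoc q
        · exact (recRel_hasForm e').eq_zero he' y'
        · exact recRel_dichotomy he he' h' y') hq
    · exact h' y
  obtain ⟨S, hS0, hadm⟩ := exists_adm_superset (1 : Fˣ)
    (match p with
      | .inl v => {v}
      | .inr _ => ∅)
  have hpS : p ∈ plSet S := by
    cases p with
    | inl v => exact inl_mem_plSet.mpr (hS0 (Finset.mem_singleton_self v))
    | inr w => exact inr_mem_plSet w
  have hsum : ∀ u ∈ sUnit F S, IsRel (recRel u) S := fun u hu => by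
    obtain ⟨S', -, -, hA⟩ := recRel_isRel u ∅
    exact hA.restrict fun v hv y hy => (recRel_hasForm u).unit (hadm.two v hv) (hu v hv) hy
  set T := (plSet S).filter fun q => ¬ X q
  set P : Subgroup Fˣ :=
    (⨅ v ∈ S, if X (.inl v) then ⊤ else localPow v 2) ⊓
      ⨅ w : InfinitePlace F, if X (.inr w) then ⊤ else posAt w
  have hP : ∀ y, y ∈ P ↔ ∀ q ∈ T, y ∈ sqLoc q := by
    intro y
    simp only [P, Subgroup.mem_inf, Subgroup.mem_iInf]
    constructor
    · rintro ⟨h1, h2⟩ (v | w) hq <;> obtain ⟨hq1, hq2⟩ := Finset.mem_filter.mp hq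
      · have := h1 v (inl_mem_plSet.mp hq1)
        rwa [if_neg hq2] at this
      · have := h2 w
        rwa [if_neg hq2] at this
    · intro hy
      refine ⟨fun v hv => ?_, fun w => ?_⟩ <;> split_ifs with hX
      · exact Subgroup.mem_top y
      · exact hy (.inl v) (Finset.mem_filter.mpr ⟨inl_mem_plSet.mpr hv, hX⟩)
      · exact Subgroup.mem_top y
      · exact hy (.inr w) (Finset.mem_filter.mpr ⟨inr_mem_plSet w, hX⟩)
  set n := S.card + Fintype.card (InfinitePlace F)
  have hPlt : P.index < (2 ^ n) ^ 2 := by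
    rw [← index_posAt_prod_sq S hadm.two, index_inf_eq_prod S _ _
      (fun v => by split_ifs <;> [exact le_top; exact le_rfl])
      (fun w => by split_ifs <;> [exact le_top; exact le_rfl])]
    have hpos : ∀ v : HeightOneSpectrum (𝓞 F), 0 < (localPow v 2).index := fun v =>
      Nat.pos_of_ne_zero fun h0 => by
        have hne : ∏ u ∈ S ∪ {v}, (localPow u 2).index = 0 :=
          Finset.prod_eq_zero (Finset.mem_union_right _ (Finset.mem_singleton_self v)) h0
        have h' := index_posAt_prod_sq (S ∪ {v}) fun u hu =>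
          hadm.two u fun e => hu (Finset.mem_union_left _ e)
        rw [hne, zero_mul] at h'
        exact pow_ne_zero _ (Nat.two_pow_pos _).ne' h'.symm
    have hposw : ∀ w : InfinitePlace F, 0 < (posAt w).index := fun w => by
      rw [index_posAt_eq]; split_ifs <;> norm_num
    have h1 : ∀ v ∈ S, (if X (.inl v) then ⊤ else localPow v 2).index ≤ (localPow v 2).index :=
      fun v _ => by
        split_ifs
        · rw [Subgroup.index_top]; exact hpos v
        · exact le_rfl
    have h1' : ∀ v, 0 < (if X (.inl v) then ⊤ else localPow v 2).index := fun v => by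
      split_ifs
      · rw [Subgroup.index_top]; exact one_pos
      · exact hpos v
    have h2 : ∀ w ∈ (Finset.univ : Finset (InfinitePlace F)),
        (if X (.inr w) then ⊤ else posAt w).index ≤ (posAt w).index := fun w _ => by
      split_ifs
      · rw [Subgroup.index_top]; exact hposw w
      · exact le_rfl
    have h2' : ∀ w, 0 < (if X (.inr w) then ⊤ else posAt w).index := fun w => by
      split_ifs
      · rw [Subgroup.index_top]; exact one_pos
      · exact hposw w
    cases p with
    | inl v =>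
      refine Nat.mul_lt_mul_of_lt_of_le ?_ (Finset.prod_le_prod' h2)
        (Finset.prod_pos fun w _ => hposw w)
      refine Finset.prod_lt_prod (fun u _ => h1' u) h1 ⟨v, inl_mem_plSet.mp hpS, ?_⟩
      rw [if_pos hpX, Subgroup.index_top]
      exact lt_of_le_of_ne (hpos v) fun e => hb (by
        show b ∈ localPow v 2
        rw [Subgroup.index_eq_one.mp e.symm]; exact Subgroup.mem_top b)
    | inr w =>
      refine Nat.mul_lt_mul_of_le_of_lt (Finset.prod_le_prod' h1) ?_
        (Finset.prod_pos fun u _ => hpos u)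
      refine Finset.prod_lt_prod (fun u _ => h2' u) h2 ⟨w, Finset.mem_univ w, ?_⟩
      rw [if_pos hpX, Subgroup.index_top]
      exact lt_of_le_of_ne (hposw w) fun e => hb (by
        show b ∈ posAt w
        rw [Subgroup.index_eq_one.mp e.symm]; exact Subgroup.mem_top b)
  -- an `S`-unit which is a square outside `X`
  obtain ⟨u, hu, huns, huP⟩ : ∃ u ∈ sUnit F S, (∀ z : Fˣ, z ^ 2 ≠ u) ∧ u ∈ P := by
    by_contra hno
    push Not at hno
    have hrel : P.relIndex (sUnit F S) = 2 ^ n := by
      rw [Subgroup.relIndex, ← index_sUnit_pow Nat.prime_two isPrimitiveRoot_neg_one S]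
      congr 1
      ext u
      constructor
      · intro h
        by_cases hz : ∃ z : Fˣ, z ^ 2 = u.1
        · obtain ⟨z, hz⟩ := hz
          refine ⟨⟨z, fun v hv => ?_⟩, Subtype.ext hz⟩
          have h1 := u.2 v hv
          rw [← hz, Units.val_pow_eq_pow_val, map_pow,
            pow_eq_one_iff_of_nonneg zero_le two_ne_zero] at h1
          exact h1
        · push Not at hz
          exact absurd h (hno u.1 u.2 hz)
      · rintro ⟨y, rfl⟩
        exact (hP _).mpr fun q _ => sq_mem_sqLoc q (y : Fˣ)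
    -- the pairing
    let g : Fˣ → Fˣ → ZMod 2 := fun u y => ∑ q ∈ T, hil q y u
    have hgP : ∀ u, ∀ y ∈ P, g u y = 0 := fun u y hy =>
      Finset.sum_eq_zero fun q hq => hil_eq_zero_of_left u ((hP y).mp hy q hq)
    have hgU : ∀ u ∈ sUnit F S, ∀ y ∈ sUnit F S, g u y = 0 := by
      intro u hu y hy
      have h0 := (hsum u hu).sum_eq S subset_rfl y hy
      rwa [← Finset.sum_filter_add_sum_filter_not (plSet S) (fun q => ¬ X q),
        Finset.sum_eq_zero (s := (plSet S).filter fun q => ¬ ¬ X q)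
          (fun q hq => not_not.mp (Finset.mem_filter.mp hq).2 u y), add_zero,
        Finset.sum_congr rfl fun q hq => hnX q (Finset.mem_filter.mp hq).2 u y] at h0
    let sgn : Multiplicative (ZMod 2) →* ℂˣ :=
      MonoidHom.mk' (fun a => if Multiplicative.toAdd a = 0 then 1 else -1) fun a c => by
        rcases zmodTwo_cases (Multiplicative.toAdd a) with e | e <;>
          rcases zmodTwo_cases (Multiplicative.toAdd c) with e' | e' <;>
          simp [toAdd_mul, e, e', show (1 : ZMod 2) + 1 = 0 by decide]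
    let G₀ := P ⊔ sUnit F S
    let χ : sUnit F S → (Fˣ →* ℂˣ) := fun u => sgn.comp
      (MonoidHom.mk' (fun y => Multiplicative.ofAdd (g u.1 y)) fun y y' => by
        rw [← ofAdd_add]
        congr 1
        simp only [g, hil_mul_left, Finset.sum_add_distrib])
    have hχ : ∀ u : sUnit F S, G₀ ≤ (χ u).ker := fun u => sup_le
      (fun y hy => by simp [χ, sgn, hgP u.1 y hy]) fun y hy => by
        simp [χ, sgn, hgU u.1 u.2 y hy]
    let Φ : sUnit F S →* (Fˣ ⧸ G₀ →* ℂˣ) :=
      MonoidHom.mk' (fun u => QuotientGroup.lift G₀ (χ u) (hχ u)) fun u u' => by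
        refine MonoidHom.ext fun a => ?_
        obtain ⟨y, rfl⟩ := QuotientGroup.mk_surjective a
        show χ (u * u') y = χ u y * χ u' y
        have e : g (u * u' : sUnit F S).1 y = g u.1 y + g u'.1 y := by
          simp only [g, Subgroup.coe_mul, hil_mul_right, Finset.sum_add_distrib]
        simp only [χ, MonoidHom.comp_apply, MonoidHom.mk'_apply, ← map_mul, ← ofAdd_add, e]
    have hker : Φ.ker ≤ P.subgroupOf (sUnit F S) := by
      intro u hu
      show (u : Fˣ) ∈ P
      refine (hP _).mpr fun q hq => ?_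
      by_contra hne
      obtain ⟨c, hc⟩ := exists_hil_eq_one hne
      obtain ⟨y, hy⟩ := exists_targets S fun r => if r = q then c else 1
      have hqS := (Finset.mem_filter.mp hq).1
      have h1 : g u.1 y = 1 := by
        simp only [g]
        rw [Finset.sum_eq_single_of_mem q hq fun r hr hne' => ?_]
        · rw [← div_mul_cancel y c, hil_mul_left, hc,
            hil_eq_zero_of_left _ (by simpa using hy q hqS), zero_add]
        · refine hil_eq_zero_of_left _ ?_
          simpa [hne'] using hy r (Finset.mem_filter.mp hr).1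
      have h2 : χ u y = 1 := by
        have := congrArg (fun f : Fˣ ⧸ G₀ →* ℂˣ => f (y : Fˣ ⧸ G₀)) (MonoidHom.mem_ker.mp hu)
        simpa [Φ] using this
      simp only [χ, sgn, MonoidHom.comp_apply, MonoidHom.mk'_apply, toAdd_ofAdd, h1,
        one_ne_zero, if_false, Units.ext_iff, Units.val_neg, Units.val_one] at h2
      norm_num at h2
    have hfin : G₀.index ≠ 0 := fun h0 => by
      have := Subgroup.index_dvd_of_le (le_sup_left : P ≤ G₀)
      rw [show (P ⊔ sUnit F S).index = 0 from h0, zero_dvd_iff] at this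
      have hPpos : 0 < P.index := by
        rw [index_inf_eq_prod S _ _ (fun v => by split_ifs <;> [exact le_top; exact le_rfl])
          (fun w => by split_ifs <;> [exact le_top; exact le_rfl])]
        refine Nat.mul_pos (Finset.prod_pos fun v hv => ?_) (Finset.prod_pos fun w _ => ?_)
        · split_ifs
          · rw [Subgroup.index_top]; exact one_pos
          · refine Nat.pos_of_ne_zero fun h0' => ?_
            have h' := index_posAt_prod_sq S hadm.two
            rw [Finset.prod_eq_zero hv h0', zero_mul] at h'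
            exact pow_ne_zero _ (Nat.two_pow_pos _).ne' h'.symm
        · split_ifs
          · rw [Subgroup.index_top]; exact one_pos
          · rw [index_posAt_eq]; split_ifs <;> norm_num
      omega
    have : Finite (Fˣ ⧸ G₀) := Nat.finite_of_card_ne_zero hfin
    have hcard : Nat.card (Fˣ ⧸ G₀ →* ℂˣ) = G₀.index := by
      have : NeZero (Monoid.exponent (Fˣ ⧸ G₀)) := ⟨(Monoid.exponent_ne_zero (G := Fˣ ⧸ G₀)).mpr
        (Monoid.ExponentExists.of_finite (G := Fˣ ⧸ G₀))⟩
      have : HasEnoughRootsOfUnity ℂ (Monoid.exponent (Fˣ ⧸ G₀)) := inferInstance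
      obtain ⟨e⟩ := CommGroup.monoidHom_mulEquiv_of_hasEnoughRootsOfUnity (Fˣ ⧸ G₀) ℂ
      rw [Nat.card_congr e.toEquiv, Subgroup.index]
    have : Finite (Fˣ ⧸ G₀ →* ℂˣ) := Nat.finite_of_card_ne_zero (hcard ▸ hfin)
    have hle : 2 ^ n ≤ G₀.index := by
      rw [← hrel, ← hcard, Subgroup.relIndex]
      refine le_trans (Nat.le_of_dvd ?_ (Subgroup.index_dvd_of_le hker)) ?_
      · rw [Subgroup.index_ker]; exact Nat.card_pos
      · rw [Subgroup.index_ker]
        exact Nat.card_le_card_of_injective _ Subtype.val_injective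
    have hmul := Subgroup.relIndex_mul_index (le_sup_left : P ≤ G₀)
    rw [show P.relIndex (P ⊔ sUnit F S) = P.relIndex (sUnit F S) by
      rw [sup_comm, Subgroup.relIndex_sup_right], hrel] at hmul
    rw [← hmul, sq] at hPlt
    exact absurd hPlt (not_lt.mpr (Nat.mul_le_mul_left _ hle))
  refine recRel_ne_zero huns (funext fun q => funext fun y =>
    (hsum u hu).eq_zero_of_plSet hadm.principal (fun q hq y => ?_) q y)
  by_cases hX : X q
  · exact hX u y
  · exact (recRel_hasForm u).eq_zero ((hP u).mp huP q (Finset.mem_filter.mpr ⟨hq, hX⟩)) y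

/-- The quadratic Hilbert symbol at a finite place. -/
noncomputable def hilb (v : HeightOneSpectrum (𝓞 F)) (a b : Fˣ) : ZMod 2 := hil (.inl v) a b

/-- The quadratic Hilbert symbol at an infinite place. -/
noncomputable def hilbInf (w : InfinitePlace F) (a b : Fˣ) : ZMod 2 := hil (.inr w) a b

open Classical in
lemma hilbInf_eq (w : InfinitePlace F) (a b : Fˣ) :
    hilbInf w a b = if w.IsReal ∧ (w.embedding (a : F)).re < 0 ∧ (w.embedding (b : F)).re < 0
      then 1 else 0 := by
  have key : ∀ x : Fˣ, x ∉ posAt w ↔ w.IsReal ∧ (w.embedding (x : F)).re < 0 := by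
    intro x
    rw [mem_posAt, Classical.not_imp, not_lt]
    exact ⟨fun h => ⟨h.1, lt_of_le_of_ne h.2 (re_ne_zero h.1 x)⟩, fun h => ⟨h.1, h.2.le⟩⟩
  show hil (.inr w) a b = _
  split_ifs with h
  · have ha := (key a).mpr ⟨h.1, h.2.1⟩
    refine hil_eq_one.mpr ?_
    show a ∉ normInf b w
    rw [normInf, if_neg ((key b).mpr ⟨h.1, h.2.2⟩)]
    exact ha
  · refine hil_eq_zero.mpr ?_
    show a ∈ normInf b w
    rw [normInf]
    split_ifs with hb
    · exact Subgroup.mem_top a
    · by_contra ha
      exact h ⟨((key a).mp ha).1, ((key a).mp ha).2, ((key b).mp hb).2⟩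

open Classical in
/-- **Hilbert reciprocity** for quadratic symbols. -/
theorem hilbert_reciprocity (S : Finset (HeightOneSpectrum (𝓞 F)))
    (h2 : ∀ v ∉ S, v.valuation F (2 : F) = 1) (a b : Fˣ)
    (ha : ∀ v ∉ S, v.valuation F (a : F) = 1) (hb : ∀ v ∉ S, v.valuation F (b : F) = 1) :
    ∑ v ∈ S, hilb v a b + ∑ w : InfinitePlace F, hilbInf w a b = 0 := by
  obtain ⟨S', -, -, hA⟩ := recRel_isRel b ∅
  have hrel : IsRel (recRel b) S :=
    hA.restrict fun v hv y hy => (recRel_hasForm b).unit (h2 v hv) (hb v hv) hy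
  have h := hrel.sum_eq S subset_rfl a ha
  simp only [recRel_eq_hil] at h
  rwa [plSet, Finset.sum_disjSum] at h

end Fermat.Agent.Duality.Global.Two
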