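import Fermat.Agent.Duality.Global.Two.Symbol

/-!
# Relations between local quadratic functionals
-/

set_option autoImplicit false

open IsDedekindDomain NumberField WithZero Module

namespace Fermat.Agent.Duality.Global.Two

variable {F : Type} [Field F] [NumberField F]

lemma zmodTwo_cases (x : ZMod 2) : x = 0 ∨ x = 1 := by
  revert x; decide

lemma zmodTwo_eq_of_add {x y : ZMod 2} (h : x + y = 0) : x = y := by
  revert h; revert x y; decide

/-- Prescribed local square classes at finitely many places. -/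
theorem exists_targets (S : Finset (HeightOneSpectrum (𝓞 F))) (t : Pl F → Fˣ) :
    ∃ y : Fˣ, ∀ q ∈ plSet S, y / t q ∈ sqLoc q := by
  obtain ⟨y, h1, h2⟩ := exists_approx_signs S (∑ v ∈ S, (2 * ordP v 2 + 1))
    (fun v => t (.inl v)) fun w => t (.inr w)
  refine ⟨y, ?_⟩
  rintro (v | w) hq
  · exact congrOne_le_localPow v two_ne_zero (congrOne_antitone v
      (Finset.single_le_sum (f := fun u => 2 * ordP u 2 + 1) (fun _ _ => Nat.zero_le _)
        (inl_mem_plSet.mp hq)) (h1 v (inl_mem_plSet.mp hq)))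
  · exact h2 w

/-- Local functionals with vanishing sums. -/
structure IsRel (A : Pl F → Fˣ → ZMod 2) (S : Finset (HeightOneSpectrum (𝓞 F))) : Prop where
  map_mul : ∀ p x y, A p (x * y) = A p x + A p y
  map_sq : ∀ p, ∀ x ∈ sqLoc p, A p x = 0
  map_unit : ∀ v ∉ S, ∀ x ∈ unitsAt v, A (.inl v) x = 0
  sum_eq : ∀ S', S ⊆ S' → ∀ x ∈ sUnit F S', ∑ p ∈ plSet S', A p x = 0

namespace IsRel

variable {A B : Pl F → Fˣ → ZMod 2} {S S' : Finset (HeightOneSpectrum (𝓞 F))}

lemma map_one (h : IsRel A S) (p : Pl F) : A p 1 = 0 := h.map_sq p 1 (one_mem _)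

lemma congr_sq (h : IsRel A S) {p : Pl F} {x y : Fˣ} (hxy : x / y ∈ sqLoc p) : A p x = A p y := by
  conv_lhs => rw [show x = x / y * y from (div_mul_cancel x y).symm]
  rw [h.map_mul, h.map_sq p _ hxy, zero_add]

lemma mono (h : IsRel A S) (hS : S ⊆ S') : IsRel A S' where
  map_mul := h.map_mul
  map_sq := h.map_sq
  map_unit v hv := h.map_unit v fun e => hv (hS e)
  sum_eq T hT := h.sum_eq T (hS.trans hT)

lemma add (h : IsRel A S) (h' : IsRel B S) : IsRel (A + B) S where
  map_mul p x y := by simp only [Pi.add_apply, h.map_mul, h'.map_mul]; ring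
  map_sq p x hx := by simp only [Pi.add_apply, h.map_sq p x hx, h'.map_sq p x hx, add_zero]
  map_unit v hv x hx := by
    simp only [Pi.add_apply, h.map_unit v hv x hx, h'.map_unit v hv x hx, add_zero]
  sum_eq T hT x hx := by
    simp only [Pi.add_apply, Finset.sum_add_distrib, h.sum_eq T hT x hx, h'.sum_eq T hT x hx,
      add_zero]

lemma eq_ordPar (h : IsRel A S) {v : HeightOneSpectrum (𝓞 F)} (hv : v ∉ S) {π : Fˣ}
    (hπ : v.valuation F (π : F) = exp (-1 : ℤ)) (x : Fˣ) :
    A (.inl v) x = ordPar v x * A (.inl v) π :=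
  eq_ordPar_mul (A (.inl v)) (h.map_mul _) (h.map_unit v hv) hπ x

/-- A relation vanishing at `S` and at infinity vanishes, if `S` kills the class group. -/
theorem eq_zero_of_plSet (h : IsRel A S) (hS : SPrincipal F S)
    (h0 : ∀ p ∈ plSet S, ∀ x, A p x = 0) : ∀ p x, A p x = 0 := by
  classical
  rintro (v | w) x
  swap
  · exact h0 _ (inr_mem_plSet w) x
  by_cases hv : v ∈ S
  · exact h0 _ (inl_mem_plSet.mpr hv) x
  obtain ⟨π, h1, h2⟩ := hS v hv
  have hsum := h.sum_eq (insert v S) (Finset.subset_insert v S) π fun u hu => by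
    simp only [Finset.mem_coe, Finset.mem_insert, not_or] at hu
    exact h2 u hu.2 hu.1
  rw [Finset.sum_eq_single_of_mem (Sum.inl v) (inl_mem_plSet.mpr (Finset.mem_insert_self v S))
    fun p hp hne => h0 p (by
      cases p with
      | inl u =>
        exact inl_mem_plSet.mpr ((Finset.mem_insert.mp (inl_mem_plSet.mp hp)).resolve_left
          fun e => hne (by rw [e]))
      | inr w => exact inr_mem_plSet w) π] at hsum
  rw [h.eq_ordPar hv h1, hsum, mul_zero]

/-- Restriction to a smaller set of places. -/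
lemma restrict (h : IsRel A S') (hu : ∀ v ∉ S, ∀ x ∈ unitsAt v, A (.inl v) x = 0) : IsRel A S where
  map_mul := h.map_mul
  map_sq := h.map_sq
  map_unit := hu
  sum_eq T hT x hx := by
    classical
    have h1 := h.sum_eq (T ∪ S') Finset.subset_union_right x
      (sUnit_mono Finset.subset_union_left hx)
    have hsub : plSet T ⊆ plSet (T ∪ S') := by
      rintro (u | w) hp
      · exact inl_mem_plSet.mpr (Finset.mem_union_left _ (inl_mem_plSet.mp hp))
      · exact inr_mem_plSet w
    have hout : ∀ p ∈ plSet (T ∪ S'), p ∉ plSet T → A p x = 0 := by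
      rintro (u | w) _ hp
      · exact hu u (fun e => hp (inl_mem_plSet.mpr (hT e))) x
          (hx u fun e => hp (inl_mem_plSet.mpr e))
      · exact absurd (inr_mem_plSet w) hp
    rwa [← Finset.sum_subset hsub hout] at h1

end IsRel

/-- The relation attached to a character killing the `S`-units and the local squares at `S`. -/
theorem exists_rel_of_hom {S : Finset (HeightOneSpectrum (𝓞 F))} (hS : SPrincipal F S)
    (h : Fˣ → ZMod 2) (hmul : ∀ x y, h (x * y) = h x + h y) (hU : ∀ x ∈ sUnit F S, h x = 0)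
    (hsq : ∀ x ∈ sqAll S, h x = 0) :
    ∃ A : Pl F → Fˣ → ZMod 2, IsRel A S ∧ (∀ x, ∑ p ∈ plSet S, A p x = h x) ∧
      (∀ p ∈ plSet S, ∀ x, ∃ y : Fˣ, A p x = h y ∧ y / x ∈ sqLoc p ∧
        ∀ q ∈ plSet S, q ≠ p → y ∈ sqLoc q) ∧
      ∀ v ∉ S, ∀ π : Fˣ, v.valuation F (π : F) = exp (-1 : ℤ) →
        (∀ v' ∉ S, v' ≠ v → v'.valuation F (π : F) = 1) →
        ∀ x, A (.inl v) x = ordPar v x * h π := by
  classical
  have hone : h 1 = 0 := hU 1 (one_mem _)
  have hsame : ∀ y y' : Fˣ, (∀ q ∈ plSet S, y / y' ∈ sqLoc q) → h y = h y' := fun y y' hy => by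
    have hmem : y / y' ∈ sqAll S := mem_sqAll.mpr
      ⟨fun v hv => hy (.inl v) (inl_mem_plSet.mpr hv), fun w => hy (.inr w) (inr_mem_plSet w)⟩
    conv_lhs => rw [show y = y / y' * y' from (div_mul_cancel y y').symm]
    rw [hmul, hsq _ hmem, zero_add]
  choose d hd using fun (p : Pl F) (x : Fˣ) =>
    exists_targets S fun q => if q = p then x else 1
  have hd1 : ∀ p x, p ∈ plSet S → d p x / x ∈ sqLoc p := fun p x hp => by
    simpa using hd p x p hp
  have hd2 : ∀ p x q, q ∈ plSet S → q ≠ p → d p x ∈ sqLoc q := fun p x q hq hne => by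
    simpa [hne] using hd p x q hq
  choose π₀ hπ₀ hπ₀' using hS
  let A : Pl F → Fˣ → ZMod 2 := fun p x =>
    match p with
    | .inl v => if hv : v ∈ S then h (d (.inl v) x) else ordPar v x * h (π₀ v hv)
    | .inr w => h (d (.inr w) x)
  have hA : ∀ p ∈ plSet S, ∀ x, A p x = h (d p x) := by
    rintro (v | w) hp x
    · exact dif_pos (inl_mem_plSet.mp hp)
    · rfl
  have hA' : ∀ v, ∀ hv : v ∉ S, ∀ x, A (.inl v) x = ordPar v x * h (π₀ v hv) :=
    fun v hv x => dif_neg hv
  have hdmul : ∀ p ∈ plSet S, ∀ x y, h (d p (x * y)) = h (d p x) + h (d p y) := by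
    intro p hp x y
    rw [← hmul]
    refine hsame _ _ fun q hq => ?_
    by_cases e : q = p
    · subst e
      rw [show d q (x * y) / (d q x * d q y) = d q (x * y) / (x * y) / (d q x / x * (d q y / y)) by
        rw [div_mul_div_comm, div_div_div_cancel_right]]
      exact div_mem (hd1 q _ hp) (mul_mem (hd1 q x hp) (hd1 q y hp))
    · exact div_mem (hd2 p _ q hq e) (mul_mem (hd2 p x q hq e) (hd2 p y q hq e))
  have htot : ∀ x, ∑ p ∈ plSet S, A p x = h x := by
    intro x
    let g : Additive Fˣ →+ ZMod 2 :=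
      AddMonoidHom.mk' (fun x => h (Additive.toMul x)) fun x y => hmul _ _
    have e : ∑ p ∈ plSet S, A p x = h (∏ p ∈ plSet S, d p x) := by
      rw [Finset.sum_congr rfl fun p hp => hA p hp x]
      exact (map_sum g (fun p => Additive.ofMul (d p x)) (plSet S)).symm
    rw [e]
    refine hsame _ _ fun q hq => ?_
    rw [← Finset.mul_prod_erase _ _ hq, mul_div_right_comm]
    exact mul_mem (hd1 q x hq) (Subgroup.prod_mem _ fun p hp =>
      hd2 p x q hq (Finset.ne_of_mem_erase hp).symm)
  refine ⟨A, ⟨?_, ?_, ?_, ?_⟩, htot, fun p hp x => ⟨d p x, hA p hp x, hd1 p x hp,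
    fun q hq e => hd2 p x q hq e⟩, fun v hv π h1 h2 x => ?_⟩
  · rintro (v | w) x y
    · by_cases hv : v ∈ S
      · have hp := inl_mem_plSet.mpr hv
        rw [hA _ hp, hA _ hp, hA _ hp, hdmul _ hp]
      · rw [hA' v hv, hA' v hv, hA' v hv, ordPar_mul, add_mul]
    · exact hdmul _ (inr_mem_plSet w) x y
  · intro p x hx
    by_cases hp : p ∈ plSet S
    · rw [hA p hp, hsame (d p x) 1 (fun q hq => ?_), hone]
      rw [div_one]
      by_cases e : q = p
      · subst e
        rw [show d q x = d q x / x * x from (div_mul_cancel _ _).symm]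
        exact mul_mem (hd1 q x hp) hx
      · exact hd2 p x q hq e
    · cases p with
      | inr w => exact absurd (inr_mem_plSet w) hp
      | inl v =>
        have hv : v ∉ S := fun e => hp (inl_mem_plSet.mpr e)
        obtain ⟨n, hn⟩ : ∃ n : ℕ, 2 * ordP v 2 + 1 ≤ n := ⟨_, le_rfl⟩
        rw [show sqLoc (.inl v) = localPow v 2 from rfl, localPow_eq v two_ne_zero hn,
          Subgroup.mem_sup] at hx
        obtain ⟨_, ⟨z, rfl⟩, c, hc, rfl⟩ := hx
        rw [hA' v hv, ordPar_mul, ordPar_eq_zero_of_unit (congrOne_le_unitsAt v n hc),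
          powMonoidHom_apply, pow_two, ordPar_mul,
          (show ∀ a : ZMod 2, a + a = 0 by decide), add_zero, zero_mul]
  · intro v hv x hx
    rw [hA' v hv, ordPar_eq_zero_of_unit hx, zero_mul]
  · intro T hT x hx
    have hsplit : plSet T = plSet S ∪ (T \ S).image Sum.inl := by
      ext p
      cases p with
      | inl u =>
        simp only [inl_mem_plSet, Finset.mem_union, Finset.mem_image, Finset.mem_sdiff,
          Sum.inl.injEq, exists_eq_right]
        exact ⟨fun h' => (em (u ∈ S)).imp id fun e => ⟨h', e⟩,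
          fun h' => h'.elim (fun e => hT e) fun e => e.1⟩
      | inr w => simp [inr_mem_plSet]
    rw [hsplit, Finset.sum_union, htot, Finset.sum_image fun a _ b _ e => Sum.inl.inj e]
    swap
    · rw [Finset.disjoint_right]
      intro p hp hp'
      obtain ⟨u, hu, rfl⟩ := Finset.mem_image.mp hp
      exact (Finset.mem_sdiff.mp hu).2 (inl_mem_plSet.mp hp')
    -- `x` is an `S`-unit times the chosen generators
    let k : HeightOneSpectrum (𝓞 F) → ℤ := fun u => -log (u.valuation F (x : F))
    let g : Additive Fˣ →+ ZMod 2 :=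
      AddMonoidHom.mk' (fun x => h (Additive.toMul x)) fun x y => hmul _ _
    set P : Fˣ := ∏ u ∈ (T \ S).attach,
      π₀ u.1 (Finset.mem_sdiff.mp u.2).2 ^ k u.1
    have hxP : x / P ∈ sUnit F S := by
      intro u hu
      rw [Units.val_div_eq_div_val, map_div₀, Units.coe_prod, map_prod]
      by_cases huT : u ∈ T
      · have hu' : u ∈ T \ S := Finset.mem_sdiff.mpr ⟨huT, hu⟩
        rw [Finset.prod_eq_single_of_mem ⟨u, hu'⟩ (Finset.mem_attach _ _) fun b _ hb => by
          rw [Units.val_zpow_eq_zpow_val, map_zpow₀,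
            hπ₀' b.1 _ u hu fun e => hb (Subtype.ext e.symm), one_zpow]]
        rw [Units.val_zpow_eq_zpow_val, map_zpow₀, hπ₀, ← exp_zsmul,
          show k u • (-1 : ℤ) = log (u.valuation F (x : F)) by simp [k],
          exp_log (by simp), div_self (by simp)]
      · rw [Finset.prod_eq_one fun b _ => by
          rw [Units.val_zpow_eq_zpow_val, map_zpow₀,
            hπ₀' b.1 _ u hu fun e => huT (e ▸ (Finset.mem_sdiff.mp b.2).1), one_zpow],
          div_one]
        exact hx u huT
    have hxh : h x = h P := by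
      conv_lhs => rw [show x = x / P * P from (div_mul_cancel x P).symm]
      rw [hmul, hU _ hxP, zero_add]
    have hP : h P = ∑ u ∈ (T \ S).attach, A (.inl u.1) x := by
      refine (map_sum g (fun u : {u // u ∈ T \ S} =>
        Additive.ofMul (π₀ u.1 (Finset.mem_sdiff.mp u.2).2 ^ k u.1)) _).trans
        (Finset.sum_congr rfl fun u _ => ?_)
      rw [hA' u.1 (Finset.mem_sdiff.mp u.2).2]
      show g (k u.1 • Additive.ofMul _) = _
      rw [map_zsmul, zsmul_eq_mul]
      congr 1
      simp [k, ordPar, Int.cast_neg, ZMod.neg_eq_self_mod_two]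
    rw [hxh, hP, Finset.sum_attach (T \ S) fun u => A (.inl u) x]
    exact (show ∀ a : ZMod 2, a + a = 0 by decide) _
  · rw [hA' v hv]
    congr 1
    have hq : π₀ v hv / π ∈ sUnit F S := fun u hu => by
      rw [Units.val_div_eq_div_val, map_div₀]
      by_cases e : u = v
      · subst e; rw [hπ₀, h1, div_self (by simp)]
      · rw [hπ₀' v hv u hu e, h2 u hu e, div_one]
    conv_lhs => rw [show π₀ v hv = π₀ v hv / π * π from (div_mul_cancel _ _).symm]
    rw [hmul, hU _ hq, zero_add]

/-- `A` is, place by place, zero or the symbol with `b`. -/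
def HasForm (A : Pl F → Fˣ → ZMod 2) (b : Fˣ) : Prop :=
  ∀ p, (∀ x, A p x = 0) ∨ ∀ x, A p x = hil p x b

lemma HasForm.eq_zero {A : Pl F → Fˣ → ZMod 2} {b : Fˣ} (h : HasForm A b) {p : Pl F}
    (hb : b ∈ sqLoc p) (x : Fˣ) : A p x = 0 := by
  rcases h p with h' | h'
  · exact h' x
  · rw [h', hil_eq_zero_of_right x hb]

lemma HasForm.unit {A : Pl F → Fˣ → ZMod 2} {b : Fˣ} (h : HasForm A b)
    {v : HeightOneSpectrum (𝓞 F)} (h2 : v.valuation F (2 : F) = 1) (hb : b ∈ unitsAt v)
    {x : Fˣ} (hx : x ∈ unitsAt v) : A (.inl v) x = 0 := by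
  rcases h (.inl v) with h' | h'
  · exact h' x
  · rw [h', hil_units h2 hx hb]

open Classical in
/-- The character cut out by the local norms from `F(√b)`. -/
theorem exists_char {b : Fˣ} (hb : ∀ z : Fˣ, z ^ 2 ≠ b)
    {S : Finset (HeightOneSpectrum (𝓞 F))} (hA : Adm b S) :
    ∃ h : Fˣ → ZMod 2, (∀ x y, h (x * y) = h x + h y) ∧
      (∀ x, h x = 0 ↔ x ∈ sUnit F S ⊔ normAll b S) ∧ ∃ x, h x = 1 := by
  have h2 := (index_sup_normAll hb hA).1
  set U := sUnit F S ⊔ normAll b S
  refine ⟨fun x => if x ∈ U then 0 else 1, fun x y => ?_, fun x => ?_, ?_⟩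
  · by_cases hx : x ∈ U <;> by_cases hy : y ∈ U <;>
      simp +decide [hx, hy, Subgroup.mul_mem_iff_of_index_two h2]
  · by_cases hx : x ∈ U <;> simp [hx]
  · obtain ⟨x, hx⟩ := (Subgroup.index_eq_two_iff.mp h2)
    by_cases h1 : (1 : Fˣ) ∈ U
    · refine ⟨x, if_neg fun hxU => ?_⟩
      have := hx 1
      simp [hxU, h1] at this
    · exact absurd (one_mem U) h1

open Classical in
/-- A non-square gives a relation. -/
theorem exists_rel {b : Fˣ} (hb : ∀ z : Fˣ, z ^ 2 ≠ b)
    {S : Finset (HeightOneSpectrum (𝓞 F))} (hA : Adm b S) :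
    ∃ A, IsRel A S ∧ HasForm A b ∧ (∃ x, ∑ p ∈ plSet S, A p x = 1) ∧
      ∀ x, ∑ p ∈ plSet S, A p x = 0 ↔ x ∈ sUnit F S ⊔ normAll b S := by
  obtain ⟨h, hmul, hker, x₁, hx₁⟩ := exists_char hb hA
  obtain ⟨A, hrel, htot, hin, hout⟩ := exists_rel_of_hom hA.principal h hmul
    (fun x hx => (hker x).mpr (Subgroup.mem_sup_left hx))
    (fun x hx => (hker x).mpr (Subgroup.mem_sup_right (sqAll_le_normAll b S hx)))
  refine ⟨A, hrel, ?_, ⟨x₁, by rw [htot, hx₁]⟩, fun x => by rw [htot]; exact hker x⟩
  intro p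
  by_cases hp : p ∈ plSet S
  · -- `A p` kills the local norms
    have hn : ∀ x, hil p x b = 0 → A p x = 0 := by
      intro x hx
      obtain ⟨y, hy, hy1, hy2⟩ := hin p hp x
      rw [hy, hker]
      refine Subgroup.mem_sup_right ?_
      have hall : ∀ q ∈ plSet S, y ∈ nrm b q := fun q hq => by
        by_cases e : q = p
        · subst e
          rw [show y = y / x * x from (div_mul_cancel _ _).symm]
          exact mul_mem (sqLoc_le_nrm b q hy1) (hil_eq_zero.mp hx)
        · exact sqLoc_le_nrm b q (hy2 q hq e)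
      exact mem_normAll.mpr ⟨fun v hv => hall (.inl v) (inl_mem_plSet.mpr hv),
        fun w => hall (.inr w) (inr_mem_plSet w)⟩
    by_cases hsq : b ∈ sqLoc p
    · exact .inl fun x => hn x (hil_eq_zero_of_right x hsq)
    obtain ⟨c, hc⟩ := exists_hil_eq_one hsq
    have hlin : ∀ x, A p x = hil p x b * A p c := by
      intro x
      rcases zmodTwo_cases (hil p x b) with e | e
      · rw [e, zero_mul, hn x e]
      · rw [e, one_mul]
        refine zmodTwo_eq_of_add ?_
        rw [← hrel.map_mul, hn]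
        rw [hil_mul_left, e, hc]; decide
    rcases zmodTwo_cases (A p c) with e | e
    · exact .inl fun x => by rw [hlin, e, mul_zero]
    · exact .inr fun x => by rw [hlin, e, mul_one]
  · cases p with
    | inr w => exact absurd (inr_mem_plSet w) hp
    | inl v =>
      have hv : v ∉ S := fun e => hp (inl_mem_plSet.mpr e)
      by_cases hsq : b ∈ localPow v 2
      · obtain ⟨π, hπ, h1, h2⟩ := hA.normPrime v hv hsq
        refine .inl fun x => ?_
        rw [hout v hv π h1 h2, (hker π).mpr (Subgroup.mem_sup_right (normVals_le_normAll b S hπ)),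
          mul_zero]
      · obtain ⟨π, h1, h2⟩ := hA.principal v hv
        rcases zmodTwo_cases (h π) with e | e
        · exact .inl fun x => by rw [hout v hv π h1 h2, e, mul_zero]
        · refine .inr fun x => ?_
          rw [hout v hv π h1 h2, e, mul_one, hil_eq_ordPar (hA.two v hv) x (hA.mem v hv),
            if_neg hsq]

end Fermat.Agent.Duality.Global.Two
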