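import Fermat.Agent.Duality.Global.Two.Index

/-!
# Quadratic Hilbert symbols, uniformly at finite and infinite places
-/

set_option autoImplicit false

open IsDedekindDomain NumberField WithZero Module

namespace Fermat.Agent.Duality.Global.Two

variable {F : Type} [Field F] [NumberField F]

open Classical in
theorem exists_adm_superset (b : Fˣ) (S₀ : Finset (HeightOneSpectrum (𝓞 F))) :
    ∃ S, S₀ ⊆ S ∧ Adm b S := by
  obtain ⟨S, hS⟩ := exists_adm b
  exact ⟨S₀ ∪ S, Finset.subset_union_left, hS.mono Finset.subset_union_right⟩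

open Classical in
lemma index_normTwo (b : Fˣ) (v : HeightOneSpectrum (𝓞 F)) :
    (normTwo b v).index = if b ∈ localPow v 2 then 1 else 2 := by
  by_cases hb : ∃ z : Fˣ, z ^ 2 = b
  · obtain ⟨z, hz⟩ := hb
    rw [if_pos (range_pow_le_localPow v 2 ⟨z, hz⟩), Subgroup.index_eq_one, eq_top_iff,
      ← normVals_eq_top_of_sq hz]
    exact normVals_le_normTwo
  · push Not at hb
    obtain ⟨S, hvS, hS⟩ := exists_adm_superset b {v}
    exact (index_sup_normAll hb hS).2 v (hvS (Finset.mem_singleton_self v))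

lemma normTwo_eq_top {b : Fˣ} {v : HeightOneSpectrum (𝓞 F)} (h : b ∈ localPow v 2) :
    normTwo b v = ⊤ := by
  classical
  rw [← Subgroup.index_eq_one, index_normTwo, if_pos h]

/-- Finite and infinite places. -/
abbrev Pl (F : Type) [Field F] [NumberField F] := HeightOneSpectrum (𝓞 F) ⊕ InfinitePlace F

/-- The local squares at a place. -/
def sqLoc : Pl F → Subgroup Fˣ := Sum.elim (fun v => localPow v 2) posAt

/-- The local norms from `F(√b)` at a place. -/
noncomputable def nrm (b : Fˣ) : Pl F → Subgroup Fˣ := Sum.elim (normTwo b) (normInf b)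

/-- The places in `S` and at infinity. -/
noncomputable def plSet (S : Finset (HeightOneSpectrum (𝓞 F))) : Finset (Pl F) :=
  S.disjSum Finset.univ

lemma inl_mem_plSet {S : Finset (HeightOneSpectrum (𝓞 F))} {v : HeightOneSpectrum (𝓞 F)} :
    Sum.inl v ∈ plSet S ↔ v ∈ S := Finset.inl_mem_disjSum

lemma inr_mem_plSet {S : Finset (HeightOneSpectrum (𝓞 F))} (w : InfinitePlace F) :
    Sum.inr w ∈ plSet S := Finset.inr_mem_disjSum.mpr (Finset.mem_univ w)

open Classical in
/-- The quadratic Hilbert symbol at any place. -/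
noncomputable def hil (p : Pl F) (a b : Fˣ) : ZMod 2 := if a ∈ nrm b p then 0 else 1

lemma hil_eq_zero {p : Pl F} {a b : Fˣ} : hil p a b = 0 ↔ a ∈ nrm b p := by
  classical
  rw [hil]; split_ifs with h <;> simp [h]

lemma hil_eq_one {p : Pl F} {a b : Fˣ} : hil p a b = 1 ↔ a ∉ nrm b p := by
  classical
  rw [hil]; split_ifs with h <;> simp [h]

lemma normVals_le_nrm (b : Fˣ) (p : Pl F) : normVals b ≤ nrm b p := by
  cases p with
  | inl v => exact normVals_le_normTwo
  | inr w => exact normVals_le_normInf b w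

lemma sqLoc_le_nrm (b : Fˣ) (p : Pl F) : sqLoc p ≤ nrm b p := by
  cases p with
  | inl v => exact localPow_le_normTwo
  | inr w => exact posAt_le_normInf b w

lemma sq_mem_sqLoc (p : Pl F) (x : Fˣ) : x ^ 2 ∈ sqLoc p := by
  cases p with
  | inl v => exact range_pow_le_localPow v 2 ⟨x, rfl⟩
  | inr w => exact sq_mem_posAt w x

open Classical in
lemma index_nrm (b : Fˣ) (p : Pl F) :
    (nrm b p).index = if b ∈ sqLoc p then 1 else 2 := by
  cases p with
  | inl v => exact index_normTwo b v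
  | inr w =>
    show (normInf b w).index = if b ∈ posAt w then 1 else 2
    by_cases h : b ∈ posAt w
    · simp [normInf, h]
    · rw [normInf, if_neg h, if_neg h]
      exact index_posAt (Classical.byContradiction fun hw => h fun h' => absurd h' hw)

lemma nrm_eq_top {b : Fˣ} {p : Pl F} (h : b ∈ sqLoc p) : nrm b p = ⊤ := by
  classical
  rw [← Subgroup.index_eq_one, index_nrm, if_pos h]

lemma hil_eq_zero_of_right {p : Pl F} (a : Fˣ) {b : Fˣ} (h : b ∈ sqLoc p) : hil p a b = 0 :=
  hil_eq_zero.mpr (nrm_eq_top h ▸ Subgroup.mem_top a)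

lemma hil_eq_zero_of_left {p : Pl F} {a : Fˣ} (b : Fˣ) (h : a ∈ sqLoc p) : hil p a b = 0 :=
  hil_eq_zero.mpr (sqLoc_le_nrm b p h)

/-- The symbol is additive in the first variable. -/
theorem hil_mul_left (p : Pl F) (a a' b : Fˣ) : hil p (a * a') b = hil p a b + hil p a' b := by
  classical
  by_cases hb : b ∈ sqLoc p
  · simp [hil_eq_zero_of_right _ hb]
  have h2 : (nrm b p).index = 2 := by rw [index_nrm, if_neg hb]
  rw [hil, hil, hil]
  by_cases h1 : a ∈ nrm b p <;> by_cases h1' : a' ∈ nrm b p <;>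
    simp +decide [h1, h1', Subgroup.mul_mem_iff_of_index_two h2]

lemma mem_normTwo_symm {a b : Fˣ} {v : HeightOneSpectrum (𝓞 F)} (h : a ∈ normTwo b v) :
    b ∈ normTwo a v := by
  by_cases hb : b ∈ localPow v 2
  · exact localPow_le_normTwo hb
  by_cases ha : a ∈ localPow v 2
  · rw [normTwo_eq_top ha]; exact Subgroup.mem_top b
  refine Subgroup.mem_iInf.mpr fun n => ?_
  set e := 2 * ordP v 2 + 1
  obtain ⟨c, x, y, hc, hxy⟩ := exists_of_mem_normTwo h (n + e + 1)
  have hc0 : (c : F) ≠ 0 := c.ne_zero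
  have ha0 : (a : F) ≠ 0 := a.ne_zero
  have hy : y ≠ 0 := by
    rintro rfl
    rw [zero_pow two_ne_zero, mul_zero, sub_zero] at hxy
    refine ha ?_
    have hx : x ≠ 0 := fun h0 => div_ne_zero ha0 hc0 (by rw [hxy, h0, zero_pow two_ne_zero])
    rw [show a = (Units.mk0 x hx) ^ 2 * c from Units.ext (by
      rw [Units.val_mul, Units.val_pow_eq_pow_val, Units.val_mk0, ← hxy, div_mul_cancel₀ _ hc0])]
    exact mul_mem (range_pow_le_localPow v 2 ⟨_, rfl⟩)
      (congrOne_le_localPow v two_ne_zero (congrOne_antitone v (by omega) hc))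
  -- `x ^ 2` is not close to `a`
  have hfar : exp (-(e : ℤ)) < v.valuation F (x ^ 2 / a - 1) := by
    by_contra hle
    push Not at hle
    refine ha ?_
    have h1 : v.valuation F (x ^ 2 / (a : F)) = 1 :=
      valuation_eq_one_of_close v (by omega) hle
    have hx : x ≠ 0 := fun h0 => by simp [h0] at h1
    have h2 : (Units.mk0 x hx) ^ 2 / a ∈ congrOne v e := mem_congrOne_of_close v (by omega) (by
      rw [Units.val_div_eq_div_val, Units.val_pow_eq_pow_val, Units.val_mk0]; exact hle)
    rw [show a = (Units.mk0 x hx) ^ 2 / ((Units.mk0 x hx) ^ 2 / a) from (div_div_cancel _ _).symm]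
    exact div_mem (range_pow_le_localPow v 2 ⟨_, rfl⟩) (congrOne_le_localPow v two_ne_zero h2)
  have hd : x ^ 2 - (a : F) ≠ 0 := fun h0 => by
    rw [sub_eq_zero.mp h0, div_self ha0, sub_self, map_zero] at hfar
    exact absurd hfar (not_lt.mpr zero_le)
  let m : Fˣ := Units.mk0 ((x ^ 2 - (a : F)) / y ^ 2) (div_ne_zero hd (pow_ne_zero _ hy))
  refine Subgroup.mem_sup.mpr ⟨m, ⟨x / y, 1 / y, by simp only [m, Units.val_mk0]; field_simp⟩,
    b / m, congrOne_antitone v n.le_succ (mem_congrOne_of_close v n.succ_ne_zero ?_),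
    mul_div_cancel _ _⟩
  have hb' : (b : F) = (x ^ 2 - (a : F) / c) / y ^ 2 := by
    rw [hxy]; field_simp; ring
  have hid : ((b / m : Fˣ) : F) - 1 = ((c : F) - 1) / c / (x ^ 2 / a - 1) := by
    rw [Units.val_div_eq_div_val, hb']
    simp only [m, Units.val_mk0]
    have : x ^ 2 / (a : F) - 1 = (x ^ 2 - a) / a := by field_simp
    rw [this]
    field_simp
    ring
  rw [hid, map_div₀, map_div₀, hc.1, div_one,
    div_le_iff₀ (lt_of_le_of_lt zero_le hfar)]
  refine hc.2.trans (le_trans ?_ (mul_le_mul' le_rfl hfar.le))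
  rw [← exp_add, exp_le_exp]; push_cast; omega

/-- The symbol is symmetric. -/
theorem hil_comm (p : Pl F) (a b : Fˣ) : hil p a b = hil p b a := by
  have key : ∀ x y : Fˣ, x ∈ nrm y p → y ∈ nrm x p := by
    intro x y
    cases p with
    | inl v => exact mem_normTwo_symm
    | inr w =>
      classical
      show x ∈ normInf y w → y ∈ normInf x w
      intro h
      by_cases hx : x ∈ posAt w
      · simp [normInf, hx]
      · by_cases hy : y ∈ posAt w
        · simp [normInf, hx, hy]
        · exact absurd (by simpa [normInf, hy] using h) hx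
  classical
  rw [hil, hil]
  exact if_congr ⟨key a b, key b a⟩ rfl rfl

theorem hil_mul_right (p : Pl F) (a b b' : Fˣ) : hil p a (b * b') = hil p a b + hil p a b' := by
  rw [hil_comm, hil_mul_left, hil_comm p b, hil_comm p b']

/-- Nondegeneracy. -/
theorem exists_hil_eq_one {p : Pl F} {b : Fˣ} (hb : b ∉ sqLoc p) : ∃ a, hil p a b = 1 := by
  classical
  by_contra h
  push Not at h
  have htop : nrm b p = ⊤ := (Subgroup.eq_top_iff' _).mpr fun a => by
    by_contra hne; exact h a (hil_eq_one.mpr hne)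
  have h2 := index_nrm b p
  rw [htop, Subgroup.index_top, if_neg hb] at h2
  omega

/-- The parity of the order at `v`. -/
noncomputable def ordPar (v : HeightOneSpectrum (𝓞 F)) (a : Fˣ) : ZMod 2 :=
  ((log (v.valuation F (a : F)) : ℤ) : ZMod 2)

lemma ordPar_mul (v : HeightOneSpectrum (𝓞 F)) (a a' : Fˣ) :
    ordPar v (a * a') = ordPar v a + ordPar v a' := by
  rw [ordPar, ordPar, ordPar, Units.val_mul, map_mul, log_mul (by simp) (by simp), Int.cast_add]

lemma ordPar_eq_zero_of_unit {v : HeightOneSpectrum (𝓞 F)} {a : Fˣ} (h : a ∈ unitsAt v) :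
    ordPar v a = 0 := by
  rw [ordPar, show v.valuation F (a : F) = 1 from h, log_one, Int.cast_zero]

lemma ordPar_uniformizer {v : HeightOneSpectrum (𝓞 F)} {π : Fˣ}
    (h : v.valuation F (π : F) = exp (-1 : ℤ)) : ordPar v π = 1 := by
  rw [ordPar, h, log_exp]; decide

/-- A function killing units is a multiple of the parity of the order. -/
lemma eq_ordPar_mul {v : HeightOneSpectrum (𝓞 F)} (f : Fˣ → ZMod 2)
    (hf : ∀ x y, f (x * y) = f x + f y) (hu : ∀ x ∈ unitsAt v, f x = 0) {π : Fˣ}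
    (hπ : v.valuation F (π : F) = exp (-1 : ℤ)) (a : Fˣ) : f a = ordPar v a * f π := by
  set k : ℤ := log (v.valuation F (a : F))
  have hz : ∀ m : ℤ, f (π ^ m) = (m : ZMod 2) * f π := by
    let g : Additive Fˣ →+ ZMod 2 :=
      AddMonoidHom.mk' (fun x => f (Additive.toMul x)) fun x y => hf _ _
    intro m
    have h := map_zsmul g m (Additive.ofMul π)
    rw [zsmul_eq_mul] at h
    exact h
  have hmem : a * π ^ k ∈ unitsAt v := by
    rw [mem_unitsAt, Units.val_mul, Units.val_zpow_eq_zpow_val, map_mul, map_zpow₀, hπ,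
      ← exp_zsmul, ← exp_log (show v.valuation F (a : F) ≠ 0 by simp), ← exp_add, ← exp_zero]
    congr 1; simp [k]
  have h := hf a (π ^ k)
  rw [hu _ hmem, hz] at h
  have : ∀ x y : ZMod 2, 0 = x + y → x = y := by decide
  exact this _ _ h

open Classical in
/-- Units are norms from unramified extensions. -/
theorem hil_units {v : HeightOneSpectrum (𝓞 F)} (h2 : v.valuation F (2 : F) = 1) {a b : Fˣ}
    (ha : a ∈ unitsAt v) (hb : b ∈ unitsAt v) : hil (.inl v) a b = 0 := by
  refine hil_eq_zero.mpr ?_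
  show a ∈ normTwo b v
  let _ := Ideal.Quotient.field v.asIdeal
  have : Finite (𝓞 F ⧸ v.asIdeal) := Ideal.finiteQuotientOfFreeOfNeBot _ v.ne_bot
  let _ := Fintype.ofFinite (𝓞 F ⧸ v.asIdeal)
  obtain ⟨a₀, ha₀⟩ := exists_integral_approx v (le_of_eq ha) 1
  obtain ⟨b₀, hb₀⟩ := exists_integral_approx v (le_of_eq hb) 1
  set ā := Ideal.Quotient.mk v.asIdeal a₀
  set bb := Ideal.Quotient.mk v.asIdeal b₀
  have hres : ∀ z : 𝓞 F, Ideal.Quotient.mk v.asIdeal z = 0 ↔
      v.valuation F (algebraMap (𝓞 F) F z) < 1 := fun z => by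
    rw [Ideal.Quotient.eq_zero_iff_mem, v.valuation_lt_one_iff_mem]
  have hbb : bb ≠ 0 := by
    rw [Ne, hres, not_lt]
    have h1 := Valuation.map_eq_of_sub_lt (v := v.valuation F) (x := (b : F))
      (y := algebraMap (𝓞 F) F b₀) (by
        rw [show v.valuation F (b : F) = 1 from hb]
        exact hb₀.trans_lt (by rw [← exp_zero, exp_lt_exp]; omega))
    rw [h1]; exact le_of_eq (Eq.symm hb)
  have h2' : (2 : 𝓞 F ⧸ v.asIdeal) ≠ 0 := by
    rw [show (2 : 𝓞 F ⧸ v.asIdeal) = Ideal.Quotient.mk _ 2 from (map_ofNat _ 2).symm, Ne, hres,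
      map_ofNat, h2]
    exact lt_irrefl _
  have hodd : ringChar (𝓞 F ⧸ v.asIdeal) ≠ 2 := fun h => h2' (by
    have := ringChar.Nat.cast_ringChar (R := 𝓞 F ⧸ v.asIdeal)
    rw [h] at this
    exact_mod_cast this)
  obtain ⟨x, y, hxy⟩ := FiniteField.exists_root_sum_quadratic
    (f := Polynomial.X ^ 2 - Polynomial.C ā) (g := -(Polynomial.C bb * Polynomial.X ^ 2))
    (Polynomial.degree_X_pow_sub_C two_pos ā)
    (by rw [Polynomial.degree_neg, Polynomial.degree_C_mul_X_pow _ hbb]; rfl)
    (FiniteField.odd_card_of_char_ne_two hodd)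
  simp only [Polynomial.eval_sub, Polynomial.eval_pow, Polynomial.eval_X, Polynomial.eval_C,
    Polynomial.eval_neg, Polynomial.eval_mul] at hxy
  obtain ⟨x, rfl⟩ := Ideal.Quotient.mk_surjective x
  obtain ⟨y, rfl⟩ := Ideal.Quotient.mk_surjective y
  have hlt : v.valuation F (algebraMap (𝓞 F) F (x ^ 2 - b₀ * y ^ 2 - a₀)) < 1 := by
    rw [← hres, map_sub, map_sub, map_mul, map_pow, map_pow]
    linear_combination hxy
  set X := algebraMap (𝓞 F) F x
  set Y := algebraMap (𝓞 F) F y
  have hsmall : ∀ {z : F}, v.valuation F z ≤ exp (-((1 : ℕ) : ℤ)) → v.valuation F z < 1 :=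
    fun h => h.trans_lt (by rw [← exp_zero, exp_lt_exp]; omega)
  have hclose : v.valuation F (X ^ 2 - b * Y ^ 2 - a) < 1 := by
    rw [show X ^ 2 - (b : F) * Y ^ 2 - a = algebraMap (𝓞 F) F (x ^ 2 - b₀ * y ^ 2 - a₀) +
      ((algebraMap (𝓞 F) F b₀ - b) * Y ^ 2 + (algebraMap (𝓞 F) F a₀ - a)) by
        simp only [map_sub, map_mul, map_pow, X, Y]; ring]
    refine Valuation.map_add_lt _ hlt (Valuation.map_add_lt _ ?_ (hsmall ha₀))
    rw [map_mul, map_pow]
    have hY : v.valuation F Y ≤ 1 := v.valuation_le_one y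
    exact lt_of_le_of_lt (mul_le_of_le_one_right' (pow_le_one' hY 2)) (hsmall hb₀)
  have hva : v.valuation F (X ^ 2 - b * Y ^ 2) = 1 :=
    (Valuation.map_eq_of_sub_lt (v := v.valuation F) (x := (a : F))
      (by rw [show v.valuation F (a : F) = 1 from ha]; exact hclose)).trans ha
  have hne : X ^ 2 - (b : F) * Y ^ 2 ≠ 0 :=
    fun h => by rw [h, map_zero] at hva; exact zero_ne_one hva
  have hmem : a / Units.mk0 _ hne ∈ localPow v 2 := by
    refine congrOne_le_localPow v two_ne_zero ?_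
    rw [ordP_eq_zero v two_ne_zero (by exact_mod_cast h2)]
    refine mem_congrOne_of_close v one_ne_zero ?_
    rw [Units.val_div_eq_div_val, Units.val_mk0, div_sub_one hne, map_div₀, hva, div_one,
      Valuation.map_sub_swap]
    by_cases h0 : v.valuation F (X ^ 2 - b * Y ^ 2 - a) = 0
    · rw [h0]; exact zero_le
    · rw [← exp_log h0, ← exp_zero, exp_lt_exp] at hclose
      rw [← exp_log h0, exp_le_exp]; omega
  rw [show a = Units.mk0 _ hne * (a / Units.mk0 _ hne) by rw [mul_div_cancel]]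
  exact mul_mem (normVals_le_normTwo ⟨X, Y, rfl⟩) (localPow_le_normTwo hmem)

open Classical in
/-- The symbol at a place prime to `2` with one unit argument. -/
theorem hil_eq_ordPar {v : HeightOneSpectrum (𝓞 F)} (h2 : v.valuation F (2 : F) = 1) (a : Fˣ)
    {b : Fˣ} (hb : b ∈ unitsAt v) :
    hil (.inl v) a b = if b ∈ localPow v 2 then 0 else ordPar v a := by
  split_ifs with hsq
  · exact hil_eq_zero_of_right a hsq
  obtain ⟨π, hπ⟩ := exists_uniformizer_unit v
  have hlin := eq_ordPar_mul (fun x => hil (.inl v) x b) (fun x y => hil_mul_left _ x y b)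
    (fun x hx => hil_units h2 hx hb) hπ
  obtain ⟨c, hc⟩ := exists_hil_eq_one (p := Sum.inl v) hsq
  have hc' : hil (.inl v) c b = ordPar v c * hil (.inl v) π b := hlin c
  rw [hc] at hc'
  have : ∀ x y : ZMod 2, 1 = x * y → y = 1 := by decide
  have e : hil (.inl v) a b = ordPar v a * hil (.inl v) π b := hlin a
  rw [e, this _ _ hc', mul_one]

end Fermat.Agent.Duality.Global.Two
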