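import Fermat.Agent.Duality.Global.Two.Approx
import Fermat.Agent.Duality.Global.Two.DegSupport

/-!
# Uniqueness of the relation attached to a non-square, and the biquadratic bound
-/

set_option autoImplicit false

open IsDedekindDomain NumberField WithZero Module

namespace Fermat.Agent.Duality.Global.Two

variable {F : Type} [Field F] [NumberField F]

namespace IsRel

variable {A B : Pl F → Fˣ → ZMod 2} {S : Finset (HeightOneSpectrum (𝓞 F))}

open Classical in
lemma sum_eq_zero_of_outside (hB : IsRel B S) {y : Fˣ} (h : ∀ v ∉ S, B (.inl v) y = 0) :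
    ∑ p ∈ plSet S, B p y = 0 := by
  set T := S ∪ (finite_setOf_valuation_ne_one y).toFinset
  have hsum := hB.sum_eq T Finset.subset_union_left y fun v hv => by
    simp only [T, Finset.mem_coe, Finset.mem_union, Set.Finite.mem_toFinset, not_or] at hv
    exact not_not.mp hv.2
  have hsub : plSet S ⊆ plSet T := by
    rintro (u | w) hp
    · exact inl_mem_plSet.mpr (Finset.mem_union_left _ (inl_mem_plSet.mp hp))
    · exact inr_mem_plSet w
  have hout : ∀ p ∈ plSet T, p ∉ plSet S → B p y = 0 := by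
    rintro (u | w) _ hp
    · exact h u fun e => hp (inl_mem_plSet.mpr e)
    · exact absurd (inr_mem_plSet w) hp
  rwa [← Finset.sum_subset hsub hout] at hsum

lemma sum_mul (hB : IsRel B S) (x y : Fˣ) :
    ∑ p ∈ plSet S, B p (x * y) = ∑ p ∈ plSet S, B p x + ∑ p ∈ plSet S, B p y := by
  rw [← Finset.sum_add_distrib]
  exact Finset.sum_congr rfl fun p _ => hB.map_mul p x y

open Classical in
lemma eq_zero_of_sum (hB : IsRel B S) (hS : SPrincipal F S)
    (h : ∀ x, ∑ p ∈ plSet S, B p x = 0) : B = 0 := by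
  funext p x
  refine hB.eq_zero_of_plSet hS (fun p hp x => ?_) p x
  obtain ⟨y, hy⟩ := exists_targets S fun q => if q = p then x else 1
  have h1 := h y
  rw [Finset.sum_eq_single_of_mem p hp fun q hq hne => ?_] at h1
  · rw [← h1]
    refine (hB.congr_sq ?_).symm
    simpa using hy p hp
  · refine (hB.congr_sq (y := 1) ?_).trans (hB.map_one q)
    simpa [hne] using hy q hq

/-- Killing the norm values is killing the whole index two subgroup. -/
lemma sum_eq_zero_of_mem {b : Fˣ} (hB : IsRel B S)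
    (hk : ∀ y ∈ normVals b, ∑ p ∈ plSet S, B p y = 0) {x : Fˣ}
    (hx : x ∈ sUnit F S ⊔ normAll b S) : ∑ p ∈ plSet S, B p x = 0 := by
  obtain ⟨u, hu, z, hz, rfl⟩ := Subgroup.mem_sup.mp hx
  obtain ⟨y, hy, s, hs, rfl⟩ := Subgroup.mem_sup.mp (normAll_le b S hz)
  have hs' : ∑ p ∈ plSet S, B p s = 0 := Finset.sum_eq_zero fun p hp => hB.map_sq p s (by
    cases p with
    | inl v => exact (mem_sqAll.mp hs).1 v (inl_mem_plSet.mp hp)
    | inr w => exact (mem_sqAll.mp hs).2 w)
  rw [hB.sum_mul, hB.sum_mul, hB.sum_eq S subset_rfl u hu, hk y hy, hs', add_zero, add_zero]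

/-- Two relations with the same kernel of index two agree. -/
theorem eq_zero_or_eq {b : Fˣ} (hb : ∀ z : Fˣ, z ^ 2 ≠ b) (hadm : Adm b S) (hA : IsRel A S)
    (hAk : ∀ y ∈ normVals b, ∑ p ∈ plSet S, A p y = 0) (hA0 : A ≠ 0)
    (hB : IsRel B S) (hBk : ∀ y ∈ normVals b, ∑ p ∈ plSet S, B p y = 0) : B = 0 ∨ B = A := by
  have h2 := (index_sup_normAll hb hadm).1
  obtain ⟨x₀, hx₀⟩ : ∃ x, ∑ p ∈ plSet S, A p x = 1 := by
    by_contra h
    push Not at h
    exact hA0 (hA.eq_zero_of_sum hadm.principal fun x =>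
      (zmodTwo_cases _).resolve_right (h x))
  have hx₀U : x₀ ∉ sUnit F S ⊔ normAll b S := fun h => by
    rw [hA.sum_eq_zero_of_mem hAk h] at hx₀; exact zero_ne_one hx₀
  rcases zmodTwo_cases (∑ p ∈ plSet S, B p x₀) with e | e
  · left
    refine hB.eq_zero_of_sum hadm.principal fun x => ?_
    by_cases hx : x ∈ sUnit F S ⊔ normAll b S
    · exact hB.sum_eq_zero_of_mem hBk hx
    · have hm := hB.sum_eq_zero_of_mem hBk (x := x * x₀)
        ((Subgroup.mul_mem_iff_of_index_two h2).mpr (iff_of_false hx hx₀U))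
      rwa [hB.sum_mul, e, add_zero] at hm
  · right
    have hC := hB.add hA
    have h0 : B + A = 0 := by
      refine hC.eq_zero_of_sum hadm.principal fun x => ?_
      have hk : ∀ y ∈ normVals b, ∑ p ∈ plSet S, (B + A) p y = 0 := fun y hy => by
        simp only [Pi.add_apply, Finset.sum_add_distrib, hAk y hy, hBk y hy, add_zero]
      by_cases hx : x ∈ sUnit F S ⊔ normAll b S
      · exact hC.sum_eq_zero_of_mem hk hx
      · have hm := hC.sum_eq_zero_of_mem hk (x := x * x₀)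
          ((Subgroup.mul_mem_iff_of_index_two h2).mpr (iff_of_false hx hx₀U))
        rw [hC.sum_mul] at hm
        simp only [Pi.add_apply, Finset.sum_add_distrib, e, hx₀] at hm ⊢
        simpa [show (1 : ZMod 2) + 1 = 0 by decide] using hm
    funext p x
    exact zmodTwo_eq_of_add (congrFun (congrFun h0 p) x)

end IsRel

lemma HasForm.norm_eq_zero {A : Pl F → Fˣ → ZMod 2} {b y : Fˣ} (h : HasForm A b)
    (hy : y ∈ normVals b) (p : Pl F) : A p y = 0 := by
  rcases h p with h' | h'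
  · exact h' y
  · rw [h']; exact hil_eq_zero.mpr (normVals_le_nrm b p hy)

lemma HasForm.kills {A : Pl F → Fˣ → ZMod 2} {b : Fˣ} (h : HasForm A b)
    (S : Finset (HeightOneSpectrum (𝓞 F))) : ∀ y ∈ normVals b, ∑ p ∈ plSet S, A p y = 0 :=
  fun _ hy => Finset.sum_eq_zero fun p _ => h.norm_eq_zero hy p

/-- A functional killing units vanishes on norm values at a place where `b` is not a square. -/
lemma eq_zero_of_norm {B : Pl F → Fˣ → ZMod 2} {T : Finset (HeightOneSpectrum (𝓞 F))}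
    (hB : IsRel B T) {v : HeightOneSpectrum (𝓞 F)} (hv : v ∉ T)
    (h2 : v.valuation F (2 : F) = 1) {b : Fˣ} (hbu : b ∈ unitsAt v) (hb : b ∉ localPow v 2)
    {y : Fˣ} (hy : y ∈ normVals b) : B (.inl v) y = 0 := by
  obtain ⟨π, hπ⟩ := exists_uniformizer_unit v
  have h : hil (.inl v) y b = 0 := hil_eq_zero.mpr (normVals_le_nrm b _ hy)
  rw [hil_eq_ordPar h2 y hbu, if_neg hb] at h
  rw [hB.eq_ordPar hv hπ, h, zero_mul]

/-- The non-zero relation attached to `b` (zero if `b` is a square). -/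
theorem exists_recRel (b : Fˣ) :
    ∃ A : Pl F → Fˣ → ZMod 2, HasForm A b ∧ ((∀ z : Fˣ, z ^ 2 ≠ b) → A ≠ 0) ∧
      ∀ T, ∃ S, T ⊆ S ∧ Adm b S ∧ IsRel A S := by
  classical
  by_cases hb : ∃ z : Fˣ, z ^ 2 = b
  · refine ⟨0, fun p => .inl fun _ => rfl, fun h => absurd hb (by push Not; exact h), fun T => ?_⟩
    obtain ⟨S, hTS, hS⟩ := exists_adm_superset b T
    exact ⟨S, hTS, hS, ⟨fun _ _ _ => (add_zero _).symm, fun _ _ _ => rfl, fun _ _ _ _ => rfl,
      fun _ _ _ _ => Finset.sum_eq_zero fun _ _ => rfl⟩⟩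
  · push Not at hb
    obtain ⟨S₀, hS₀⟩ := exists_adm b
    obtain ⟨A, hA, hform, ⟨x, hx⟩, -⟩ := exists_rel hb hS₀
    refine ⟨A, hform, fun _ h => ?_, fun T => ⟨T ∪ S₀, Finset.subset_union_left,
      hS₀.mono Finset.subset_union_right, hA.mono Finset.subset_union_right⟩⟩
    rw [h] at hx
    simp at hx

/-- The relation attached to `b`. -/
noncomputable def recRel (b : Fˣ) : Pl F → Fˣ → ZMod 2 := (exists_recRel b).choose

lemma recRel_hasForm (b : Fˣ) : HasForm (recRel b) b := (exists_recRel b).choose_spec.1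

lemma recRel_ne_zero {b : Fˣ} (hb : ∀ z : Fˣ, z ^ 2 ≠ b) : recRel b ≠ 0 :=
  (exists_recRel b).choose_spec.2.1 hb

lemma recRel_isRel (b : Fˣ) (T : Finset (HeightOneSpectrum (𝓞 F))) :
    ∃ S, T ⊆ S ∧ Adm b S ∧ IsRel (recRel b) S :=
  (exists_recRel b).choose_spec.2.2 T

/-- Uniqueness. -/
theorem eq_zero_or_eq_recRel {b : Fˣ} (hb : ∀ z : Fˣ, z ^ 2 ≠ b) {B : Pl F → Fˣ → ZMod 2}
    {T : Finset (HeightOneSpectrum (𝓞 F))} (hB : IsRel B T)
    (h : ∀ v ∉ T, b ∈ localPow v 2 → ∀ x, B (.inl v) x = 0) : B = 0 ∨ B = recRel b := by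
  classical
  obtain ⟨S, hTS, hadm, hA⟩ := recRel_isRel b T
  refine IsRel.eq_zero_or_eq hb hadm hA ((recRel_hasForm b).kills S) (recRel_ne_zero hb)
    (hB.mono hTS) fun y hy => (hB.mono hTS).sum_eq_zero_of_outside fun v hv => ?_
  by_cases hsq : b ∈ localPow v 2
  · exact h v (fun e => hv (hTS e)) hsq y
  · exact eq_zero_of_norm (hB.mono hTS) hv (hadm.two v hv) (hadm.mem v hv) hsq hy

open Classical in
/-- Among relations vanishing where `b` and `c` are both squares, at most one line is new. -/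
theorem biquadratic {b c : Fˣ} (hb : ∀ z : Fˣ, z ^ 2 ≠ b) (hc : ∀ z : Fˣ, z ^ 2 ≠ c)
    (hbc : ∀ z : Fˣ, z ^ 2 ≠ b * c) {B₁ B₂ : Pl F → Fˣ → ZMod 2}
    {T : Finset (HeightOneSpectrum (𝓞 F))} (h₁ : IsRel B₁ T) (h₂ : IsRel B₂ T)
    (hB₁ : ∀ v ∉ T, b ∈ localPow v 2 → c ∈ localPow v 2 → ∀ x, B₁ (.inl v) x = 0)
    (hB₂ : ∀ v ∉ T, b ∈ localPow v 2 → c ∈ localPow v 2 → ∀ x, B₂ (.inl v) x = 0) :
    (B₁ = 0 ∨ B₁ = recRel b) ∨ (B₂ = 0 ∨ B₂ = recRel b) ∨
      (B₁ + B₂ = 0 ∨ B₁ + B₂ = recRel b) := by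
  obtain ⟨L, _, _, _, _, β, hdeg, hβ, hβF⟩ := exists_sqrt_extension hb
  set c' : Lˣ := Units.map (algebraMap F L).toMonoidHom c
  -- `c` is not a square in `L`
  have hc' : ∀ z : Lˣ, z ^ 2 ≠ c' := by
    intro z hz
    obtain ⟨σ, hσ⟩ := exists_ne_one Nat.prime_two hdeg (L := L)
    have hzc : (z : L) ^ 2 = algebraMap F L c := congrArg Units.val hz
    have hfix : ∀ t : L, σ t = t → t ∈ Set.range (algebraMap F L) := fun t ht => by
      refine (IsGalois.mem_range_algebraMap_iff_fixed t).mpr fun f => ?_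
      have huniv : (Finset.univ : Finset (L ≃ₐ[F] L)) = {1, σ} := by
        refine (Finset.eq_univ_of_card _ ?_).symm
        rw [Finset.card_pair hσ.symm, ← Nat.card_eq_fintype_card, natCard_aut, hdeg]
      have := Finset.mem_univ f
      rw [huniv, Finset.mem_insert, Finset.mem_singleton] at this
      rcases this with rfl | rfl
      · rfl
      · exact ht
    have hσβ : σ β = -β := by
      obtain ⟨k, hk, ek⟩ := exists_zeta_pow_mul two_ne_zero isPrimitiveRoot_neg_one
        (⟨b, hβ.symm⟩ : β ^ 2 ∈ Set.range (algebraMap F L)) σ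
      interval_cases k
      · exact absurd (eq_one_of_apply_eq Nat.prime_two hdeg hβF (by simpa using ek)) hσ
      · simpa using ek
    have hsq : σ (z : L) ^ 2 = (z : L) ^ 2 := by rw [← map_pow, hzc, AlgEquiv.commutes]
    rcases sq_eq_sq_iff_eq_or_eq_neg.mp hsq with h | h
    · obtain ⟨s, hs⟩ := hfix _ h
      have h1 : s ^ 2 = (c : F) := (algebraMap F L).injective (by rw [map_pow, hs, hzc])
      exact hc (Units.mk0 s fun e => by rw [e, zero_pow two_ne_zero] at h1; exact c.ne_zero h1.symm)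
        (Units.ext h1)
    · obtain ⟨t, ht⟩ := hfix ((z : L) * β) (by rw [map_mul, h, hσβ, neg_mul_neg])
      have h1 : t ^ 2 = (b : F) * c :=
        (algebraMap F L).injective (by rw [map_pow, ht, mul_pow, hzc, hβ, map_mul, mul_comm])
      exact hbc (Units.mk0 t fun e => by
        rw [e, zero_pow two_ne_zero] at h1
        exact mul_ne_zero b.ne_zero c.ne_zero h1.symm) (Units.ext (by simpa using h1))
  -- a large set of places
  obtain ⟨SL, hSL⟩ := exists_adm c'
  choose un hun using fun w : HeightOneSpectrum (𝓞 L) => exists_place_under (K := F) w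
  obtain ⟨S, hTS, hadm, hA⟩ := recRel_isRel b (T ∪ SL.image un)
  have hTS' : T ⊆ S := Finset.subset_union_left.trans hTS
  have hadmL : Adm c' (placesOver L S) := hSL.mono fun w hw =>
    mem_placesOver.mpr ⟨un w, hTS (Finset.mem_union_right _ (Finset.mem_image_of_mem un hw)), hun w⟩
  have hidx := (index_sup_normAll hc' hadmL).1
  have hkill : ∀ {B : Pl F → Fˣ → ZMod 2}, IsRel B T →
      (∀ v ∉ T, b ∈ localPow v 2 → c ∈ localPow v 2 → ∀ x, B (.inl v) x = 0) →
      ∀ y ∈ sUnit L (placesOver L S) ⊔ normAll c' (placesOver L S),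
        ∑ p ∈ plSet S, B p (normHom y) = 0 := by
    intro B hB hvan y hy
    have hBS := hB.mono hTS'
    obtain ⟨u, hu, z, hz, rfl⟩ := Subgroup.mem_sup.mp hy
    obtain ⟨n, hn, s, hs, rfl⟩ := Subgroup.mem_sup.mp (normAll_le c' _ hz)
    have hs' : ∑ p ∈ plSet S, B p (normHom s) = 0 := by
      have hmem := normHom_mem_sqAll hdeg hβ hβF hs
      exact Finset.sum_eq_zero fun p hp => hB.map_sq p _ (by
        cases p with
        | inl v => exact (mem_sqAll.mp hmem).1 v (inl_mem_plSet.mp hp)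
        | inr w => exact (mem_sqAll.mp hmem).2 w)
    have hn' : ∑ p ∈ plSet S, B p (normHom n) = 0 := by
      refine hBS.sum_eq_zero_of_outside fun v hv => ?_
      obtain ⟨w, hw⟩ := exists_over (L := L) v
      have hwS : w ∉ placesOver L S := fun h => by
        obtain ⟨v', hv', hov⟩ := mem_placesOver.mp h
        exact hv (over_unique hov hw ▸ hv')
      have hcu : c ∈ unitsAt v := (valuation_eq_one_iff_of_over hw (c : F)).mp (hadmL.mem w hwS)
      by_cases hsq : b ∈ localPow v 2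
      · by_cases hsqc : c ∈ localPow v 2
        · exact hvan v (fun e => hv (hTS' e)) hsq hsqc _
        · exact eq_zero_of_norm hBS hv (hadm.two v hv) hcu hsqc (normHom_mem_normVals hdeg hn)
      · exact eq_zero_of_norm hBS hv (hadm.two v hv) (hadm.mem v hv) hsq
          (range_normHom_eq hdeg hβ hβF ▸ ⟨n, rfl⟩)
    rw [map_mul, map_mul, hBS.sum_mul, hBS.sum_mul,
      hBS.sum_eq S subset_rfl _ (normHom_mem_sUnit S hu), hn', hs', add_zero, add_zero]
  obtain ⟨y₀, hy₀⟩ : ∃ y₀, y₀ ∉ sUnit L (placesOver L S) ⊔ normAll c' (placesOver L S) := by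
    by_contra h
    push Not at h
    rw [(Subgroup.eq_top_iff' _).mpr h, Subgroup.index_top] at hidx
    exact absurd hidx (by norm_num)
  have hline : ∀ {B : Pl F → Fˣ → ZMod 2}, IsRel B T →
      (∀ v ∉ T, b ∈ localPow v 2 → c ∈ localPow v 2 → ∀ x, B (.inl v) x = 0) →
      ∑ p ∈ plSet S, B p (normHom y₀) = 0 → B = 0 ∨ B = recRel b := by
    intro B hB hvan h0
    refine IsRel.eq_zero_or_eq hb hadm hA ((recRel_hasForm b).kills S) (recRel_ne_zero hb)
      (hB.mono hTS') fun x hx => ?_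
    rw [← range_normHom_eq hdeg hβ hβF] at hx
    obtain ⟨y, rfl⟩ := hx
    by_cases hy : y ∈ sUnit L (placesOver L S) ⊔ normAll c' (placesOver L S)
    · exact hkill hB hvan y hy
    · have := hkill hB hvan (y * y₀)
        ((Subgroup.mul_mem_iff_of_index_two hidx).mpr (iff_of_false hy hy₀))
      rwa [map_mul, (hB.mono hTS').sum_mul, h0, add_zero] at this
  rcases zmodTwo_cases (∑ p ∈ plSet S, B₁ p (normHom y₀)) with e₁ | e₁
  · exact .inl (hline h₁ hB₁ e₁)
  rcases zmodTwo_cases (∑ p ∈ plSet S, B₂ p (normHom y₀)) with e₂ | e₂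
  · exact .inr (.inl (hline h₂ hB₂ e₂))
  refine .inr (.inr (hline (h₁.add h₂) (fun v hv hb' hc'' x => ?_) ?_))
  · simp only [Pi.add_apply, hB₁ v hv hb' hc'' x, hB₂ v hv hb' hc'' x, add_zero]
  · simp only [Pi.add_apply, Finset.sum_add_distrib, e₁, e₂]; decide

end Fermat.Agent.Duality.Global.Two
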